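import Fermat.Agent.S05.Component
import Fermat.Agent.S05.KernelOfReduction

set_option autoImplicit false
set_option linter.unusedSectionVars false

/-!
# The kernel of reduction of a multiplicative two-torsion model has at most `p` points of order `p`

(helper45; elliptic side of S44, item (E5-mult) of team note 2515.)

`W : Y² = X³ + a₂ X² + a₄ X` over a field `K` with a valuation subring `A`, `S05.MultData A W γ`
(`a₂ = γ²` a unit, `a₄` a nonzero nonunit, `2` a unit).  The function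
`u = (Y - γ X) / (Y + γ X)` is exactly multiplicative on the nodal cubic `a₄ = 0`; for a line
`Y = ℓ X + c` meeting `W` in `P₁, P₂, P₃` one has `∏ (y_i ∓ γ x_i) = c (c² + a₄ (ℓ ∓ γ)²)`
(`line_prod`), hence `u(P₁ + P₂) = u(P₁) u(P₂) κ` with `κ ≡ 1 mod a₄` on the kernel of reduction
(`uc_add`), and `u(Q)^p ≡ 1 mod a₄` for a `p`-torsion point `Q` of the kernel of reduction
(`uc_pow_sub_one`).  If `v(a₄) ≤ v(p)^p` (Frey curve at `p ∣ abc`) this forces
`v(z(Q))^(p-1) = v(p)` and `(u(Q) - 1)^(p-1) ≡ -p` (`torsion_depth`), and the residues of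
`(u(Q) - 1) / (u(Q₁) - 1)` are distinct `(p-1)`-th roots of unity: at most `p - 1` nonzero
torsion points (`card_torsion_nearZero_le`).  No formal groups, no division polynomials.
-/

namespace Fermat.Agent.S40x.Ell.UMult

section poly


open Polynomial

/-- `(1 + X)^p = 1 + X^p + p X R` with `R(0) = 1`. -/
theorem exists_one_add_pow_prime {p : ℕ} (hp : p.Prime) :
    ∃ R : ℤ[X], (1 + X : ℤ[X]) ^ p = 1 + X ^ p + (p : ℤ[X]) * X * R ∧ R.eval 0 = 1 := by
  obtain ⟨R, hR⟩ := exists_add_pow_prime_eq hp (1 : ℤ[X]) X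
  refine ⟨R, by rw [hR]; ring, ?_⟩
  have hd := congrArg (fun f => (derivative f).eval 0) hR
  simp only [derivative_pow, derivative_add, derivative_one, derivative_X, derivative_mul,
    derivative_natCast, zero_add, mul_one, eval_add, eval_mul, eval_pow, eval_X, eval_one,
    eval_natCast, one_pow, eval_C, add_zero, zero_mul, mul_zero] at hd
  have hp1 : p - 1 ≠ 0 := by have := hp.two_le; omega
  rw [zero_pow hp1] at hd
  have hp0 : (p : ℤ) ≠ 0 := by exact_mod_cast hp.ne_zero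
  have : (p : ℤ) * (R.eval 0 - 1) = 0 := by
    simp only [mul_zero, zero_add] at hd
    linarith
  rcases mul_eq_zero.1 this with h | h
  · exact absurd h hp0
  · linarith

/-- `(1 + w)^p = 1 + w^p + p w (1 + w s)` in every commutative ring. -/
theorem exists_one_add_pow_prime_eq' {B : Type*} [CommRing B] {p : ℕ} (hp : p.Prime) (w : B) :
    ∃ s : B, (1 + w) ^ p = 1 + w ^ p + (p : B) * w * (1 + w * s) := by
  obtain ⟨R, hR, hR0⟩ := exists_one_add_pow_prime hp
  refine ⟨aeval w (divX R), ?_⟩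
  have h1 : R = X * divX R + 1 := by
    conv_lhs => rw [← X_mul_divX_add R]
    rw [← coeff_zero_eq_eval_zero] at hR0
    rw [hR0, map_one]
  have h2 := congrArg (aeval w) hR
  rw [h1] at h2
  simpa [add_comm, mul_comm, mul_assoc, mul_left_comm] using h2


end poly


open WeierstrassCurve WeierstrassCurve.Affine Fermat.Agent.S05 Fermat.Agent.S05.KernelOfReduction

variable {K : Type*} [Field K]

theorem line_prod {a₂ a₄ s ℓ c x₁ x₂ x₃ : K} (hs : s ^ 2 = a₂)
    (e1 : x₁ + x₂ + x₃ = ℓ ^ 2 - a₂)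
    (e2 : x₁ * x₂ + x₁ * x₃ + x₂ * x₃ = a₄ - 2 * ℓ * c)
    (e3 : x₁ * x₂ * x₃ = c ^ 2) :
    ((ℓ - s) * x₁ + c) * ((ℓ - s) * x₂ + c) * ((ℓ - s) * x₃ + c) =
      c * (c ^ 2 + a₄ * (ℓ - s) ^ 2) := by
  linear_combination (ℓ - s) ^ 3 * e3 + (ℓ - s) ^ 2 * c * e2 + (ℓ - s) * c ^ 2 * e1
    + c ^ 2 * (ℓ - s) * hs

variable (A : ValuationSubring K) {W : Affine K}

/-- the multiplicative coordinate `(Y - γ X) / (Y + γ X)` (`1` at infinity). -/
def uc (γ : K) : W.Point → K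
  | .zero => 1
  | .some x y _ => (y - γ * x) / (y + γ * x)

@[simp] theorem uc_zero (γ : K) : uc γ (0 : W.Point) = 1 := rfl

@[simp] theorem uc_some (γ : K) {x y : K} (h : W.Nonsingular x y) :
    uc γ (Point.some x y h) = (y - γ * x) / (y + γ * x) := rfl

variable [DecidableEq K]

/-- the line through two points of the kernel of reduction (copied from the proof of
`S05.KernelOfReduction.add_estimate_some`). -/
theorem line_facts (hW : IsTwoModel W) (ha : W.a₂ ∈ A) (hb : W.a₄ ∈ A)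
    {t : A.ValueGroup} (ht : t < 1) {x₁ y₁ x₂ y₂ : K}
    (h₁ : W.Equation x₁ y₁) (h₂ : W.Equation x₂ y₂)
    (hx1 : x₁ ∉ A) (hx2 : x₂ ∉ A)
    (hz1 : A.valuation (x₁ / y₁) ≤ t) (hz2 : A.valuation (x₂ / y₂) ≤ t)
    (hxy : ¬(x₁ = x₂ ∧ y₁ = W.negY x₂ y₂)) :
    y₂ = W.slope x₁ x₂ y₁ y₂ * x₂ + (y₁ - W.slope x₁ x₂ y₁ y₂ * x₁) ∧
      y₁ - W.slope x₁ x₂ y₁ y₂ * x₁ ≠ 0 ∧
      A.valuation (1 / (y₁ - W.slope x₁ x₂ y₁ y₂ * x₁)) ≤ t ^ 3 ∧
      A.valuation (W.slope x₁ x₂ y₁ y₂ / (y₁ - W.slope x₁ x₂ y₁ y₂ * x₁)) ≤ t ^ 2 := by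
  have e₁ := equation_twoModel hW h₁
  have e₂ := equation_twoModel hW h₂
  set ℓ := W.slope x₁ x₂ y₁ y₂ with hℓ
  by_cases hx : x₁ = x₂
  · have hy : y₁ ≠ W.negY x₂ y₂ := fun h => hxy ⟨hx, h⟩
    have hyy : y₁ = y₂ := Y_eq_of_Y_ne h₁ h₂ hx hy
    subst hx; subst hyy
    have hs : ℓ = (3 * x₁ ^ 2 + 2 * W.a₂ * x₁ + W.a₄) / (2 * y₁) := by
      rw [hℓ, slope_of_Y_ne rfl hy, negY_twoModel hW, hW.a₁]
      congr 1
      · ring
      · ring
    have h2 : (2 : K) ≠ 0 := by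
      intro h0
      apply hy
      rw [negY_twoModel hW]
      linear_combination y₁ * h0
    refine ⟨by ring, ?_⟩
    have := tangent_bounds A ha hb e₁ hx1 hz1 h2
    rw [← hs] at this
    obtain ⟨c0, c1, c2⟩ := this
    exact ⟨c0, c1, c2⟩
  · have hs : ℓ = (y₁ - y₂) / (x₁ - x₂) := by rw [hℓ, slope_of_X_ne hx]
    have hx12 : x₁ - x₂ ≠ 0 := sub_ne_zero.2 hx
    refine ⟨?_, ?_⟩
    · rw [hs]; field_simp; ring
    · have := secant_bounds A ha hb ht e₁ e₂ hx1 hx2 hz1 hz2 hx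
      rw [← hs] at this
      exact this


/-- `y ± γ x ≠ 0` on the kernel of reduction. -/
theorem lin_ne_zero (hW : IsTwoModel W) (ha : W.a₂ ∈ A) (hb : W.a₄ ∈ A) {s : K}
    (hs : s ^ 2 = W.a₂) {x y : K} (h : W.Equation x y) (hx : x ∉ A) : y + s * x ≠ 0 := by
  have e := equation_twoModel hW h
  obtain ⟨-, hx0, hy0, -, hz, -⟩ := point_facts A ha hb e hx
  have hsA : A.valuation s ≤ 1 := by
    have : A.valuation (s ^ 2) ≤ 1 := by rw [hs]; exact (A.valuation_le_one_iff _).2 ha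
    rw [map_pow] at this
    exact (pow_le_one_iff_of_nonneg zero_le (by norm_num)).1 this
  intro h0
  have h1 : s * (x / y) = -1 := by
    field_simp
    linear_combination h0
  have h2 : A.valuation (s * (x / y)) < 1 := by
    rw [map_mul]
    calc A.valuation s * A.valuation (x / y) ≤ 1 * A.valuation (x / y) := by gcongr
      _ = A.valuation (x / y) := one_mul _
      _ < 1 := hz
  rw [h1, Valuation.map_neg, map_one] at h2
  exact lt_irrefl _ h2

/-- **Multiplicativity of `u` modulo `a₄`** for two affine points of the kernel of reduction in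
general position. -/
theorem uc_add_some (hW : IsTwoModel W) (ha : W.a₂ ∈ A) (hb : W.a₄ ∈ A) {γ : K}
    (hγ : γ ^ 2 = W.a₂) {x₁ y₁ x₂ y₂ : K}
    (h₁ : W.Nonsingular x₁ y₁) (h₂ : W.Nonsingular x₂ y₂)
    (hx1 : x₁ ∉ A) (hx2 : x₂ ∉ A)
    (hxy : ¬(x₁ = x₂ ∧ y₁ = W.negY x₂ y₂)) :
    ∃ κ : K, uc γ (Point.some x₁ y₁ h₁ + Point.some x₂ y₂ h₂) =
        uc γ (Point.some x₁ y₁ h₁) * uc γ (Point.some x₂ y₂ h₂) * κ ∧
      A.valuation (κ - 1) ≤ A.valuation W.a₄ := by
  have e₁ := equation_twoModel hW h₁.1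
  have e₂ := equation_twoModel hW h₂.1
  obtain ⟨-, hx10, hy10, -, hz1, -⟩ := point_facts A ha hb e₁ hx1
  obtain ⟨-, hx20, hy20, -, hz2, -⟩ := point_facts A ha hb e₂ hx2
  set t := max (A.valuation (x₁ / y₁)) (A.valuation (x₂ / y₂)) with ht
  have ht1 : t < 1 := max_lt hz1 hz2
  obtain ⟨v1, v2, v3⟩ := vieta h₁.1 h₂.1 hxy
  obtain ⟨l2, hc0, hnu, hlc⟩ := line_facts A hW ha hb ht1 h₁.1 h₂.1 hx1 hx2 (le_max_left _ _)
    (le_max_right _ _) hxy
  obtain ⟨hx3, -⟩ := add_estimate_some A hW ha hb ht1 h₁.1 h₂.1 hx1 hx2 (le_max_left _ _)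
    (le_max_right _ _) hxy
  have h3eq := equation_negAdd h₁.1 h₂.1 hxy
  set ℓ := W.slope x₁ x₂ y₁ y₂ with hℓ
  set x₃ := W.addX x₁ x₂ ℓ with hx₃
  set c := y₁ - ℓ * x₁ with hc
  rw [hW.a₁] at v1
  rw [hW.a₁, hW.a₃] at v2
  rw [hW.a₃, hW.a₆] at v3
  have E1 : x₁ + x₂ + x₃ = ℓ ^ 2 - W.a₂ := by linear_combination v1
  have E2 : x₁ * x₂ + x₁ * x₃ + x₂ * x₃ = W.a₄ - 2 * ℓ * c := by
    rw [hc]; linear_combination -v2
  have E3 : x₁ * x₂ * x₃ = c ^ 2 := by rw [hc]; linear_combination v3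
  have hnegAdd : W.negAddY x₁ x₂ y₁ ℓ = ℓ * x₃ + c := by
    simp only [negAddY, hc]; ring
  have haddY : W.addY x₁ x₂ y₁ ℓ = -(ℓ * x₃ + c) := by
    rw [addY, negY_twoModel hW, hnegAdd]
  rw [hnegAdd] at h3eq
  -- the two products
  have hm : (-γ) ^ 2 = W.a₂ := by rw [neg_sq, hγ]
  have Pm := line_prod hγ E1 E2 E3
  have Pp := line_prod hm E1 E2 E3
  simp only [sub_neg_eq_add] at Pp
  -- nonvanishing
  have n1p : y₁ + γ * x₁ ≠ 0 := lin_ne_zero A hW ha hb hγ h₁.1 hx1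
  have n2p : y₂ + γ * x₂ ≠ 0 := lin_ne_zero A hW ha hb hγ h₂.1 hx2
  have n3m : (ℓ * x₃ + c) + (-γ) * x₃ ≠ 0 := lin_ne_zero A hW ha hb hm h3eq hx3
  have n3p : (ℓ * x₃ + c) + γ * x₃ ≠ 0 := lin_ne_zero A hW ha hb hγ h3eq hx3
  -- valuations
  have hγA : A.valuation γ ≤ 1 := by
    have : A.valuation (γ ^ 2) ≤ 1 := by rw [hγ]; exact (A.valuation_le_one_iff _).2 ha
    rw [map_pow] at this
    exact (pow_le_one_iff_of_nonneg zero_le (by norm_num)).1 this
  have hbA : A.valuation W.a₄ ≤ 1 := (A.valuation_le_one_iff _).2 hb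
  have ht2 : t ^ 2 < 1 := pow_lt_one₀ zero_le ht1 (by norm_num)
  have ht3 : t ^ 3 < 1 := pow_lt_one₀ zero_le ht1 (by norm_num)
  have hγc : A.valuation (γ / c) ≤ t ^ 3 := by
    have : γ / c = γ * (1 / c) := by ring
    rw [this, map_mul]
    calc A.valuation γ * A.valuation (1 / c) ≤ 1 * t ^ 3 := by gcongr
      _ = t ^ 3 := one_mul _
  have hsub : A.valuation ((ℓ - γ) / c) < 1 := by
    have : (ℓ - γ) / c = ℓ / c - γ / c := by ring
    rw [this]
    exact lt_of_le_of_lt (A.valuation.map_sub _ _) (max_lt (hlc.trans_lt ht2) (hγc.trans_lt ht3))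
  have hden : A.valuation (W.a₄ * ((ℓ - γ) / c) ^ 2) < 1 := by
    rw [map_mul, map_pow]
    calc A.valuation W.a₄ * A.valuation ((ℓ - γ) / c) ^ 2 ≤ 1 * A.valuation ((ℓ - γ) / c) ^ 2 := by
          gcongr
      _ = A.valuation ((ℓ - γ) / c) ^ 2 := one_mul _
      _ < 1 := pow_lt_one₀ zero_le hsub (by norm_num)
  have hden1 : A.valuation (1 + W.a₄ * ((ℓ - γ) / c) ^ 2) = 1 :=
    (A.valuation).map_one_add_of_lt hden
  have hden0 : 1 + W.a₄ * ((ℓ - γ) / c) ^ 2 ≠ 0 := by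
    intro h0; rw [h0, map_zero] at hden1; exact zero_ne_one hden1
  have hNm : c ^ 2 + W.a₄ * (ℓ - γ) ^ 2 = c ^ 2 * (1 + W.a₄ * ((ℓ - γ) / c) ^ 2) := by
    field_simp
  have hNm0 : c ^ 2 + W.a₄ * (ℓ - γ) ^ 2 ≠ 0 := by
    rw [hNm]; exact mul_ne_zero (pow_ne_zero 2 hc0) hden0
  refine ⟨(c ^ 2 + W.a₄ * (ℓ + γ) ^ 2) / (c ^ 2 + W.a₄ * (ℓ - γ) ^ 2), ?_, ?_⟩
  · rw [Point.add_some hxy, uc_some, uc_some, uc_some, haddY]
    have hy1 : y₁ = ℓ * x₁ + c := by rw [hc]; ring
    have n3m' : -(ℓ * x₃ + c) + γ * x₃ ≠ 0 := by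
      intro h0; apply n3m; linear_combination -h0
    rw [div_mul_div_comm, div_mul_div_comm, div_eq_div_iff n3m' (mul_ne_zero (mul_ne_zero n1p n2p) hNm0)]
    have Pm' : (y₁ - γ * x₁) * (y₂ - γ * x₂) * ((ℓ * x₃ + c) - γ * x₃) =
        c * (c ^ 2 + W.a₄ * (ℓ - γ) ^ 2) := by
      rw [← Pm, l2, hy1]; ring
    have Pp' : (y₁ + γ * x₁) * (y₂ + γ * x₂) * ((ℓ * x₃ + c) + γ * x₃) =
        c * (c ^ 2 + W.a₄ * (ℓ + γ) ^ 2) := by
      rw [← Pp, l2, hy1]; ring
    linear_combination (-(c ^ 2 + W.a₄ * (ℓ - γ) ^ 2)) * Pp' + (c ^ 2 + W.a₄ * (ℓ + γ) ^ 2) * Pm'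
  · have hκ : (c ^ 2 + W.a₄ * (ℓ + γ) ^ 2) / (c ^ 2 + W.a₄ * (ℓ - γ) ^ 2) - 1 =
        W.a₄ * (4 * γ * (ℓ / c) * (1 / c)) / (1 + W.a₄ * ((ℓ - γ) / c) ^ 2) := by
      rw [hNm]
      field_simp
      ring
    rw [hκ, map_div₀, hden1, div_one, map_mul]
    have h4 : A.valuation (4 : K) ≤ 1 := by
      have : (4 : K) = 2 * 2 := by norm_num
      rw [this, map_mul]
      exact mul_le_one' (val_two_le_one A) (val_two_le_one A)
    have : A.valuation (4 * γ * (ℓ / c) * (1 / c)) ≤ 1 := by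
      rw [map_mul, map_mul, map_mul]
      have h1 : A.valuation (ℓ / c) ≤ 1 := (hlc.trans_lt ht2).le
      have h2 : A.valuation (1 / c) ≤ 1 := (hnu.trans_lt ht3).le
      calc A.valuation 4 * A.valuation γ * A.valuation (ℓ / c) * A.valuation (1 / c)
          ≤ 1 * 1 * 1 * 1 := by gcongr
        _ = 1 := by simp
    calc A.valuation W.a₄ * A.valuation (4 * γ * (ℓ / c) * (1 / c)) ≤ A.valuation W.a₄ * 1 := by
          gcongr
      _ = A.valuation W.a₄ := mul_one _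


theorem uc_neg (hW : IsTwoModel W) (γ : K) (P : W.Point) : uc γ (-P) = (uc γ P)⁻¹ := by
  cases P with
  | zero => simp [← Point.zero_def]
  | some x y h =>
    rw [Point.neg_some, uc_some, uc_some, negY_twoModel hW, inv_div]
    have e1 : -y - γ * x = -(y + γ * x) := by ring
    have e2 : -y + γ * x = -(y - γ * x) := by ring
    rw [e1, e2, neg_div_neg_eq]

theorem uc_ne_zero (hW : IsTwoModel W) (ha : W.a₂ ∈ A) (hb : W.a₄ ∈ A) {γ : K}
    (hγ : γ ^ 2 = W.a₂) {P : W.Point} (hP : NearZero A P) : uc γ P ≠ 0 := by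
  cases P with
  | zero => simp [← Point.zero_def]
  | some x y h =>
    rw [uc_some]
    have hm : (-γ) ^ 2 = W.a₂ := by rw [neg_sq, hγ]
    have n1 := lin_ne_zero A hW ha hb hγ h.1 hP
    have n2 := lin_ne_zero A hW ha hb hm h.1 hP
    refine div_ne_zero ?_ n1
    intro h0; apply n2; linear_combination h0

/-- **`u` is multiplicative modulo `a₄` on the kernel of reduction.** -/
theorem uc_add (hW : IsTwoModel W) (ha : W.a₂ ∈ A) (hb : W.a₄ ∈ A) {γ : K}
    (hγ : γ ^ 2 = W.a₂) {P Q : W.Point} (hP : NearZero A P) (hQ : NearZero A Q) :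
    ∃ κ : K, uc γ (P + Q) = uc γ P * uc γ Q * κ ∧ A.valuation (κ - 1) ≤ A.valuation W.a₄ := by
  cases P with
  | zero =>
    refine ⟨1, ?_, by simp⟩
    rw [← Point.zero_def, zero_add, uc_zero, one_mul, mul_one]
  | some x₁ y₁ h₁ =>
    cases Q with
    | zero =>
      refine ⟨1, ?_, by simp⟩
      rw [← Point.zero_def, add_zero, uc_zero, mul_one, mul_one]
    | some x₂ y₂ h₂ =>
      by_cases hxy : x₁ = x₂ ∧ y₁ = W.negY x₂ y₂
      · refine ⟨1, ?_, by simp⟩
        have hneg : Point.some x₁ y₁ h₁ = -Point.some x₂ y₂ h₂ := by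
          rw [Point.neg_some]
          obtain ⟨hx, hy⟩ := hxy
          subst hx; subst hy
          rfl
        rw [hneg, neg_add_cancel, uc_zero, uc_neg hW, mul_one,
          inv_mul_cancel₀ (uc_ne_zero A hW ha hb hγ hQ)]
      · exact uc_add_some A hW ha hb hγ h₁ h₂ hP hQ hxy

/-- the `1`-units modulo `β ≤ 1` are closed under multiplication -/
theorem oneUnit_mul {β : A.ValueGroup} (hβ : β ≤ 1) {κ κ' : K}
    (h : A.valuation (κ - 1) ≤ β) (h' : A.valuation (κ' - 1) ≤ β) :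
    A.valuation (κ * κ' - 1) ≤ β := by
  have hκ' : A.valuation κ' ≤ 1 := by
    have : κ' = (κ' - 1) + 1 := by ring
    rw [this]
    exact le_trans (A.valuation.map_add _ _) (max_le (h'.trans hβ) (by simp))
  have : κ * κ' - 1 = (κ - 1) * κ' + (κ' - 1) := by ring
  rw [this]
  refine le_trans (A.valuation.map_add _ _) (max_le ?_ h')
  rw [map_mul]
  calc A.valuation (κ - 1) * A.valuation κ' ≤ β * 1 := by gcongr
    _ = β := mul_one _

theorem uc_nsmul (hW : IsTwoModel W) (ha : W.a₂ ∈ A) (hb : W.a₄ ∈ A) {γ : K}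
    (hγ : γ ^ 2 = W.a₂) {Q : W.Point} (hQ : NearZero A Q) (n : ℕ) :
    ∃ κ : K, uc γ (n • Q) = uc γ Q ^ n * κ ∧ A.valuation (κ - 1) ≤ A.valuation W.a₄ := by
  have hβ : A.valuation W.a₄ ≤ 1 := (A.valuation_le_one_iff _).2 hb
  induction n with
  | zero => exact ⟨1, by simp, by simp⟩
  | succ n ih =>
    obtain ⟨κ, h1, h2⟩ := ih
    have hn : NearZero A (n • Q) := (nsmul_estimate A hW ha hb hQ n).1
    obtain ⟨κ', h1', h2'⟩ := uc_add A hW ha hb hγ hn hQ
    refine ⟨κ * κ', ?_, oneUnit_mul A hβ h2 h2'⟩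
    rw [succ_nsmul, h1', h1, pow_succ]
    ring

/-- **`u(Q)^p ≡ 1 mod a₄`** for a `p`-torsion point of the kernel of reduction. -/
theorem uc_pow_sub_one (hW : IsTwoModel W) (ha : W.a₂ ∈ A) (hb : A.valuation W.a₄ < 1) {γ : K}
    (hγ : γ ^ 2 = W.a₂) {Q : W.Point} (hQ : NearZero A Q) {n : ℕ} (hn : n • Q = 0) :
    A.valuation (uc γ Q ^ n - 1) ≤ A.valuation W.a₄ := by
  have hbA : W.a₄ ∈ A := (A.valuation_le_one_iff _).1 hb.le
  obtain ⟨κ, h1, h2⟩ := uc_nsmul A hW ha hbA hγ hQ n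
  rw [hn, uc_zero] at h1
  have hκ1 : A.valuation κ = 1 := by
    have : κ = 1 + (κ - 1) := by ring
    rw [this]
    exact (A.valuation).map_one_add_of_lt (h2.trans_lt hb)
  have hκ0 : κ ≠ 0 := by
    intro h0; rw [h0, map_zero] at hκ1; exact zero_ne_one hκ1
  have : uc γ Q ^ n - 1 = -(κ - 1) / κ := by
    field_simp
    linear_combination -h1
  rw [this, map_div₀, hκ1, div_one, Valuation.map_neg]
  exact h2


/-! ### part 2: depth of the torsion and counting -/


variable {γ : K}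

/-- `u - 1` in terms of `z = x / y`. -/
theorem uc_sub_one_mul (D : MultData A W γ) {P : W.Point} (hP : NearZero A P) :
    (uc γ P - 1) * (1 + γ * zc P) = -2 * γ * zc P := by
  have ha : W.a₂ ∈ A := by rw [← A.valuation_le_one_iff, D.ha]
  have hb : W.a₄ ∈ A := by rw [← A.valuation_le_one_iff]; exact D.hb.le
  cases P with
  | zero => simp [← Point.zero_def]
  | some x y h =>
    have e := equation_twoModel D.model h.1
    obtain ⟨-, hx0, hy0, -, -, -⟩ := point_facts A ha hb e hP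
    have n1 := lin_ne_zero A D.model ha hb D.hγ h.1 hP
    rw [uc_some, zc_some]
    field_simp
    ring

theorem val_one_add_gamma_zc (D : MultData A W γ) {P : W.Point} (hP : NearZero A P) :
    A.valuation (1 + γ * zc P) = 1 := by
  have ha : W.a₂ ∈ A := by rw [← A.valuation_le_one_iff, D.ha]
  have hb : W.a₄ ∈ A := by rw [← A.valuation_le_one_iff]; exact D.hb.le
  apply (A.valuation).map_one_add_of_lt
  rw [map_mul, D.valuation_gamma, one_mul]
  exact val_zc_lt_one A D.model ha hb hP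

theorem one_add_gamma_zc_ne_zero (D : MultData A W γ) {P : W.Point} (hP : NearZero A P) :
    1 + γ * zc P ≠ 0 := by
  intro h0
  have := val_one_add_gamma_zc A D hP
  rw [h0, map_zero] at this
  exact zero_ne_one this

/-- `v(u(P) - u(Q)) = v(z(P) - z(Q))` on the kernel of reduction. -/
theorem val_uc_sub_uc (D : MultData A W γ) {P Q : W.Point} (hP : NearZero A P)
    (hQ : NearZero A Q) :
    A.valuation (uc γ P - uc γ Q) = A.valuation (zc P - zc Q) := by
  have h1 := uc_sub_one_mul A D hP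
  have h2 := uc_sub_one_mul A D hQ
  have n1 := one_add_gamma_zc_ne_zero A D hP
  have n2 := one_add_gamma_zc_ne_zero A D hQ
  have e : (uc γ P - uc γ Q) * ((1 + γ * zc P) * (1 + γ * zc Q)) = -2 * γ * (zc P - zc Q) := by
    linear_combination (1 + γ * zc Q) * h1 - (1 + γ * zc P) * h2
  have := congrArg A.valuation e
  rw [map_mul, map_mul, val_one_add_gamma_zc A D hP, val_one_add_gamma_zc A D hQ, mul_one,
    mul_one, map_mul, map_mul, Valuation.map_neg, D.h2, D.valuation_gamma, one_mul, one_mul] at this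
  exact this

theorem val_uc_sub_one (D : MultData A W γ) {P : W.Point} (hP : NearZero A P) :
    A.valuation (uc γ P - 1) = A.valuation (zc P) := by
  have := val_uc_sub_uc A D hP (nearZero_zero A (W := W))
  simpa using this


/-- ordered group fact: `t^(n) = π`, `0 < t < 1`, `2 ≤ n` gives `π^n < t * π`... we only need:
`π ^ (n+1) / t < π`, stated multiplicatively as `π ^ (n + 1) < π * t`. -/
theorem pow_succ_lt_mul {Γ : Type*} [LinearOrderedCommGroupWithZero Γ] {t π : Γ} {n : ℕ}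
    (hn : 2 ≤ n) (ht0 : t ≠ 0) (ht1 : t < 1) (h : t ^ n = π) : π ^ (n + 1) < π * t := by
  have hπ0 : π ≠ 0 := by rw [← h]; exact pow_ne_zero _ ht0
  have hπpos : 0 < π := zero_lt_iff.2 hπ0
  rw [pow_succ', mul_lt_mul_iff_of_pos_left hπpos, ← h, ← pow_mul]
  calc t ^ (n * n) < t ^ 1 := by
        apply pow_lt_pow_right_of_lt_one₀ (zero_lt_iff.2 ht0) ht1
        nlinarith
    _ = t := pow_one t

/-- **Depth of the `p`-torsion of the kernel of reduction** on a multiplicative model with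
`v(a₄) ≤ v(p)^p`: `v(z(Q))^(p-1) = v(p)` and `(u(Q) - 1)^(p-1) ≡ -p` modulo higher order. -/
theorem torsion_depth (D : MultData A W γ) {p : ℕ} (hp : p.Prime) (hp2 : p ≠ 2)
    (hp0 : (p : K) ≠ 0) (hπ : A.valuation W.a₄ ≤ A.valuation (p : K) ^ p)
    {Q : W.Point} (hQ : NearZero A Q) (hQ0 : Q ≠ 0) (hpQ : p • Q = 0) :
    A.valuation (zc Q) ^ (p - 1) = A.valuation (p : K) ∧
      A.valuation ((uc γ Q - 1) ^ (p - 1) + (p : K)) < A.valuation (p : K) := by
  have ha : W.a₂ ∈ A := by rw [← A.valuation_le_one_iff, D.ha]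
  have hb : W.a₄ ∈ A := by rw [← A.valuation_le_one_iff]; exact D.hb.le
  have hp3 : 3 ≤ p := by
    have := hp.two_le
    omega
  set π := A.valuation (p : K) with hπdef
  set w := uc γ Q - 1 with hwdef
  set τ := A.valuation (zc Q) with hτdef
  have hwτ : A.valuation w = τ := val_uc_sub_one A D hQ
  have hz0 : zc Q ≠ 0 := fun h0 => hQ0 ((zc_eq_zero_iff A D.model ha hb hQ).1 h0)
  have hτ0 : τ ≠ 0 := (A.valuation.ne_zero_iff).2 hz0
  have hτpos : 0 < τ := zero_lt_iff.2 hτ0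
  have hτ1 : τ < 1 := val_zc_lt_one A D.model ha hb hQ
  have hπ0 : π ≠ 0 := (A.valuation.ne_zero_iff).2 hp0
  have hπpos : 0 < π := zero_lt_iff.2 hπ0
  have hπle : π ≤ 1 := (A.valuation_le_one_iff _).2 (natCast_mem A p)
  have hπ1 : π < 1 := by
    rcases lt_or_eq_of_le hπle with h | h
    · exact h
    · exact absurd (eq_zero_of_nsmul_eq_zero A D.model ha hb hQ p h hpQ) hQ0
  -- the binomial identity inside `A`
  have hwA : w ∈ A := by rw [← A.valuation_le_one_iff, hwτ]; exact hτ1.le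
  obtain ⟨s', hs'⟩ := exists_one_add_pow_prime_eq' hp (⟨w, hwA⟩ : A)
  set s : K := (s' : K) with hsdef
  have hsA : A.valuation s ≤ 1 := (A.valuation_le_one_iff _).2 s'.2
  have hbin : (1 + w) ^ p = 1 + w ^ p + (p : K) * w * (1 + w * s) := by
    have := congrArg (fun x : A => (x : K)) hs'
    simpa using this
  set r := 1 + w * s with hrdef
  have hws : A.valuation (w * s) ≤ τ := by
    rw [map_mul, hwτ]
    calc τ * A.valuation s ≤ τ * 1 := by gcongr
      _ = τ := mul_one _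
  have hr1 : A.valuation r = 1 := (A.valuation).map_one_add_of_lt (hws.trans_lt hτ1)
  -- `E = u^p - 1`
  have hE : uc γ Q ^ p - 1 = w ^ p + (p : K) * w * r := by
    have : uc γ Q = 1 + w := by rw [hwdef]; ring
    rw [this, hbin]; ring
  have hEv : A.valuation (w ^ p + (p : K) * w * r) ≤ π ^ p := by
    rw [← hE]
    exact (uc_pow_sub_one A D.model ha D.hb D.hγ hQ hpQ).trans hπ
  have hv1 : A.valuation (w ^ p) = τ ^ p := by rw [map_pow, hwτ]
  have hv2 : A.valuation ((p : K) * w * r) = π * τ := by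
    rw [map_mul, map_mul, hr1, mul_one, hwτ]
  have hpp : p = (p - 1) + 1 := by omega
  have hτp : τ ^ p = τ ^ (p - 1) * τ := by
    conv_lhs => rw [hpp, pow_succ]
  have key : τ ^ (p - 1) = π := by
    rcases lt_trichotomy (τ ^ (p - 1)) π with h | h | h
    · -- deep case
      exfalso
      have hlt : τ ^ p < π * τ := by
        rw [hτp]; exact mul_lt_mul_of_pos_right h hτpos
      have hE' : A.valuation (w ^ p + (p : K) * w * r) = π * τ := by
        rw [Valuation.map_add_eq_of_lt_right _ (by rw [hv1, hv2]; exact hlt), hv2]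
      rw [hE'] at hEv
      -- τ ≤ π^(p-1)
      have h1 : τ ≤ π ^ (p - 1) := by
        have : π * τ ≤ π * π ^ (p - 1) := by
          rw [← pow_succ']
          rwa [← hpp]
        exact (mul_le_mul_iff_of_pos_left hπpos).1 this
      -- π ≤ τ^2
      obtain ⟨-, e⟩ := nsmul_estimate A D.model ha hb hQ p
      rw [hpQ, zc_zero, zero_sub, Valuation.map_neg, map_mul] at e
      have h2 : π ≤ τ ^ 2 := by
        have : π * τ ≤ τ ^ 2 * τ := by
          calc π * τ ≤ τ ^ 3 := e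
            _ = τ ^ 2 * τ := pow_succ τ 2
        exact (mul_le_mul_iff_of_pos_right hτpos).1 this
      have h3 : τ ^ 2 ≤ π ^ 2 := by
        calc τ ^ 2 ≤ (π ^ (p - 1)) ^ 2 := by gcongr
          _ = π ^ ((p - 1) * 2) := (pow_mul _ _ _).symm
          _ ≤ π ^ 2 := pow_le_pow_of_le_one zero_le hπle (by omega)
      have h4 : π ^ 2 < π := by
        calc π ^ 2 = π * π := pow_two π
          _ < π * 1 := mul_lt_mul_of_pos_left hπ1 hπpos
          _ = π := mul_one π
      exact absurd (lt_of_le_of_lt (h2.trans h3) h4) (lt_irrefl _)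
    · exact h
    · -- shallow case
      exfalso
      have hlt : π * τ < τ ^ p := by
        rw [hτp]; exact mul_lt_mul_of_pos_right h hτpos
      have hE' : A.valuation (w ^ p + (p : K) * w * r) = τ ^ p := by
        rw [Valuation.map_add_eq_of_lt_left _ (by rw [hv1, hv2]; exact hlt), hv1]
      rw [hE'] at hEv
      have h1 : τ ≤ π := (pow_le_pow_iff_left₀ zero_le zero_le hp.ne_zero).1 hEv
      have h2 : τ ^ (p - 1) ≤ π := by
        calc τ ^ (p - 1) ≤ π ^ (p - 1) := by gcongr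
          _ ≤ π ^ 1 := pow_le_pow_of_le_one zero_le hπle (by omega)
          _ = π := pow_one π
      exact absurd h (not_lt.2 h2)
  refine ⟨key, ?_⟩
  -- second claim
  have hw0 : w ≠ 0 := by
    intro h0; rw [h0, map_zero] at hwτ; exact hτ0 hwτ.symm
  have hdecomp : w * (w ^ (p - 1) + (p : K)) =
      (w ^ p + (p : K) * w * r) - (p : K) * w * (w * s) := by
    rw [hrdef]
    conv_rhs => rw [hpp, pow_succ]
    rw [← hpp]
    ring
  have hb1 : A.valuation ((p : K) * w * (w * s)) < π * τ := by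
    rw [map_mul, map_mul, hwτ]
    calc π * τ * A.valuation (w * s) ≤ π * τ * τ := by gcongr
      _ < π * τ * 1 := mul_lt_mul_of_pos_left hτ1 (mul_pos hπpos hτpos)
      _ = π * τ := mul_one _
  have hb2 : π ^ p < π * τ := by
    have := pow_succ_lt_mul (n := p - 1) (by omega) hτ0 hτ1 key
    rwa [← hpp] at this
  have hb3 : A.valuation (w * (w ^ (p - 1) + (p : K))) < π * τ := by
    rw [hdecomp]
    exact lt_of_le_of_lt (A.valuation.map_sub _ _) (max_lt (hEv.trans_lt hb2) hb1)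
  rw [map_mul, hwτ, mul_comm π τ] at hb3
  exact (mul_lt_mul_iff_of_pos_left hτpos).1 hb3


/-- counting roots of `X^n = 1` in a field -/
theorem card_le_of_injOn_pow_eq_one {k : Type*} [Field k] {ι : Type*} [DecidableEq k]
    (T : Finset ι) (g : ι → k) {n : ℕ} (hn : 0 < n) (hinj : Set.InjOn g T)
    (hroot : ∀ i ∈ T, g i ^ n = 1) : T.card ≤ n := by
  classical
  have h1 : T.image g ⊆ (Polynomial.nthRoots n (1 : k)).toFinset := by
    intro x hx
    obtain ⟨i, hi, rfl⟩ := Finset.mem_image.1 hx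
    rw [Multiset.mem_toFinset, Polynomial.mem_nthRoots hn]
    exact hroot i hi
  calc T.card = (T.image g).card := (Finset.card_image_of_injOn hinj).symm
    _ ≤ (Polynomial.nthRoots n (1 : k)).toFinset.card := Finset.card_le_card h1
    _ ≤ Multiset.card (Polynomial.nthRoots n (1 : k)) := Multiset.toFinset_card_le _
    _ ≤ n := Polynomial.card_nthRoots n 1

/-- **The `p`-torsion of the kernel of reduction of a multiplicative model with `v(a₄) ≤ v(p)^p`
has at most `p` elements.** -/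
theorem card_torsion_nearZero_le (D : MultData A W γ) {p : ℕ} (hp : p.Prime) (hp2 : p ≠ 2)
    (hp0 : (p : K) ≠ 0) (hπ : A.valuation W.a₄ ≤ A.valuation (p : K) ^ p)
    (S : Finset W.Point) (hS : ∀ Q ∈ S, NearZero A Q ∧ p • Q = 0)
    (hsub : ∀ Q ∈ S, ∀ Q' ∈ S, Q - Q' ∈ S) : S.card ≤ p := by
  classical
  have ha : W.a₂ ∈ A := by rw [← A.valuation_le_one_iff, D.ha]
  have hb : W.a₄ ∈ A := by rw [← A.valuation_le_one_iff]; exact D.hb.le
  have hp3 : 3 ≤ p := by
    have := hp.two_le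
    omega
  by_cases hS0 : ∀ Q ∈ S, Q = 0
  · have : S ⊆ {0} := fun Q hQ => Finset.mem_singleton.2 (hS0 Q hQ)
    calc S.card ≤ ({0} : Finset W.Point).card := Finset.card_le_card this
      _ = 1 := Finset.card_singleton 0
      _ ≤ p := by omega
  push Not at hS0
  obtain ⟨Q₁, hQ₁S, hQ₁0⟩ := hS0
  obtain ⟨hQ₁N, hQ₁p⟩ := hS Q₁ hQ₁S
  obtain ⟨hd₁, hc₁⟩ := torsion_depth A D hp hp2 hp0 hπ hQ₁N hQ₁0 hQ₁p
  set π := A.valuation (p : K) with hπdef
  set w₁ := uc γ Q₁ - 1 with hw₁def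
  have hπ0 : π ≠ 0 := (A.valuation.ne_zero_iff).2 hp0
  have hπpos : 0 < π := zero_lt_iff.2 hπ0
  have hw₁v : A.valuation w₁ = A.valuation (zc Q₁) := val_uc_sub_one A D hQ₁N
  have hw₁p : A.valuation w₁ ^ (p - 1) = π := by rw [hw₁v]; exact hd₁
  have hw₁0 : w₁ ≠ 0 := by
    intro h0
    rw [h0, map_zero, zero_pow (by omega)] at hw₁p
    exact hπ0 hw₁p.symm
  have hp1 : p - 1 ≠ 0 := by omega
  -- facts about every nonzero element of `S`
  have hfact : ∀ Q ∈ S, Q ≠ 0 → A.valuation ((uc γ Q - 1) / w₁) = 1 ∧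
      A.valuation (((uc γ Q - 1) / w₁) ^ (p - 1) - 1) < 1 := by
    intro Q hQS hQ0
    obtain ⟨hQN, hQp⟩ := hS Q hQS
    obtain ⟨hd, hc⟩ := torsion_depth A D hp hp2 hp0 hπ hQN hQ0 hQp
    have hwv : A.valuation (uc γ Q - 1) = A.valuation (zc Q) := val_uc_sub_one A D hQN
    have hwp : A.valuation (uc γ Q - 1) ^ (p - 1) = π := by rw [hwv]; exact hd
    have heq : A.valuation (uc γ Q - 1) = A.valuation w₁ :=
      (pow_left_inj₀ zero_le zero_le hp1).1 (hwp.trans hw₁p.symm)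
    refine ⟨?_, ?_⟩
    · rw [map_div₀, heq, div_self ((A.valuation.ne_zero_iff).2 hw₁0)]
    · have e : ((uc γ Q - 1) / w₁) ^ (p - 1) - 1 =
          (((uc γ Q - 1) ^ (p - 1) + (p : K)) - (w₁ ^ (p - 1) + (p : K))) / w₁ ^ (p - 1) := by
        rw [div_pow, div_sub_one (pow_ne_zero _ hw₁0)]
        congr 1
        ring
      rw [e, map_div₀, map_pow, hw₁p, div_lt_one₀ hπpos]
      exact lt_of_le_of_lt (A.valuation.map_sub _ _) (max_lt hc hc₁)
  -- the map to the residue field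
  let g : W.Point → IsLocalRing.ResidueField A := fun Q =>
    if h : (uc γ Q - 1) / w₁ ∈ A then IsLocalRing.residue A ⟨_, h⟩ else 0
  have hgroot : ∀ Q ∈ S.erase 0, g Q ^ (p - 1) = 1 := by
    intro Q hQ
    obtain ⟨hQ0, hQS⟩ := Finset.mem_erase.1 hQ
    obtain ⟨f1, f2⟩ := hfact Q hQS hQ0
    have hmem : (uc γ Q - 1) / w₁ ∈ A := by rw [← A.valuation_le_one_iff, f1]
    simp only [g, dif_pos hmem]
    rw [← map_pow, ← sub_eq_zero, ← map_one (IsLocalRing.residue A), ← map_sub,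
      IsLocalRing.residue_eq_zero_iff, ValuationSubring.valuation_lt_one_iff]
    simpa using f2
  have hginj : Set.InjOn g (S.erase 0 : Finset W.Point) := by
    intro Q hQ Q' hQ' hgg
    rw [Finset.mem_coe] at hQ hQ'
    obtain ⟨hQ0, hQS⟩ := Finset.mem_erase.1 hQ
    obtain ⟨hQ'0, hQ'S⟩ := Finset.mem_erase.1 hQ'
    obtain ⟨f1, -⟩ := hfact Q hQS hQ0
    obtain ⟨f1', -⟩ := hfact Q' hQ'S hQ'0
    have hmem : (uc γ Q - 1) / w₁ ∈ A := by rw [← A.valuation_le_one_iff, f1]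
    have hmem' : (uc γ Q' - 1) / w₁ ∈ A := by rw [← A.valuation_le_one_iff, f1']
    simp only [g, dif_pos hmem, dif_pos hmem'] at hgg
    rw [← sub_eq_zero, ← map_sub, IsLocalRing.residue_eq_zero_iff,
      ValuationSubring.valuation_lt_one_iff] at hgg
    have hgg' : A.valuation ((uc γ Q - 1) / w₁ - (uc γ Q' - 1) / w₁) < 1 := by simpa using hgg
    have e : (uc γ Q - 1) / w₁ - (uc γ Q' - 1) / w₁ = (uc γ Q - uc γ Q') / w₁ := by
      field_simp
      ring
    obtain ⟨hQN, hQp⟩ := hS Q hQS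
    obtain ⟨hQ'N, hQ'p⟩ := hS Q' hQ'S
    have hw₁pos : 0 < A.valuation w₁ := zero_lt_iff.2 ((A.valuation.ne_zero_iff).2 hw₁0)
    rw [e, map_div₀, div_lt_one₀ hw₁pos, val_uc_sub_uc A D hQN hQ'N] at hgg'
    -- `R = Q - Q'`
    by_contra hne
    have hR0 : Q - Q' ≠ 0 := sub_ne_zero.2 hne
    have hRS := hsub Q hQS Q' hQ'S
    obtain ⟨hRN, hRp⟩ := hS _ hRS
    obtain ⟨hdR, -⟩ := torsion_depth A D hp hp2 hp0 hπ hRN hR0 hRp
    obtain ⟨hdQ, -⟩ := torsion_depth A D hp hp2 hp0 hπ hQN hQ0 hQp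
    obtain ⟨hdQ', -⟩ := torsion_depth A D hp hp2 hp0 hπ hQ'N hQ'0 hQ'p
    have hzR : A.valuation (zc (Q - Q')) = A.valuation w₁ :=
      (pow_left_inj₀ zero_le zero_le hp1).1 (hdR.trans hw₁p.symm)
    have hzQ : A.valuation (zc Q) = A.valuation w₁ :=
      (pow_left_inj₀ zero_le zero_le hp1).1 (hdQ.trans hw₁p.symm)
    have hzQ' : A.valuation (zc Q') = A.valuation w₁ :=
      (pow_left_inj₀ zero_le zero_le hp1).1 (hdQ'.trans hw₁p.symm)
    have hw₁lt : A.valuation w₁ < 1 := by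
      rw [← hzQ]; exact val_zc_lt_one A D.model ha hb hQN
    have hnegN : NearZero A (-Q') := KernelOfReduction.nearZero_neg A hQ'N
    obtain ⟨-, est⟩ := add_estimate A D.model ha hb hw₁lt hQN hnegN hzQ.le
      (by rw [zc_neg D.model, Valuation.map_neg, hzQ'])
    rw [← sub_eq_add_neg, zc_neg D.model, sub_neg_eq_add] at est
    have h3 : A.valuation w₁ ^ 3 < A.valuation w₁ := by
      calc A.valuation w₁ ^ 3 = A.valuation w₁ * A.valuation w₁ ^ 2 := pow_succ' _ 2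
        _ < A.valuation w₁ * 1 :=
            mul_lt_mul_of_pos_left (pow_lt_one₀ zero_le hw₁lt (by norm_num)) hw₁pos
        _ = A.valuation w₁ := mul_one _
    have : zc (Q - Q') = (zc (Q - Q') - zc Q + zc Q') + (zc Q - zc Q') := by ring
    have hlt : A.valuation (zc (Q - Q')) < A.valuation w₁ := by
      rw [this]
      exact lt_of_le_of_lt (A.valuation.map_add _ _) (max_lt (est.trans_lt h3) hgg')
    rw [hzR] at hlt
    exact lt_irrefl _ hlt
  have hcard : (S.erase 0).card ≤ p - 1 :=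
    card_le_of_injOn_pow_eq_one (S.erase 0) g (by omega) hginj hgroot
  have := Finset.pred_card_le_card_erase (s := S) (a := (0 : W.Point))
  omega


end Fermat.Agent.S40x.Ell.UMult
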