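/-
P-S44/S40, block B (elliptic side of S44), leaf B2 (helper45).

The Frey curve at a valuation subring `B` of `ℚ̄` over `p`, when `p ∣ abc`: the multiplicative
two-torsion model `W₂ ∈ {freyTwoAB P, freyTwoC P}` of the S05 development (`MultData`), with
`v(a₄) = v(r)^p`, `r ∈ ℚ`, `v(r) ≤ v(p)`; the transfer `ψ : E(ℚ̄) →+ W₂(ℚ̄)`; the submodule
`T1 ≤ E[p]` of the points whose image lies in the kernel of reduction; and

* `card_T1_le` : `#T1 ≤ p` (from `UMult.card_torsion_nearZero_le`), hence `T1_ne_top`;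
* `inertia_sub_mem_T1` : `σ • x - x ∈ T1` for `σ` in the inertia group of `B`
  (`S13.LocalP.nearZero_map_sub_of_mult`).
-/
import Fermat.Agent.S40x.Ell.UMult
import Fermat.Agent.S13.LocalP.Frey
import Fermat.Agent.S13.Global

set_option autoImplicit false
set_option linter.unusedSectionVars false
set_option linter.style.haveILetI false

noncomputable section

namespace Fermat.Agent.S40x.Ell.FreyMult

open WeierstrassCurve WeierstrassCurve.Affine Fermat.Agent.S05 Fermat.Agent.S13
  Fermat.Agent.S13.LocalP Fermat.Agent.S40x.Ell.UMult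

/-- The multiplicative two-torsion model of the Frey curve at a valuation subring `B` over `p`. -/
structure MultModel (P : FreyPackage) (B : ValuationSubring Qbar) where
  /-- the model over `ℚ` -/
  W₂ : Affine ℚ
  /-- the change of variables -/
  C : VariableChange ℚ
  hC : C • W₂ = P.freyCurve
  /-- a square root of `a₂` -/
  γ : Qbar
  D : MultData B (W₂⁄Qbar) γ
  /-- the rational number with `a₄ = ± r^p` -/
  r : ℚ
  hr : B.valuation (W₂⁄Qbar).a₄ = B.valuation (algebraMap ℚ Qbar r) ^ P.p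
  hrp : B.valuation (algebraMap ℚ Qbar r) ≤ B.valuation ((P.p : ℕ) : Qbar)

variable {P : FreyPackage} {B : ValuationSubring Qbar}

theorem valuation_intCast_le_of_dvd {q : ℕ} {n : ℤ} (hn : (q : ℤ) ∣ n) :
    B.valuation ((n : ℤ) : Qbar) ≤ B.valuation ((q : ℕ) : Qbar) := by
  obtain ⟨m, rfl⟩ := hn
  push_cast
  rw [map_mul]
  calc B.valuation ((q : ℕ) : Qbar) * B.valuation ((m : ℤ) : Qbar)
      ≤ B.valuation ((q : ℕ) : Qbar) * 1 := by
        gcongr
        exact (B.valuation_le_one_iff _).2 (S05.intCast_mem B m)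
    _ = B.valuation ((q : ℕ) : Qbar) := mul_one _

/-- **Existence of the multiplicative model** when `p ∣ abc`. -/
theorem exists_multModel (P : FreyPackage) (hmult : (P.p : ℤ) ∣ P.a * P.b * P.c)
    (B : ValuationSubring Qbar) (hB : B.LiesOverPrime P.p) : Nonempty (MultModel P B) := by
  have hA : ((P.p : ℕ) : Qbar) ∈ B.nonunits := hB
  rcases frey_cases P P.pp with h | ⟨hab, _⟩ | ⟨hc, _⟩
  · exact absurd hmult h
  · obtain ⟨γ, hγ⟩ := IsAlgClosed.exists_pow_nat_eq ((freyTwoAB P)⁄Qbar).a₂ (n := 2) (by norm_num)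
    have hdvd : (P.p : ℤ) ∣ -(P.a ^ P.p * P.b ^ P.p) := by
      rw [dvd_neg, ← mul_pow]
      exact dvd_pow hab P.hp0
    have D : MultData B ((freyTwoAB P)⁄Qbar) γ := by
      refine ⟨isTwoModel_AB P, ?_, ?_, ?_, valuation_two P.pp (p_ne_two P) B hA, hγ⟩
      · rw [a₂_AB]; exact valuation_intCast_eq_one P.pp hA (frey_case_ab P P.pp hab)
      · rw [a₄_AB]; exact valuation_intCast_lt_one hA hdvd
      · rw [a₄_AB]
        have hne : (-(P.a ^ P.p * P.b ^ P.p) : ℤ) ≠ 0 :=
          neg_ne_zero.mpr (mul_ne_zero (pow_ne_zero _ P.ha0) (pow_ne_zero _ P.hb0))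
        have hchar : CharZero Qbar := algebraRat.charZero Qbar
        exact_mod_cast hne
    refine ⟨⟨freyTwoAB P, changeTwoAB, changeTwoAB_smul P, γ, D, ((P.a * P.b : ℤ) : ℚ), ?_, ?_⟩⟩
    · rw [a₄_AB, map_intCast (algebraMap ℚ Qbar), ← map_pow]
      have : ((-(P.a ^ P.p * P.b ^ P.p) : ℤ) : Qbar) = -(((P.a * P.b : ℤ) : Qbar) ^ P.p) := by
        push_cast; ring
      rw [this, Valuation.map_neg]
    · rw [map_intCast (algebraMap ℚ Qbar)]
      exact valuation_intCast_le_of_dvd hab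
  · obtain ⟨γ, hγ⟩ := IsAlgClosed.exists_pow_nat_eq ((freyTwoC P)⁄Qbar).a₂ (n := 2) (by norm_num)
    have hdvd : (P.p : ℤ) ∣ P.a ^ P.p * P.c ^ P.p :=
      dvd_mul_of_dvd_right (dvd_pow hc P.hp0) _
    have D : MultData B ((freyTwoC P)⁄Qbar) γ := by
      refine ⟨isTwoModel_C P, ?_, ?_, ?_, valuation_two P.pp (p_ne_two P) B hA, hγ⟩
      · rw [a₂_C]; exact valuation_intCast_eq_one P.pp hA (frey_case_c P P.pp hc).1
      · rw [a₄_C]; exact valuation_intCast_lt_one hA hdvd
      · rw [a₄_C]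
        have hne : (P.a ^ P.p * P.c ^ P.p : ℤ) ≠ 0 :=
          mul_ne_zero (pow_ne_zero _ P.ha0) (pow_ne_zero _ P.hc0)
        have hchar : CharZero Qbar := algebraRat.charZero Qbar
        exact_mod_cast hne
    refine ⟨⟨freyTwoC P, changeTwoC P, changeTwoC_smul P, γ, D, ((P.a * P.c : ℤ) : ℚ), ?_, ?_⟩⟩
    · rw [a₄_C, map_intCast (algebraMap ℚ Qbar), ← map_pow]
      have : ((P.a ^ P.p * P.c ^ P.p : ℤ) : Qbar) = (((P.a * P.c : ℤ) : Qbar) ^ P.p) := by
        push_cast; ring
      rw [this]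
    · rw [map_intCast (algebraMap ℚ Qbar)]
      exact valuation_intCast_le_of_dvd (Dvd.dvd.mul_left hc P.a)

namespace MultModel

variable (M : MultModel P B)

theorem ha : (M.W₂⁄Qbar).a₂ ∈ B := by rw [← B.valuation_le_one_iff, M.D.ha]

theorem hb : (M.W₂⁄Qbar).a₄ ∈ B := by rw [← B.valuation_le_one_iff]; exact M.D.hb.le

theorem natCast_ne_zero (_M : MultModel P B) : ((P.p : ℕ) : Qbar) ≠ 0 := by
  exact_mod_cast P.hp0

/-- `v(a₄) ≤ v(p)^p`. -/
theorem hπ : B.valuation (M.W₂⁄Qbar).a₄ ≤ B.valuation ((P.p : ℕ) : Qbar) ^ P.p := by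
  rw [M.hr]
  exact pow_le_pow_left₀ zero_le M.hrp _

/-- The transfer homomorphism from the Frey curve to the model. -/
def transfer : (P.freyCurve⁄Qbar).Point →+ (M.W₂⁄Qbar).Point :=
  Classical.choose (exists_transfer (K := Qbar) P.freyCurve M.W₂ M.C M.hC)

theorem transfer_injective : Function.Injective M.transfer :=
  (Classical.choose_spec (exists_transfer (K := Qbar) P.freyCurve M.W₂ M.C M.hC)).1

theorem transfer_map (f : Qbar →ₐ[ℚ] Qbar) (Q : (P.freyCurve⁄Qbar).Point) :
    M.transfer (Point.map (W' := P.freyCurve) f Q) = Point.map (W' := M.W₂) f (M.transfer Q) :=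
  (Classical.choose_spec (exists_transfer (K := Qbar) P.freyCurve M.W₂ M.C M.hC)).2 f Q

theorem transfer_smul (σ : GQ) (x : Tors P) :
    M.transfer (σ • x).1 = Point.map (W' := M.W₂) σ.toAlgHom (M.transfer x.1) :=
  M.transfer_map σ.toAlgHom x.1

theorem transfer_torsion (x : Tors P) : P.p • M.transfer x.1 = 0 := by
  have h := x.2
  rw [Submodule.mem_torsionBy_iff, natCast_zsmul] at h
  rw [← map_nsmul, h, _root_.map_zero]

/-- The points of `E[p]` whose image on the model lies in the kernel of reduction. -/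
def T1add : AddSubgroup (Tors P) where
  carrier := {x | NearZero B (M.transfer x.1)}
  add_mem' := by
    intro x y hx hy
    show NearZero B (M.transfer (x + y).1)
    rw [Submodule.coe_add, map_add]
    exact nearZero_add M.D.model B M.ha M.hb hx hy
  zero_mem' := by
    show NearZero B (M.transfer (0 : Tors P).1)
    rw [Submodule.coe_zero, _root_.map_zero]
    exact trivial
  neg_mem' := by
    intro x hx
    show NearZero B (M.transfer (-x).1)
    rw [Submodule.coe_neg, map_neg]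
    exact nearZero_neg B hx

/-- `T1` as a submodule over `𝔽_p`. -/
def T1 : Submodule (ZMod P.p) (Tors P) :=
  haveI : Fact P.p.Prime := ⟨P.pp⟩
  AddSubgroup.toZModSubmodule P.p M.T1add

theorem mem_T1 (x : Tors P) : x ∈ M.T1 ↔ NearZero B (M.transfer x.1) := Iff.rfl

/-- **(b)** inertia moves the `p`-torsion by elements of `T1`. -/
theorem inertia_sub_mem_T1 {σ : GQ} (hσ : σ ∈ B.inertiaSubgroupIn ℚ) (x : Tors P) :
    σ • x - x ∈ M.T1 := by
  rw [mem_T1, Submodule.coe_sub, map_sub, transfer_smul]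
  exact nearZero_map_sub_of_mult B σ.toAlgHom (fun t ht => inertia_sub_lt_one hσ ht)
    (fun t ht h => ht ((inertia_map_mem_iff hσ).mp h)) M.D P.pp (p_ne_two P) M.hr
    (M.transfer_torsion x)

instance finite_tors : Finite (Tors P) :=
  Nat.finite_of_card_ne_zero (by rw [card_tors]; exact pow_ne_zero _ P.hp0)

/-- **(a), quantitative form**: `T1` has at most `p` elements. -/
theorem card_T1_le : Nat.card M.T1 ≤ P.p := by
  classical
  letI : Fintype (Tors P) := Fintype.ofFinite _
  let S : Finset (M.W₂⁄Qbar).Point :=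
    (Finset.univ.filter (fun x : Tors P => x ∈ M.T1)).image (fun x => M.transfer x.1)
  have hinj : Function.Injective (fun x : Tors P => M.transfer x.1) := fun x y h =>
    Subtype.ext (M.transfer_injective h)
  have hS : ∀ Q ∈ S, NearZero B Q ∧ P.p • Q = 0 := by
    intro Q hQ
    obtain ⟨x, hx, rfl⟩ := Finset.mem_image.1 hQ
    exact ⟨(Finset.mem_filter.1 hx).2, M.transfer_torsion x⟩
  have hsub : ∀ Q ∈ S, ∀ Q' ∈ S, Q - Q' ∈ S := by
    intro Q hQ Q' hQ'
    obtain ⟨x, hx, rfl⟩ := Finset.mem_image.1 hQ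
    obtain ⟨y, hy, rfl⟩ := Finset.mem_image.1 hQ'
    refine Finset.mem_image.2 ⟨x - y, Finset.mem_filter.2 ⟨Finset.mem_univ _, ?_⟩, ?_⟩
    · exact M.T1.sub_mem (Finset.mem_filter.1 hx).2 (Finset.mem_filter.1 hy).2
    · show M.transfer (x - y).1 = _
      rw [Submodule.coe_sub, map_sub]
  have hcard := card_torsion_nearZero_le B M.D P.pp (p_ne_two P) M.natCast_ne_zero M.hπ S hS hsub
  have h1 : S.card = (Finset.univ.filter (fun x : Tors P => x ∈ M.T1)).card :=
    Finset.card_image_of_injective _ hinj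
  have h2 : Nat.card M.T1 = (Finset.univ.filter (fun x : Tors P => x ∈ M.T1)).card := by
    rw [Nat.card_eq_fintype_card, Fintype.card_subtype]
  rw [h2, ← h1]
  exact hcard

/-- **(a)** `T1 ≠ ⊤`. -/
theorem T1_ne_top : M.T1 ≠ ⊤ := by
  intro htop
  have h1 := M.card_T1_le
  have h2 : Nat.card M.T1 = P.p ^ 2 := by
    rw [htop, ← card_tors P]
    exact Nat.card_congr (Equiv.Set.univ _)
  rw [h2] at h1
  have := P.hp5
  nlinarith

end MultModel

end Fermat.Agent.S40x.Ell.FreyMult
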