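import Fermat.Agent.S40x.Ell.UMult
import Fermat.Agent.S40x.Ell.FreyMultModel
import Fermat.Agent.S13.InertiaVal
import Fermat.Agent.S13.Global

set_option autoImplicit false
set_option linter.unusedSectionVars false

/-!
# Inertia acts on the kernel of reduction of a multiplicative model through the cyclotomic character

(helper67; block B of P-S44, leaf B3 of helper45's interface note 2602, claim (c).)

`W : Y² = X³ + a₂ X² + a₄ X` over `K` (a `ℚ`-algebra, `W` defined over `ℚ`) with a valuation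
subring `A`, `S05.MultData A W γ` and `v(a₄) ≤ v(p)^p`.  Let `f` be a `ℚ`-endomorphism of `K`
preserving the valuation and trivial on the residue field, and `a : ℕ` with `f ζ = ζ ^ a` for every
`p`-th root of unity `ζ`.  Then `f S = a • S` for every `p`-torsion point `S` of the kernel of
reduction (`map_eq_nsmul_of_nearZero`).

Proof.  `u = (Y - γ X) / (Y + γ X)` (`UMult.uc`).  `f γ = γ` (`map_gamma`: `γ² ∈ ℚ`, `f ≡ id` on
the residue field, `2` a unit), hence `u (f S) = f (u S)` (`uc_map`).  `u(S)^p ≡ 1 mod a₄` and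
`X^p - 1 = ∏ (X - ζ)` give a `ζ` with `v(u(S) - ζ) < τ := v(z(S))` (`exists_root_near`; otherwise
`τ^p ≤ v(a₄) ≤ v(p)^p`, but `τ^(p-1) = v(p)` by `UMult.torsion_depth`).  So
`f(u(S)) ≡ ζ^a ≡ u(S)^a` modulo something deeper than `τ`; by the multiplicativity of `u` modulo
`a₄` the point `S' = f S - a • S` has `v(u(S') - 1) < τ`, while a nonzero `p`-torsion point of the
kernel of reduction has `v(u - 1) = τ` exactly (`torsion_depth` again).  Hence `S' = 0`.

`smul_eq_nsmul_of_transfer` is the same statement on `Tors P` (Frey curve over `ℚ̄`) through a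
transfer map `ψ` as produced by `S05.exists_transfer`, for `σ` in the inertia group of a
valuation subring `B` of `ℚ̄`; `smul_eq_nsmul_of_mem_T1` is its form on the `MultModel` of
`Ell/FreyMultModel` (leaf B2): `σ • s = a • s` for `s ∈ M.T1`.
-/

namespace Fermat.Agent.S40x.Ell.CycloLine

open WeierstrassCurve WeierstrassCurve.Affine Fermat.Agent.S05 Fermat.Agent.S40x.Ell.UMult

section valuation

variable {K : Type*} [Field K] (A : ValuationSubring K)

/-- If `v(u^p - 1) < τ^p` then `u` is `τ`-close to a `p`-th root of unity (all of them in `K`). -/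
theorem exists_root_near {p : ℕ} (hp : 0 < p) {ζ₀ : K} (hζ₀ : IsPrimitiveRoot ζ₀ p) {u : K}
    {τ : A.ValueGroup} (h : A.valuation (u ^ p - 1) < τ ^ p) :
    ∃ ζ : K, ζ ^ p = 1 ∧ A.valuation (u - ζ) < τ := by
  classical
  by_contra hcon
  push Not at hcon
  have hprod : u ^ p - 1 = ∏ ζ ∈ Polynomial.nthRootsFinset p (1 : K), (u - ζ) := by
    have h1 := congrArg (Polynomial.eval u) (Polynomial.X_pow_sub_one_eq_prod hp hζ₀)
    simpa [Polynomial.eval_prod] using h1
  have hcard : (Polynomial.nthRootsFinset p (1 : K)).card = p := hζ₀.card_nthRootsFinset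
  have hle : τ ^ p ≤ A.valuation (u ^ p - 1) := by
    rw [hprod, map_prod]
    calc τ ^ p = τ ^ (Polynomial.nthRootsFinset p (1 : K)).card := by rw [hcard]
      _ ≤ ∏ ζ ∈ Polynomial.nthRootsFinset p (1 : K), A.valuation (u - ζ) :=
        Finset.pow_card_le_prod _ _ _ fun ζ hζ =>
          hcon ζ ((Polynomial.mem_nthRootsFinset hp (1 : K)).1 hζ)
  exact absurd h (not_lt.2 hle)

/-- `v(x^a - y^a) ≤ v(x - y)` for integral `x, y`. -/
theorem val_pow_sub_pow_le {x y : K} (hx : A.valuation x ≤ 1) (hy : A.valuation y ≤ 1) (a : ℕ) :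
    A.valuation (x ^ a - y ^ a) ≤ A.valuation (x - y) := by
  have hxA : x ∈ A := (A.valuation_le_one_iff x).1 hx
  have hyA : y ∈ A := (A.valuation_le_one_iff y).1 hy
  obtain ⟨c, hc⟩ := sub_dvd_pow_sub_pow (⟨x, hxA⟩ : A) ⟨y, hyA⟩ a
  have hc' : x ^ a - y ^ a = (x - y) * (c : K) := by
    have := congrArg (fun t : A => (t : K)) hc
    simpa using this
  rw [hc', map_mul]
  calc A.valuation (x - y) * A.valuation (c : K) ≤ A.valuation (x - y) * 1 := by
        gcongr
        exact (A.valuation_le_one_iff _).2 c.2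
    _ = A.valuation (x - y) := mul_one _

/-- a `1`-unit has valuation `1`. -/
theorem val_eq_one_of_sub_one_lt {κ : K} (h : A.valuation (κ - 1) < 1) : A.valuation κ = 1 := by
  have : κ = 1 + (κ - 1) := by ring
  rw [this]
  exact (A.valuation).map_one_add_of_lt h

end valuation

section model

variable {K : Type*} [Field K] [DecidableEq K] [Algebra ℚ K] (A : ValuationSubring K)
  {W' : Affine ℚ}

/-- An endomorphism which is the identity on the residue field fixes the square root `γ` of the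
rational number `a₂` (`2` and `γ` are units). -/
theorem map_gamma (f : K →ₐ[ℚ] K) (hf : ∀ x ∈ A, A.valuation (f x - x) < 1) {γ : K}
    (D : MultData A (W'⁄K) γ) : f γ = γ := by
  have hvγ : A.valuation γ = 1 := D.valuation_gamma
  have hγA : γ ∈ A := by rw [← A.valuation_le_one_iff, hvγ]
  have ha₂ : f ((W'⁄K).a₂) = (W'⁄K).a₂ := by
    have : (W'⁄K).a₂ = algebraMap ℚ K W'.a₂ := rfl
    rw [this, AlgHom.commutes]
  have hsq : (f γ - γ) * (f γ + γ) = 0 := by
    have h1 : f γ ^ 2 = γ ^ 2 := by rw [← map_pow, D.hγ, ha₂]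
    linear_combination h1
  rcases mul_eq_zero.1 hsq with h | h
  · exact sub_eq_zero.1 h
  · exfalso
    have h1 := hf γ hγA
    have h2 : f γ - γ = -(2 * γ) := by linear_combination h
    rw [h2, Valuation.map_neg, map_mul, D.h2, hvγ, one_mul] at h1
    exact lt_irrefl _ h1

/-- `u` commutes with endomorphisms fixing `γ`. -/
theorem uc_map (f : K →ₐ[ℚ] K) {γ : K} (hγ : f γ = γ) (Q : (W'⁄K).Point) :
    uc γ (Point.map (W' := W') f Q) = f (uc γ Q) := by
  rcases Q with _ | ⟨x, y, h⟩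
  · show (1 : K) = f 1
    rw [map_one]
  · rw [Point.map_some, uc_some, uc_some, map_div₀, map_sub, map_add, map_mul, hγ]

theorem nearZero_map (f : K →ₐ[ℚ] K) (hfv : ∀ x, A.valuation (f x) = A.valuation x)
    {Q : (W'⁄K).Point} (hQ : NearZero A Q) : NearZero A (Point.map (W' := W') f Q) := by
  rcases Q with _ | ⟨x, y, h⟩
  · exact trivial
  · rw [Point.map_some]
    show f x ∉ A
    have hx : x ∉ A := hQ
    rw [← A.valuation_le_one_iff] at hx ⊢
    rwa [hfv]

/-- **Inertia acts on the `p`-torsion of the kernel of reduction through the cyclotomic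
character** (multiplicative model, `v(a₄) ≤ v(p)^p`). -/
theorem map_eq_nsmul_of_nearZero (f : K →ₐ[ℚ] K)
    (hf : ∀ x ∈ A, A.valuation (f x - x) < 1) (hfv : ∀ x, A.valuation (f x) = A.valuation x)
    {γ : K} (D : MultData A (W'⁄K) γ) {p : ℕ} (hp : p.Prime) (hp2 : p ≠ 2)
    (hπ : A.valuation (W'⁄K).a₄ ≤ A.valuation (p : K) ^ p)
    {ζ₀ : K} (hζ₀ : IsPrimitiveRoot ζ₀ p) {a : ℕ} (ha : ∀ ζ : K, ζ ^ p = 1 → f ζ = ζ ^ a)
    {S : (W'⁄K).Point} (hS : NearZero A S) (hpS : p • S = 0) :
    Point.map (W' := W') f S = a • S := by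
  have haA : (W'⁄K).a₂ ∈ A := by rw [← A.valuation_le_one_iff, D.ha]
  have hbA : (W'⁄K).a₄ ∈ A := by rw [← A.valuation_le_one_iff]; exact D.hb.le
  have hchar : CharZero K := algebraRat.charZero K
  have hp0 : (p : K) ≠ 0 := Nat.cast_ne_zero.2 hp.ne_zero
  have hp3 : 3 ≤ p := by have := hp.two_le; omega
  by_cases hS0 : S = 0
  · subst hS0
    rw [map_zero, smul_zero]
  by_contra hne
  have hfγ : f γ = γ := map_gamma A f hf D
  -- the three points
  have hN1 : NearZero A (Point.map (W' := W') f S) := nearZero_map A f hfv hS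
  have hN2 : NearZero A (a • S) :=
    (KernelOfReduction.nsmul_estimate A D.model haA hbA hS a).1
  set S' := Point.map (W' := W') f S - a • S with hS'
  have hS'0 : S' ≠ 0 := sub_ne_zero.2 hne
  have hN' : NearZero A S' := by
    rw [hS', sub_eq_add_neg]
    exact Fermat.Agent.S05.nearZero_add D.model A haA hbA hN1 (Fermat.Agent.S05.nearZero_neg A hN2)
  have hpS' : p • S' = 0 := by
    rw [hS', smul_sub, ← map_nsmul, hpS, map_zero, smul_comm, hpS, smul_zero, sub_zero]
  -- depths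
  obtain ⟨hτ, -⟩ := torsion_depth A D hp hp2 hp0 hπ hS hS0 hpS
  obtain ⟨hτ', -⟩ := torsion_depth A D hp hp2 hp0 hπ hN' hS'0 hpS'
  set τ := A.valuation (KernelOfReduction.zc S) with hτdef
  have hττ' : A.valuation (KernelOfReduction.zc S') = τ := by
    have hp1 : p - 1 ≠ 0 := by omega
    exact (pow_left_inj₀ zero_le zero_le hp1).1 (hτ'.trans hτ.symm)
  have hτ1 : τ < 1 := KernelOfReduction.val_zc_lt_one A D.model haA hbA hS
  have hz0 : KernelOfReduction.zc S ≠ 0 := fun h0 =>
    hS0 ((KernelOfReduction.zc_eq_zero_iff A D.model haA hbA hS).1 h0)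
  have hτ0 : τ ≠ 0 := (A.valuation.ne_zero_iff).2 hz0
  have hτpos : 0 < τ := zero_lt_iff.2 hτ0
  set π := A.valuation (p : K) with hπdef
  -- `π < τ`
  have hπτ : π < τ := by
    rw [← hτ]
    calc τ ^ (p - 1) ≤ τ ^ 2 := pow_le_pow_of_le_one zero_le hτ1.le (by omega)
      _ = τ * τ := pow_two τ
      _ < τ * 1 := mul_lt_mul_of_pos_left hτ1 hτpos
      _ = τ := mul_one τ
  -- `v(a₄) < τ ^ p`
  have hβτp : A.valuation (W'⁄K).a₄ < τ ^ p := by
    refine lt_of_le_of_lt hπ ?_
    exact pow_lt_pow_left₀ hπτ zero_le hp.ne_zero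
  have hβτ : A.valuation (W'⁄K).a₄ < τ := by
    refine lt_of_lt_of_le hβτp ?_
    calc τ ^ p ≤ τ ^ 1 := pow_le_pow_of_le_one zero_le hτ1.le (by omega)
      _ = τ := pow_one τ
  -- the root of unity close to `u(S)`
  set u := uc γ S with hu
  have hup : A.valuation (u ^ p - 1) ≤ A.valuation (W'⁄K).a₄ :=
    uc_pow_sub_one A D.model haA D.hb D.hγ hS hpS
  obtain ⟨ζ, hζp, hζ⟩ := exists_root_near A hp.pos hζ₀ (lt_of_le_of_lt hup hβτp)
  -- `u` and `ζ` are units
  have hu1 : A.valuation (u - 1) = τ := val_uc_sub_one A D hS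
  have hvu : A.valuation u = 1 := val_eq_one_of_sub_one_lt A (by rw [hu1]; exact hτ1)
  have hvζ : A.valuation ζ = 1 := by
    have h1 : A.valuation ζ ^ p = 1 := by rw [← map_pow, hζp, map_one]
    exact (pow_eq_one_iff_of_nonneg zero_le hp.ne_zero).1 h1
  -- the bound `β < τ`
  set β := max (A.valuation (u - ζ)) (A.valuation (W'⁄K).a₄) with hβ
  have hβlt : β < τ := max_lt hζ hβτ
  have hβ1 : β ≤ 1 := (hβlt.trans hτ1).le
  -- `f u ≡ u ^ a` modulo `β`
  have hfu : A.valuation (f u - u ^ a) ≤ β := by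
    have e : f u - u ^ a = f (u - ζ) - (u ^ a - ζ ^ a) := by
      rw [map_sub, ha ζ hζp]; ring
    rw [e]
    refine le_trans (A.valuation.map_sub _ _) (max_le ?_ ?_)
    · rw [hfv]; exact le_max_left _ _
    · exact (val_pow_sub_pow_le A hvu.le hvζ.le a).trans (le_max_left _ _)
  -- multiplicativity of `u`
  obtain ⟨κ₂, hκ₂, hκ₂v⟩ := uc_nsmul A D.model haA hbA D.hγ hS a
  obtain ⟨κ₁, hκ₁, hκ₁v⟩ := uc_add A D.model haA hbA D.hγ hN' hN2
  have hsum : S' + a • S = Point.map (W' := W') f S := by rw [hS']; abel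
  rw [hsum, uc_map f hfγ, ← hu, hκ₂] at hκ₁
  set w := uc γ S' with hw
  set κ := κ₂ * κ₁ with hκ
  have hκv : A.valuation (κ - 1) ≤ β :=
    oneUnit_mul A hβ1 (hκ₂v.trans (le_max_right _ _)) (hκ₁v.trans (le_max_right _ _))
  have hκ1 : A.valuation κ = 1 :=
    val_eq_one_of_sub_one_lt A (lt_of_le_of_lt hκv (hβlt.trans hτ1))
  have hua0 : u ^ a ≠ 0 := by
    intro h0
    have : A.valuation (u ^ a) = 1 := by rw [map_pow, hvu, one_pow]
    rw [h0, map_zero] at this
    exact zero_ne_one this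
  -- `f u = w * u ^ a * κ`
  have hmain : f u - u ^ a = u ^ a * ((w - 1) * κ + (κ - 1)) := by
    rw [hκ₁, hκ]; ring
  have hw1 : A.valuation (w - 1) ≤ β := by
    have h1 : A.valuation ((w - 1) * κ + (κ - 1)) ≤ β := by
      have := hfu
      rw [hmain, map_mul, map_pow, hvu, one_pow, one_mul] at this
      exact this
    have h2 : (w - 1) * κ = ((w - 1) * κ + (κ - 1)) - (κ - 1) := by ring
    have h3 : A.valuation ((w - 1) * κ) ≤ β := by
      rw [h2]
      exact le_trans (A.valuation.map_sub _ _) (max_le h1 hκv)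
    rwa [map_mul, hκ1, mul_one] at h3
  -- contradiction with the depth of `S'`
  have hw2 : A.valuation (w - 1) = τ := by
    rw [hw, val_uc_sub_one A D hN', hττ']
  rw [hw2] at hw1
  exact absurd hβlt (not_lt.2 hw1)

end model

/-! ### The Frey curve over `ℚ̄` -/

section frey

open Fermat.Agent.S13

/-- **Claim (c) of the block B interface**, in transfer form: `ψ` a transfer of the Frey curve to
a multiplicative model `W₂` over `ℚ` (as in `S05.exists_transfer`), `T₁ = {x | NearZero B (ψ x)}`.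
The inertia group of `B` acts on `T₁` through the mod `p` cyclotomic character. -/
theorem smul_eq_nsmul_of_transfer (P : FreyPackage) (B : ValuationSubring Qbar)
    {W₂ : Affine ℚ} {γ : Qbar} (D : MultData B (W₂⁄Qbar) γ)
    (hπ : B.valuation (W₂⁄Qbar).a₄ ≤ B.valuation (P.p : Qbar) ^ P.p)
    (ψ : (P.freyCurve⁄Qbar).Point →+ (W₂⁄Qbar).Point) (hinj : Function.Injective ψ)
    (hcomm : ∀ (f : Qbar →ₐ[ℚ] Qbar) (Q : (P.freyCurve⁄Qbar).Point),
      ψ (Point.map (W' := P.freyCurve) f Q) = Point.map (W' := W₂) f (ψ Q))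
    {σ : GQ} (hσ : σ ∈ B.inertiaSubgroupIn ℚ) {a : ℕ}
    (ha : ∀ ζ : Qbar, ζ ^ P.p = 1 → σ ζ = ζ ^ a)
    (s : Tors P) (hs : NearZero B (ψ s.1)) : σ • s = a • s := by
  have hp2 : P.p ≠ 2 := by have := P.hp5; omega
  have hpne : NeZero ((P.p : ℕ) : Qbar) := ⟨by exact_mod_cast P.hp0⟩
  have : Algebra.IsAlgebraic ℚ Qbar := AlgebraicClosure.isAlgebraic ℚ
  obtain ⟨ζ₀, hζ₀⟩ := HasEnoughRootsOfUnity.exists_primitiveRoot Qbar P.p
  have hps : P.p • ψ s.1 = 0 := by
    have h := s.2
    rw [Submodule.mem_torsionBy_iff, natCast_zsmul] at h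
    rw [← map_nsmul, h, map_zero]
  have key := map_eq_nsmul_of_nearZero B σ.toAlgHom
    (fun t ht => inertia_sub_lt_one hσ ht)
    (fun t => Fermat.Agent.S13.InertiaVal.inertia_valuation_eq hσ t)
    D P.pp hp2 hπ hζ₀ (a := a) (fun ζ hζ => ha ζ hζ) hs hps
  apply Subtype.ext
  apply hinj
  have h1 : ψ (σ • s).1 = Point.map (W' := W₂) σ.toAlgHom (ψ s.1) := hcomm σ.toAlgHom s.1
  rw [h1, key, Submodule.coe_smul_of_tower, map_nsmul]

/-- **Claim (c) of the block B interface** on the multiplicative model of `Ell/FreyMultModel`: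
the inertia group of `B` acts on `T1` through the mod `p` cyclotomic character. -/
theorem smul_eq_nsmul_of_mem_T1 {P : FreyPackage} {B : ValuationSubring Qbar}
    (M : Fermat.Agent.S40x.Ell.FreyMult.MultModel P B)
    {σ : GQ} (hσ : σ ∈ B.inertiaSubgroupIn ℚ) {a : ℕ}
    (ha : ∀ ζ : Qbar, ζ ^ P.p = 1 → σ ζ = ζ ^ a) {s : Tors P} (hs : s ∈ M.T1) :
    σ • s = a • s :=
  smul_eq_nsmul_of_transfer P B M.D M.hπ M.transfer M.transfer_injective M.transfer_map hσ ha s
    ((M.mem_T1 s).1 hs)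

end frey

end Fermat.Agent.S40x.Ell.CycloLine
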