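/-
P-S44/S40, block B (elliptic side of S44), leaf B4 (helper45).

Step (2) of team note 2515: for every `p`-torsion point `T` of the multiplicative two-torsion
model of the Frey curve at `B ∣ p` there is a point `Q₀` of the model fixed by the inertia group
of `B` with `T - Q₀` in the kernel of reduction.  The divisibility `p ∣ v_p(Δ)` enters through
`S05.valuation_x_of_torsion` (`v(x(T)) = v(r)^j`, `r ∈ ℚ`).
-/
import Fermat.Agent.S40x.Ell.FreyMultModel
import Fermat.Agent.S19x.Hens.InertiaResidue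

set_option autoImplicit false
set_option linter.unusedSectionVars false
set_option linter.style.haveILetI false

noncomputable section

namespace Fermat.Agent.S40x.Ell.HenselPoint

open WeierstrassCurve WeierstrassCurve.Affine Fermat.Agent.S05 Fermat.Agent.S13
  Fermat.Agent.S13.LocalP Fermat.Agent.S40x.Ell.UMult Fermat.Agent.S40x.Ell.FreyMult

variable {B : ValuationSubring Qbar}

/-- `IFix B c`: `c` is fixed by the inertia group of `B`. -/
def IFix (B : ValuationSubring Qbar) (c : Qbar) : Prop :=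
  ∀ σ ∈ B.inertiaSubgroupIn ℚ, σ c = c

theorem IFix.add {c d : Qbar} (hc : IFix B c) (hd : IFix B d) : IFix B (c + d) :=
  fun σ hσ => by rw [map_add, hc σ hσ, hd σ hσ]

theorem IFix.mul {c d : Qbar} (hc : IFix B c) (hd : IFix B d) : IFix B (c * d) :=
  fun σ hσ => by rw [map_mul, hc σ hσ, hd σ hσ]

theorem IFix.sub {c d : Qbar} (hc : IFix B c) (hd : IFix B d) : IFix B (c - d) :=
  fun σ hσ => by rw [map_sub, hc σ hσ, hd σ hσ]

theorem IFix.neg {c : Qbar} (hc : IFix B c) : IFix B (-c) :=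
  fun σ hσ => by rw [map_neg, hc σ hσ]

theorem IFix.pow {c : Qbar} (hc : IFix B c) (n : ℕ) : IFix B (c ^ n) :=
  fun σ hσ => by rw [map_pow, hc σ hσ]

theorem IFix.div {c d : Qbar} (hc : IFix B c) (hd : IFix B d) : IFix B (c / d) :=
  fun σ hσ => by rw [map_div₀, hc σ hσ, hd σ hσ]

theorem IFix.algebraMap (r : ℚ) : IFix B (algebraMap ℚ Qbar r) :=
  fun σ _ => σ.commutes r

theorem IFix.ofNat (n : ℕ) [n.AtLeastTwo] : IFix B (OfNat.ofNat n : Qbar) :=
  fun σ _ => map_ofNat σ n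

/-- **Choice of a square root with prescribed residue**: if `c` is inertia-fixed, `t² ≡ c`
modulo terms of valuation `< v(t)²`, `v(2) = 1`, and `v(t) = v(d)` for an inertia-fixed `d`, then
`c` has an inertia-fixed square root `y₀` with `v(y₀ - t) < v(t)`. -/
theorem exists_sqrt_near (h2 : B.valuation (2 : Qbar) = 1) {c t d : Qbar} (hc : IFix B c)
    (hd : IFix B d) (ht0 : t ≠ 0) (htd : B.valuation t = B.valuation d)
    (hct : B.valuation (t ^ 2 - c) < B.valuation t ^ 2) :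
    ∃ y₀ : Qbar, y₀ ^ 2 = c ∧ B.valuation (y₀ - t) < B.valuation t ∧ IFix B y₀ := by
  obtain ⟨y₁, hy₁⟩ := IsAlgClosed.exists_pow_nat_eq c (n := 2) (by norm_num)
  have hvt0 : B.valuation t ≠ 0 := (B.valuation.ne_zero_iff).2 ht0
  have hvtpos : 0 < B.valuation t := zero_lt_iff.2 hvt0
  -- one of `y₁ ∓ t` is small
  have hprod : B.valuation (y₁ - t) * B.valuation (y₁ + t) < B.valuation t ^ 2 := by
    rw [← map_mul]
    have : (y₁ - t) * (y₁ + t) = -(t ^ 2 - c) := by rw [← hy₁]; ring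
    rw [this, Valuation.map_neg]
    exact hct
  have hchoice : ∃ y₀ : Qbar, y₀ ^ 2 = c ∧ B.valuation (y₀ - t) < B.valuation t := by
    by_cases h1 : B.valuation (y₁ - t) < B.valuation t
    · exact ⟨y₁, hy₁, h1⟩
    · rw [not_lt] at h1
      refine ⟨-y₁, by rw [neg_sq, hy₁], ?_⟩
      have e : -y₁ - t = -(y₁ + t) := by ring
      rw [e, Valuation.map_neg]
      by_contra h3
      rw [not_lt] at h3
      have : B.valuation t ^ 2 ≤ B.valuation (y₁ - t) * B.valuation (y₁ + t) := by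
        rw [pow_two]
        exact mul_le_mul' h1 h3
      exact absurd hprod (not_lt.2 this)
  obtain ⟨y₀, hy₀, hy₀t⟩ := hchoice
  refine ⟨y₀, hy₀, hy₀t, ?_⟩
  -- `v(y₀) = v(t) = v(d)`
  have hvy : B.valuation y₀ = B.valuation t := by
    have e : y₀ = t + (y₀ - t) := by ring
    rw [e]
    exact Valuation.map_add_eq_of_lt_left _ hy₀t
  have hd0 : d ≠ 0 := by
    intro h0
    rw [h0, map_zero] at htd
    exact hvt0 htd
  intro σ hσ
  have hsq : (σ y₀) ^ 2 = y₀ ^ 2 := by rw [← map_pow, hy₀, hc σ hσ]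
  have hor : σ y₀ = y₀ ∨ σ y₀ = -y₀ := by
    have : (σ y₀ - y₀) * (σ y₀ + y₀) = 0 := by linear_combination hsq
    rcases mul_eq_zero.1 this with h | h
    · exact Or.inl (sub_eq_zero.1 h)
    · exact Or.inr (eq_neg_of_add_eq_zero_left h)
  rcases hor with h | h
  · exact h
  · exfalso
    have he : y₀ / d ∈ B := by
      rw [← B.valuation_le_one_iff, map_div₀, hvy, htd,
        div_self ((B.valuation.ne_zero_iff).2 hd0)]
    have h1 := inertia_sub_lt_one hσ he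
    rw [map_div₀, hd σ hσ, h] at h1
    have e : -y₀ / d - y₀ / d = -(2 * (y₀ / d)) := by ring
    rw [e, Valuation.map_neg, map_mul, h2, one_mul, map_div₀, hvy, htd,
      div_self ((B.valuation.ne_zero_iff).2 hd0)] at h1
    exact lt_irrefl _ h1


/-! ### Inertia-fixed points of the model -/

section Model

variable {P : FreyPackage} (M : MultModel P B)

theorem ifix_a₂ : IFix B (M.W₂⁄Qbar).a₂ := IFix.algebraMap _

theorem ifix_a₄ : IFix B (M.W₂⁄Qbar).a₄ := IFix.algebraMap _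

theorem some_eq_some {W : Affine Qbar} {x y x' y' : Qbar} (h : W.Nonsingular x y)
    (h' : W.Nonsingular x' y') (hx : x' = x) (hy : y' = y) :
    Point.some x' y' h' = Point.some x y h := by
  subst hx hy
  rfl

/-- An affine point with inertia-fixed coordinates is fixed by inertia. -/
theorem map_eq_self_of_ifix {x y : Qbar} (h : (M.W₂⁄Qbar).Nonsingular x y) (hx : IFix B x)
    (hy : IFix B y) {σ : GQ} (hσ : σ ∈ B.inertiaSubgroupIn ℚ) :
    Point.map (W' := M.W₂) σ.toAlgHom (Point.some x y h) = Point.some x y h := by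
  rw [Point.map_some]
  exact some_eq_some _ _ (hx σ hσ) (hy σ hσ)

/-- nonsingularity from `2 y ≠ 0` on a two-torsion model -/
theorem nonsingular_of_two_y {W : Affine Qbar} (hW : IsTwoModel W) {x y : Qbar}
    (he : y ^ 2 = x ^ 3 + W.a₂ * x ^ 2 + W.a₄ * x) (hy : 2 * y ≠ 0) : W.Nonsingular x y := by
  rw [nonsingular_iff', equation_iff, hW.a₁, hW.a₃, hW.a₆]
  refine ⟨by linear_combination he, Or.inr ?_⟩
  simpa using hy

/-- nonsingularity from the `x`-derivative on a two-torsion model -/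
theorem nonsingular_of_deriv {W : Affine Qbar} (hW : IsTwoModel W) {x y : Qbar}
    (he : y ^ 2 = x ^ 3 + W.a₂ * x ^ 2 + W.a₄ * x) (hd : 3 * x ^ 2 + 2 * W.a₂ * x + W.a₄ ≠ 0) :
    W.Nonsingular x y := by
  rw [nonsingular_iff', equation_iff, hW.a₁, hW.a₃, hW.a₆]
  refine ⟨by linear_combination he, Or.inl ?_⟩
  intro h0
  apply hd
  linear_combination -h0

theorem hdisc : B.valuation ((M.W₂⁄Qbar).a₂ ^ 2 - 4 * (M.W₂⁄Qbar).a₄) = 1 := by
  have h4 : B.valuation (4 : Qbar) = 1 := by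
    have : (4 : Qbar) = 2 * 2 := by norm_num
    rw [this, map_mul, M.D.h2, one_mul]
  have h1 : B.valuation ((M.W₂⁄Qbar).a₂ ^ 2) = 1 := by rw [map_pow, M.D.ha, one_pow]
  have h3 : B.valuation (4 * (M.W₂⁄Qbar).a₄) < 1 := by
    rw [map_mul, h4, one_mul]; exact M.D.hb
  rw [Valuation.map_sub_eq_of_lt_left _ (by rw [h1]; exact h3), h1]

open Fermat.Agent.S05.Congruence Fermat.Agent.S56x.Flat.InertiaField in
/-- every element of `B` is congruent to an inertia-fixed element -/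
theorem exists_ifix_near (hB : B.LiesOverPrime P.p) {a : Qbar} (ha : a ∈ B) :
    ∃ a₀ : Qbar, a₀ ∈ B ∧ IFix B a₀ ∧ B.valuation (a₀ - a) < 1 := by
  obtain ⟨a₀, ha₀, h⟩ :=
    Fermat.Agent.S19x.Hens.InertiaResidue.exists_fixed_sub_mem_nonunits B P.pp hB ha
  exact ⟨a₀, ha₀.1, ha₀.2, (ValuationSubring.mem_nonunits_iff B).1 h⟩

/-- a bound for the difference of the cubic at two points -/
theorem cubic_sub (a b x x₀ : Qbar) :
    (x ^ 3 + a * x ^ 2 + b * x) - (x₀ ^ 3 + a * x₀ ^ 2 + b * x₀)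
      = (x - x₀) * (x ^ 2 + x * x₀ + x₀ ^ 2 + a * (x + x₀) + b) := by ring

open Fermat.Agent.S05.Congruence in
/-- case A1: `v(x) = v(y) = 1`. -/
theorem fixed_near_of_unit (hB : B.LiesOverPrime P.p) {x y : Qbar}
    (h : (M.W₂⁄Qbar).Nonsingular x y) (hx : B.valuation x = 1) (hy : B.valuation y = 1) :
    ∃ (x₀ y₀ : Qbar) (h₀ : (M.W₂⁄Qbar).Nonsingular x₀ y₀), IFix B x₀ ∧ IFix B y₀ ∧
      NearZero B (Point.some x y h - Point.some x₀ y₀ h₀) := by
  have hW := M.D.model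
  have e1 := equation_eq hW h
  have hxB : x ∈ B := (B.valuation_le_one_iff _).1 hx.le
  obtain ⟨x₀, hx₀B, hx₀, hxx⟩ := exists_ifix_near hB hxB
  have hxx' : B.valuation (x - x₀) < 1 := by
    have : x - x₀ = -(x₀ - x) := by ring
    rw [this, Valuation.map_neg]; exact hxx
  have hy0 : y ≠ 0 := by
    intro h0; rw [h0, map_zero] at hy; exact zero_ne_one hy
  have hc : IFix B (x₀ ^ 3 + (M.W₂⁄Qbar).a₂ * x₀ ^ 2 + (M.W₂⁄Qbar).a₄ * x₀) :=
    ((hx₀.pow 3).add ((ifix_a₂ M).mul (hx₀.pow 2))).add ((ifix_a₄ M).mul hx₀)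
  have hct : B.valuation (y ^ 2 - (x₀ ^ 3 + (M.W₂⁄Qbar).a₂ * x₀ ^ 2 + (M.W₂⁄Qbar).a₄ * x₀))
      < B.valuation y ^ 2 := by
    rw [e1, cubic_sub, map_mul, hy, one_pow]
    have hm : x ^ 2 + x * x₀ + x₀ ^ 2 + (M.W₂⁄Qbar).a₂ * (x + x₀) + (M.W₂⁄Qbar).a₄ ∈ B :=
      B.add_mem _ _ (B.add_mem _ _ (B.add_mem _ _ (B.add_mem _ _ (pow_mem hxB 2)
        (B.mul_mem _ _ hxB hx₀B)) (pow_mem hx₀B 2)) (B.mul_mem _ _ M.ha (B.add_mem _ _ hxB hx₀B)))
        M.hb
    calc B.valuation (x - x₀) * B.valuation _ ≤ B.valuation (x - x₀) * 1 :=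
          mul_le_mul_right ((B.valuation_le_one_iff _).2 hm) _
      _ = B.valuation (x - x₀) := mul_one _
      _ < 1 := hxx'
  obtain ⟨y₀, hy₀sq, hy₀t, hy₀⟩ := exists_sqrt_near M.D.h2 hc (IFix.algebraMap (B := B) 1) hy0
    (by rw [hy, map_one, map_one]) hct
  rw [hy] at hy₀t
  have hvy₀ : B.valuation y₀ = 1 := val_eq_one_of_sub_lt_one B hy hy₀t
  have h2y₀ : 2 * y₀ ≠ 0 := by
    intro h0
    have : B.valuation (2 * y₀) = 1 := by rw [map_mul, M.D.h2, hvy₀, one_mul]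
    rw [h0, map_zero] at this; exact zero_ne_one this
  have h₀ : (M.W₂⁄Qbar).Nonsingular x₀ y₀ := nonsingular_of_two_y hW hy₀sq h2y₀
  refine ⟨x₀, y₀, h₀, hx₀, hy₀, ?_⟩
  have hyy' : B.valuation (y - y₀) < 1 := by
    have : y - y₀ = -(y₀ - y) := by ring
    rw [this, Valuation.map_neg]; exact hy₀t
  exact nearZero_sub_of_congr hW B M.ha M.hb M.D.h2 (hdisc M) h₀ h hx₀B hxx' hyy'
    (Or.inl (val_eq_one_of_sub_lt_one B hx hxx))

open Fermat.Agent.S05.Congruence in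
/-- case A2: `v(x) = 1`, `v(y) < 1`. -/
theorem fixed_near_of_two_torsion {x y : Qbar}
    (h : (M.W₂⁄Qbar).Nonsingular x y) (hx : B.valuation x = 1) (hy : B.valuation y < 1) :
    ∃ (x₀ y₀ : Qbar) (h₀ : (M.W₂⁄Qbar).Nonsingular x₀ y₀), IFix B x₀ ∧ IFix B y₀ ∧
      NearZero B (Point.some x y h - Point.some x₀ y₀ h₀) := by
  have hW := M.D.model
  have e1 := equation_eq hW h
  have h2 := M.D.h2
  have h20 : (2 : Qbar) ≠ 0 := by
    intro h0; rw [h0, map_zero] at h2; exact zero_ne_one h2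
  have hxB : x ∈ B := (B.valuation_le_one_iff _).1 hx.le
  set a := (M.W₂⁄Qbar).a₂ with ha
  set b := (M.W₂⁄Qbar).a₄ with hb
  -- `v(x² + a x + b) < 1`
  have hq : B.valuation (x ^ 2 + a * x + b) < 1 := by
    have e : y ^ 2 = x * (x ^ 2 + a * x + b) := by rw [e1]; ring
    have hv : B.valuation (y ^ 2) < 1 := by
      rw [map_pow]; exact pow_lt_one₀ zero_le hy two_ne_zero
    rw [e, map_mul, hx, one_mul] at hv
    exact hv
  have h4 : B.valuation (4 : Qbar) = 1 := by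
    have : (4 : Qbar) = 2 * 2 := by norm_num
    rw [this, map_mul, h2, one_mul]
  -- `t = 2x + a`
  have hct : B.valuation ((2 * x + a) ^ 2 - (a ^ 2 - 4 * b)) < 1 := by
    have e : (2 * x + a) ^ 2 - (a ^ 2 - 4 * b) = 4 * (x ^ 2 + a * x + b) := by ring
    rw [e, map_mul, h4, one_mul]; exact hq
  have hvt2 : B.valuation ((2 * x + a) ^ 2) = 1 := by
    have e : (2 * x + a) ^ 2 = (a ^ 2 - 4 * b) + ((2 * x + a) ^ 2 - (a ^ 2 - 4 * b)) := by ring
    rw [e]
    exact val_add_eq_one B (hdisc M) hct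
  have hvt : B.valuation (2 * x + a) = 1 := val_eq_one_of_sq B hvt2
  have ht0 : 2 * x + a ≠ 0 := by
    intro h0; rw [h0, map_zero] at hvt; exact zero_ne_one hvt
  have hc : IFix B (a ^ 2 - 4 * b) :=
    ((ifix_a₂ M).pow 2).sub ((IFix.ofNat 4).mul (ifix_a₄ M))
  obtain ⟨δ₀, hδsq, hδt, hδ⟩ := exists_sqrt_near h2 hc (IFix.algebraMap (B := B) 1) ht0
    (by rw [hvt, map_one, map_one]) (by rw [hvt, one_pow]; exact hct)
  rw [hvt] at hδt
  have hvδ : B.valuation δ₀ = 1 := val_eq_one_of_sub_lt_one B hvt hδt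
  have hδ0 : δ₀ ≠ 0 := by
    intro h0; rw [h0, map_zero] at hvδ; exact zero_ne_one hvδ
  have hx₀ : IFix B ((δ₀ - a) / 2) := (hδ.sub (ifix_a₂ M)).div (IFix.ofNat 2)
  have hxx : B.valuation (x - (δ₀ - a) / 2) < 1 := by
    have e : x - (δ₀ - a) / 2 = -((δ₀ - (2 * x + a)) / 2) := by field_simp; ring
    rw [e, Valuation.map_neg, map_div₀, h2, div_one]; exact hδt
  have hxx' : B.valuation ((δ₀ - a) / 2 - x) < 1 := by
    have : (δ₀ - a) / 2 - x = -(x - (δ₀ - a) / 2) := by ring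
    rw [this, Valuation.map_neg]; exact hxx
  have hvx₀ : B.valuation ((δ₀ - a) / 2) = 1 := val_eq_one_of_sub_lt_one B hx hxx'
  have hx₀0 : (δ₀ - a) / 2 ≠ 0 := by
    intro h0; rw [h0, map_zero] at hvx₀; exact zero_ne_one hvx₀
  have hx₀B : (δ₀ - a) / 2 ∈ B := (B.valuation_le_one_iff _).1 hvx₀.le
  have hquad : ((δ₀ - a) / 2) ^ 2 + a * ((δ₀ - a) / 2) + b = 0 := by
    field_simp
    linear_combination hδsq
  have he : (0 : Qbar) ^ 2 = ((δ₀ - a) / 2) ^ 3 + a * ((δ₀ - a) / 2) ^ 2 + b * ((δ₀ - a) / 2) := by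
    linear_combination (-((δ₀ - a) / 2)) * hquad
  have hder : 3 * ((δ₀ - a) / 2) ^ 2 + 2 * a * ((δ₀ - a) / 2) + b ≠ 0 := by
    have e : 3 * ((δ₀ - a) / 2) ^ 2 + 2 * a * ((δ₀ - a) / 2) + b = ((δ₀ - a) / 2) * δ₀ := by
      have : 2 * ((δ₀ - a) / 2) + a = δ₀ := by field_simp; ring
      linear_combination hquad + ((δ₀ - a) / 2) * this
    rw [e]
    exact mul_ne_zero hx₀0 hδ0
  have h₀ : (M.W₂⁄Qbar).Nonsingular ((δ₀ - a) / 2) 0 := nonsingular_of_deriv hW he hder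
  refine ⟨(δ₀ - a) / 2, 0, h₀, hx₀, fun σ _ => map_zero σ, ?_⟩
  exact nearZero_sub_of_congr hW B M.ha M.hb h2 (hdisc M) h₀ h hx₀B hxx
    (by rw [sub_zero]; exact hy) (Or.inl hvx₀)

open Fermat.Agent.S05.Congruence in
/-- mid case: `v(a₄) < v(x) < 1`, `v(y) = v(x) = v(r)^j`. -/
theorem fixed_near_of_mid (hB : B.LiesOverPrime P.p) {x y : Qbar}
    (h : (M.W₂⁄Qbar).Nonsingular x y) (hbx : B.valuation (M.W₂⁄Qbar).a₄ < B.valuation x)
    (hx1 : B.valuation x < 1) (hyx : B.valuation y = B.valuation x) {c : Qbar} (hc : IFix B c)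
    (hxc : B.valuation x = B.valuation c) :
    ∃ (x₀ y₀ : Qbar) (h₀ : (M.W₂⁄Qbar).Nonsingular x₀ y₀), IFix B x₀ ∧ IFix B y₀ ∧
      NearZero B (Point.some x y h - Point.some x₀ y₀ h₀) := by
  have hW := M.D.model
  have e1 := equation_eq hW h
  have h2 := M.D.h2
  set a := (M.W₂⁄Qbar).a₂ with ha
  set b := (M.W₂⁄Qbar).a₄ with hb
  have hvx0 : 0 < B.valuation x := lt_of_le_of_lt zero_le hbx
  have hx0 : x ≠ 0 := (B.valuation.ne_zero_iff).1 hvx0.ne'
  have hvc0 : B.valuation c ≠ 0 := by rw [← hxc]; exact hvx0.ne'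
  have hc0 : c ≠ 0 := (B.valuation.ne_zero_iff).1 hvc0
  have hy0 : y ≠ 0 := (B.valuation.ne_zero_iff).1 (by rw [hyx]; exact hvx0.ne')
  have hxcB : x / c ∈ B := by
    rw [← B.valuation_le_one_iff, map_div₀, hxc, div_self hvc0]
  obtain ⟨ξ₀, hξ₀B, hξ₀, hξx⟩ := exists_ifix_near hB hxcB
  have hx₀ : IFix B (c * ξ₀) := hc.mul hξ₀
  have hxx : B.valuation (x - c * ξ₀) < B.valuation x := by
    have e : x - c * ξ₀ = -(c * (ξ₀ - x / c)) := by field_simp; ring
    rw [e, Valuation.map_neg, map_mul, hxc]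
    calc B.valuation c * B.valuation (ξ₀ - x / c) < B.valuation c * 1 :=
          (mul_lt_mul_iff_of_pos_left (zero_lt_iff.2 hvc0)).2 hξx
      _ = B.valuation c := mul_one _
  have hvx₀ : B.valuation (c * ξ₀) = B.valuation x := by
    have e : c * ξ₀ = x + -(x - c * ξ₀) := by ring
    rw [e]
    exact Valuation.map_add_eq_of_lt_left _ (by rw [Valuation.map_neg]; exact hxx)
  have hcc : IFix B ((c * ξ₀) ^ 3 + a * (c * ξ₀) ^ 2 + b * (c * ξ₀)) :=
    ((hx₀.pow 3).add ((ifix_a₂ M).mul (hx₀.pow 2))).add ((ifix_a₄ M).mul hx₀)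
  have hle : ∀ z : Qbar, B.valuation z ≤ B.valuation x → B.valuation z ≤ 1 :=
    fun z hz => hz.trans hx1.le
  have hct : B.valuation (y ^ 2 - ((c * ξ₀) ^ 3 + a * (c * ξ₀) ^ 2 + b * (c * ξ₀)))
      < B.valuation y ^ 2 := by
    rw [e1, cubic_sub, map_mul, hyx]
    have hm : B.valuation (x ^ 2 + x * (c * ξ₀) + (c * ξ₀) ^ 2 + a * (x + c * ξ₀) + b)
        ≤ B.valuation x := by
      refine (Valuation.map_add_le _ ?_ hbx.le)
      refine (Valuation.map_add_le _ ?_ ?_)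
      · refine (Valuation.map_add_le _ (Valuation.map_add_le _ ?_ ?_) ?_)
        · rw [pow_two, map_mul]
          exact mul_le_of_le_one_right' hx1.le
        · rw [map_mul, hvx₀]
          exact mul_le_of_le_one_right' hx1.le
        · rw [pow_two, map_mul, hvx₀]
          exact mul_le_of_le_one_right' hx1.le
      · rw [map_mul, M.D.ha, one_mul]
        exact Valuation.map_add_le _ le_rfl hvx₀.le
    calc B.valuation (x - c * ξ₀) * B.valuation _
        ≤ B.valuation (x - c * ξ₀) * B.valuation x := mul_le_mul_right hm _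
      _ < B.valuation x * B.valuation x := (mul_lt_mul_iff_of_pos_right hvx0).2 hxx
      _ = B.valuation x ^ 2 := (pow_two _).symm
  obtain ⟨y₀, hy₀sq, hy₀t, hy₀⟩ := exists_sqrt_near h2 hcc hc hy0 (by rw [hyx, hxc]) hct
  have hvy₀ : B.valuation y₀ = B.valuation y := by
    have e : y₀ = y + (y₀ - y) := by ring
    rw [e]
    exact Valuation.map_add_eq_of_lt_left _ hy₀t
  have h2y₀ : 2 * y₀ ≠ 0 := by
    intro h0
    have : B.valuation (2 * y₀) = B.valuation x := by rw [map_mul, h2, hvy₀, one_mul, hyx]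
    rw [h0, map_zero] at this; exact hvx0.ne this
  have h₀ : (M.W₂⁄Qbar).Nonsingular (c * ξ₀) y₀ := nonsingular_of_two_y hW hy₀sq h2y₀
  refine ⟨c * ξ₀, y₀, h₀, hx₀, hy₀, ?_⟩
  refine nearZero_sub_of_ratio hW B M.D.ha h2 h₀ h (by rw [hvx₀]; exact hx1)
    (by rw [hvx₀]; exact hbx) (by rw [hvx₀]; exact hxx) ?_
  have : y - y₀ = -(y₀ - y) := by ring
  rw [this, Valuation.map_neg, hvy₀]; exact hy₀t

/-- **Step (2) of note 2515**: every `p`-torsion point of the model is congruent, modulo the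
kernel of reduction, to a point fixed by inertia. -/
theorem exists_fixed_point (hB : B.LiesOverPrime P.p) (T : (M.W₂⁄Qbar).Point)
    (hT : P.p • T = 0) :
    ∃ Q₀ : (M.W₂⁄Qbar).Point,
      (∀ σ ∈ B.inertiaSubgroupIn ℚ, Point.map (W' := M.W₂) σ.toAlgHom Q₀ = Q₀) ∧
        NearZero B (T - Q₀) := by
  have key : ∀ (x y : Qbar) (h : (M.W₂⁄Qbar).Nonsingular x y),
      (∃ (x₀ y₀ : Qbar) (h₀ : (M.W₂⁄Qbar).Nonsingular x₀ y₀), IFix B x₀ ∧ IFix B y₀ ∧
        NearZero B (Point.some x y h - Point.some x₀ y₀ h₀)) →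
      ∃ Q₀ : (M.W₂⁄Qbar).Point,
        (∀ σ ∈ B.inertiaSubgroupIn ℚ, Point.map (W' := M.W₂) σ.toAlgHom Q₀ = Q₀) ∧
          NearZero B (Point.some x y h - Q₀) := by
    rintro x y h ⟨x₀, y₀, h₀, hx₀, hy₀, hn⟩
    exact ⟨Point.some x₀ y₀ h₀, fun σ hσ => map_eq_self_of_ifix M h₀ hx₀ hy₀ hσ, hn⟩
  have triv : ∀ T : (M.W₂⁄Qbar).Point, NearZero B T → ∃ Q₀ : (M.W₂⁄Qbar).Point,
      (∀ σ ∈ B.inertiaSubgroupIn ℚ, Point.map (W' := M.W₂) σ.toAlgHom Q₀ = Q₀) ∧
        NearZero B (T - Q₀) := by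
    intro T hT
    exact ⟨0, fun σ _ => map_zero _, by rw [sub_zero]; exact hT⟩
  rcases T with _ | ⟨x, y, h⟩
  · exact triv _ trivial
  · by_cases hxB : x ∈ B
    · rcases valuation_x_of_torsion M.D P.pp (p_ne_two P) M.hr h hT with h1 | ⟨hbx, hx1, hyx, j, hj⟩
      · have hx : B.valuation x = 1 := le_antisymm ((B.valuation_le_one_iff _).2 hxB) h1
        have hyB : y ∈ B := y_mem_of_x_mem M.D.model B M.ha M.hb h hxB
        by_cases hy : B.valuation y = 1
        · exact key x y h (fixed_near_of_unit M hB h hx hy)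
        · exact key x y h (fixed_near_of_two_torsion M h hx
            (lt_of_le_of_ne ((B.valuation_le_one_iff _).2 hyB) hy))
      · exact key x y h (fixed_near_of_mid M hB h hbx hx1 hyx
          ((IFix.algebraMap (B := B) M.r).pow j) (by rw [hj, map_pow]))
    · exact triv _ hxB

end Model

end Fermat.Agent.S40x.Ell.HenselPoint
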