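import Fermat.Agent.S40x.Ell.UMult

set_option autoImplicit false

/-!
# `p`-th roots near `1` in residue characteristic `p`

(helper26; small leaf of block B of P-S44/S40, requested by helper45, msg 22341 (R1), (R2).)

`K` a field with a valuation subring `B`, `p` a prime, `π := v(p : K)`.

* `val_one_add_pow_sub_one` : `v(ε)^(p-1) < π  ⟹  v((1+ε)^p - 1) = v(ε) π`.
* `eq_zero_of_one_add_pow_eq_one` (R2) : `(1+δ)^p = 1`, `v(δ)^(p-1) < π  ⟹  δ = 0`.
* `exists_root_near_one_eq` / `exists_root_near_one` (R1) : `p` odd, `π < 1`, `v(κ - 1) ≤ π^p`,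
  `κ` has a `p`-th root and `K` has a primitive `p`-th root of unity (e.g. `K` algebraically
  closed, `exists_root_near_one_of_isAlgClosed`)  ⟹  `∃ e, e^p = κ ∧ v(e-1) π = v(κ-1)`.
* `root_near_one_unique` : two `p`-th roots of the same element that are both closer to `1`
  than the roots of unity are (`v(e_i - 1)^(p-1) < π`) coincide.
-/

namespace Fermat.Agent.S40x.Ell.RootsNear

open Polynomial Fermat.Agent.S40x.Ell.UMult

variable {K : Type*} [Field K]

/-- `(1+ε)^p - 1 = ε (ε^(p-1) + p r)` with `r` a unit, for `v(ε) < 1`. -/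
theorem one_add_pow_sub_one_eq (B : ValuationSubring K) {p : ℕ} (hp : p.Prime) {ε : K}
    (hε : B.valuation ε < 1) :
    ∃ r : K, B.valuation r = 1 ∧ (1 + ε) ^ p - 1 = ε * (ε ^ (p - 1) + (p : K) * r) := by
  have hεB : ε ∈ B := (B.valuation_le_one_iff _).1 hε.le
  obtain ⟨s, hs⟩ := exists_one_add_pow_prime_eq' hp (⟨ε, hεB⟩ : B)
  have hs' : (1 + ε) ^ p = 1 + ε ^ p + (p : K) * ε * (1 + ε * (s : K)) := by
    have := congrArg (fun x : B => (x : K)) hs
    simpa using this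
  refine ⟨1 + ε * (s : K), ?_, ?_⟩
  · apply (B.valuation).map_one_add_of_lt
    rw [map_mul]
    calc B.valuation ε * B.valuation (s : K) ≤ B.valuation ε * 1 :=
          mul_le_mul_right ((B.valuation_le_one_iff _).2 s.2) _
      _ = B.valuation ε := mul_one _
      _ < 1 := hε
  · have hpow : ε ^ p = ε * ε ^ (p - 1) := by
      rw [← pow_succ', Nat.sub_add_cancel hp.one_le]
    rw [hs', hpow]
    ring

/-- `v(p) ≤ 1`. -/
theorem val_natCast_le_one (B : ValuationSubring K) (n : ℕ) : B.valuation (n : K) ≤ 1 :=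
  (B.valuation_le_one_iff _).2 (natCast_mem B n)

/-- `v(ε)^(p-1) < v(p)` forces `v(ε) < 1`. -/
theorem val_lt_one_of_pow_lt (B : ValuationSubring K) {p : ℕ} {ε : K}
    (hε : B.valuation ε ^ (p - 1) < B.valuation (p : K)) : B.valuation ε < 1 := by
  by_contra h
  have h1 : (1 : B.ValueGroup) ≤ B.valuation ε := not_lt.1 h
  have h2 : (1 : B.ValueGroup) ≤ B.valuation ε ^ (p - 1) := one_le_pow_of_one_le' h1 _
  exact absurd (h2.trans_lt hε) (not_lt.2 (val_natCast_le_one B p))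

/-- `v(ε)^(p-1) < v(p)  ⟹  v((1+ε)^p - 1) = v(ε) v(p)`. -/
theorem val_one_add_pow_sub_one (B : ValuationSubring K) {p : ℕ} (hp : p.Prime) {ε : K}
    (hε : B.valuation ε ^ (p - 1) < B.valuation (p : K)) :
    B.valuation ((1 + ε) ^ p - 1) = B.valuation ε * B.valuation (p : K) := by
  obtain ⟨r, hr, h⟩ := one_add_pow_sub_one_eq B hp (val_lt_one_of_pow_lt B hε)
  rw [h, map_mul]
  congr 1
  have h1 : B.valuation ((p : K) * r) = B.valuation (p : K) := by rw [map_mul, hr, mul_one]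
  rw [(B.valuation).map_add_eq_of_lt_right (by rw [map_pow, h1]; exact hε), h1]

/-- **(R2)** `(1+δ)^p = 1` and `v(δ)^(p-1) < v(p)` force `δ = 0`: the only `p`-th root of unity
closer to `1` than `ζ_p` is `1`. -/
theorem eq_zero_of_one_add_pow_eq_one (B : ValuationSubring K) {p : ℕ} (hp : p.Prime) {δ : K}
    (h1 : (1 + δ) ^ p = 1) (hδ : B.valuation δ ^ (p - 1) < B.valuation (p : K)) : δ = 0 := by
  have h := val_one_add_pow_sub_one B hp hδ
  rw [h1, sub_self, map_zero] at h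
  rcases mul_eq_zero.1 h.symm with h0 | h0
  · exact (B.valuation.zero_iff).1 h0
  · rw [h0] at hδ
    exact absurd hδ not_lt_zero

/-- variant of (R2): a `p`-th root of unity `ζ` with `v(ζ - 1)^(p-1) < v(p)` is `1`. -/
theorem eq_one_of_pow_eq_one (B : ValuationSubring K) {p : ℕ} (hp : p.Prime) {ζ : K}
    (h1 : ζ ^ p = 1) (hζ : B.valuation (ζ - 1) ^ (p - 1) < B.valuation (p : K)) : ζ = 1 := by
  have := eq_zero_of_one_add_pow_eq_one B hp (δ := ζ - 1) (by rw [add_sub_cancel, h1]) hζ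
  exact sub_eq_zero.1 this

/-- two `p`-th roots `e₁, e₂` of the same element, both with `v(e_i - 1)^(p-1) < v(p)`,
coincide. -/
theorem root_near_one_unique (B : ValuationSubring K) {p : ℕ} (hp : p.Prime) {e₁ e₂ : K}
    (h : e₁ ^ p = e₂ ^ p) (h₁ : B.valuation (e₁ - 1) ^ (p - 1) < B.valuation (p : K))
    (h₂ : B.valuation (e₂ - 1) ^ (p - 1) < B.valuation (p : K)) : e₁ = e₂ := by
  have hv₁ : B.valuation (e₁ - 1) < 1 := val_lt_one_of_pow_lt B h₁
  have hv₂ : B.valuation (e₂ - 1) < 1 := val_lt_one_of_pow_lt B h₂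
  have hu₂ : B.valuation e₂ = 1 := by
    have : e₂ = 1 + (e₂ - 1) := by ring
    rw [this]
    exact (B.valuation).map_one_add_of_lt hv₂
  have he₂ : e₂ ≠ 0 := by
    intro h0
    rw [h0, map_zero] at hu₂
    exact zero_ne_one hu₂
  have hq : (e₁ / e₂) ^ p = 1 := by rw [div_pow, h, div_self (pow_ne_zero _ he₂)]
  have hd : e₁ / e₂ - 1 = (e₁ - e₂) / e₂ := by field_simp
  have hsub : B.valuation (e₁ - e₂) ≤ max (B.valuation (e₁ - 1)) (B.valuation (e₂ - 1)) := by
    have : e₁ - e₂ = (e₁ - 1) - (e₂ - 1) := by ring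
    rw [this]
    exact (B.valuation).map_sub _ _
  have hv : B.valuation (e₁ / e₂ - 1) ^ (p - 1) < B.valuation (p : K) := by
    rw [hd, map_div₀, hu₂, div_one]
    rcases le_max_iff.1 hsub with h' | h'
    · exact (pow_le_pow_left' h' _).trans_lt h₁
    · exact (pow_le_pow_left' h' _).trans_lt h₂
  have := eq_one_of_pow_eq_one B hp hq hv
  exact (div_eq_one_iff_eq he₂).1 this

/-- **(R1)**, equality form.  `p` odd, `π = v(p) < 1`, `v(κ - 1) ≤ π^p`; if `κ` has a `p`-th root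
and `K` contains a primitive `p`-th root of unity, then `κ` has a `p`-th root `e` with
`v(e - 1) π = v(κ - 1)`. -/
theorem exists_root_near_one_eq (B : ValuationSubring K) {p : ℕ} (hp : p.Prime) (hp2 : p ≠ 2)
    (hp0 : (p : K) ≠ 0) (hπ1 : B.valuation (p : K) < 1)
    (hprim : ∃ ζ : K, IsPrimitiveRoot ζ p) {κ : K} (hroot : ∃ e₀ : K, e₀ ^ p = κ)
    (hκ : B.valuation (κ - 1) ≤ B.valuation (p : K) ^ p) :
    ∃ e : K, e ^ p = κ ∧ B.valuation (e - 1) * B.valuation (p : K) = B.valuation (κ - 1) := by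
  classical
  obtain ⟨ζ₀, hζ₀⟩ := hprim
  obtain ⟨e₀, he₀⟩ := hroot
  have hp3 : 3 ≤ p := by
    have := hp.two_le
    omega
  set π := B.valuation (p : K) with hπ
  have hπ0 : π ≠ 0 := (B.valuation.ne_zero_iff).2 hp0
  have hprod : 1 - κ = ∏ ζ ∈ nthRootsFinset p (1 : K), (1 - ζ * e₀) := by
    have h := hζ₀.pow_sub_pow_eq_prod_sub_mul (1 : K) e₀ hp.pos
    rwa [one_pow, he₀] at h
  have hcard : (nthRootsFinset p (1 : K)).card = p := hζ₀.card_nthRootsFinset
  have hne : (nthRootsFinset p (1 : K)).Nonempty :=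
    ⟨1, (mem_nthRootsFinset hp.pos 1).2 (one_pow p)⟩
  obtain ⟨ζ, hζmem, hζmin⟩ :=
    Finset.exists_min_image (nthRootsFinset p (1 : K)) (fun ζ => B.valuation (1 - ζ * e₀)) hne
  have hζp : ζ ^ p = 1 := (mem_nthRootsFinset hp.pos 1).1 hζmem
  set m := B.valuation (1 - ζ * e₀) with hm
  have hmp : m ^ p ≤ π ^ p := by
    calc m ^ p = m ^ (nthRootsFinset p (1 : K)).card := by rw [hcard]
      _ = ∏ _ζ ∈ nthRootsFinset p (1 : K), m := (Finset.prod_const _).symm
      _ ≤ ∏ ζ' ∈ nthRootsFinset p (1 : K), B.valuation (1 - ζ' * e₀) :=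
          Finset.prod_le_prod' (f := fun _ => m) (g := fun ζ' => B.valuation (1 - ζ' * e₀))
            (fun ζ' hζ' => hζmin ζ' hζ')
      _ = B.valuation (1 - κ) := by rw [hprod, map_prod]
      _ = B.valuation (κ - 1) := by rw [← neg_sub, Valuation.map_neg]
      _ ≤ π ^ p := hκ
  have hmπ : m ≤ π := by
    by_contra hlt
    have hlt' : π < m := not_le.1 hlt
    exact absurd hmp (not_le.2 (pow_lt_pow_left₀ hlt' zero_le hp.ne_zero))
  refine ⟨ζ * e₀, by rw [mul_pow, hζp, he₀, one_mul], ?_⟩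
  set ε := ζ * e₀ - 1 with hε
  have hεm : B.valuation ε = m := by rw [hm, hε, ← neg_sub, Valuation.map_neg]
  have hεπ : B.valuation ε ^ (p - 1) < π := by
    rw [hεm]
    calc m ^ (p - 1) ≤ π ^ (p - 1) := pow_le_pow_left' hmπ _
      _ < π ^ 1 := pow_lt_pow_right_of_lt_one₀ (zero_lt_iff.2 hπ0) hπ1 (by omega)
      _ = π := pow_one π
  have h := val_one_add_pow_sub_one B hp hεπ
  have hκe : (1 + ε) ^ p = κ := by
    rw [hε, add_sub_cancel, mul_pow, hζp, he₀, one_mul]
  rw [hκe] at h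
  exact h.symm

/-- **(R1)** in helper45's literal form (`≤`). -/
theorem exists_root_near_one (B : ValuationSubring K) {p : ℕ} (hp : p.Prime) (hp2 : p ≠ 2)
    (hp0 : (p : K) ≠ 0) (hπ1 : B.valuation (p : K) < 1)
    (hprim : ∃ ζ : K, IsPrimitiveRoot ζ p) {κ : K} (hroot : ∃ e₀ : K, e₀ ^ p = κ)
    (hκ : B.valuation (κ - 1) ≤ B.valuation (p : K) ^ p) :
    ∃ e : K, e ^ p = κ ∧ B.valuation (e - 1) * B.valuation (p : K) ≤ B.valuation (κ - 1) := by
  obtain ⟨e, he, h⟩ := exists_root_near_one_eq B hp hp2 hp0 hπ1 hprim hroot hκ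
  exact ⟨e, he, h.le⟩

/-- **(R1)** over an algebraically closed field. -/
theorem exists_root_near_one_of_isAlgClosed [IsAlgClosed K] (B : ValuationSubring K) {p : ℕ}
    (hp : p.Prime) (hp2 : p ≠ 2) (hp0 : (p : K) ≠ 0) (hπ1 : B.valuation (p : K) < 1) {κ : K}
    (hκ : B.valuation (κ - 1) ≤ B.valuation (p : K) ^ p) :
    ∃ e : K, e ^ p = κ ∧ B.valuation (e - 1) * B.valuation (p : K) = B.valuation (κ - 1) := by
  have : NeZero (p : K) := ⟨hp0⟩
  exact exists_root_near_one_eq B hp hp2 hp0 hπ1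
    (HasEnoughRootsOfUnity.exists_primitiveRoot K p)
    (IsAlgClosed.exists_pow_nat_eq κ hp.pos) hκ

end Fermat.Agent.S40x.Ell.RootsNear
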