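/-
P-S44/S40, block B (elliptic side of S44), leaf B6' (helper45).

Claim (d') of the block B interface (note 2602 + amendment): the Kummer element of a `p`-torsion
point of the multiplicative model.  `W : Y² = X³ + a₂ X² + a₄ X`, `u = (Y - γ X)/(Y + γ X)`
(`UMult.uc`), `S` a non-zero `p`-torsion point of the kernel of reduction.  There is a primitive
`p`-th root of unity `ζ` (the one close to `u(S)`) such that for every point `Z'` of the kernel of
reduction there is `b` with `b ^ p = u(p • Z')` and `f b = ζ ^ j * b` for every endomorphism `f`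
(valuation preserving, trivial on the residue field) with `f Z' = Z' + j • S`.
-/
import Fermat.Agent.S40x.Ell.CycloLine
import Fermat.Agent.S40x.Ell.RootsNear
import Fermat.Agent.S40x.Ell.HenselPoint
import Fermat.Agent.S40x.R2.KummerPeu

set_option autoImplicit false
set_option linter.unusedSectionVars false

noncomputable section

namespace Fermat.Agent.S40x.Ell.KummerU

open WeierstrassCurve WeierstrassCurve.Affine Fermat.Agent.S05 Fermat.Agent.S40x.Ell.UMult
  Fermat.Agent.S40x.Ell.CycloLine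

section valuation

variable {K : Type*} [Field K] (A : ValuationSubring K)

/-- product of three congruences -/
theorem val_mul_mul_sub_lt {t : A.ValueGroup} {x y z x₀ : K} (hx₀ : A.valuation x₀ ≤ 1)
    (hx : A.valuation (x - x₀) < t) (hy : A.valuation (y - 1) < t) (hz : A.valuation (z - 1) < t)
    (ht : t ≤ 1) : A.valuation (x * y * z - x₀) < t := by
  have hx1 : A.valuation x ≤ 1 := by
    have : x = (x - x₀) + x₀ := by ring
    rw [this]
    exact le_trans (A.valuation.map_add _ _) (max_le (hx.le.trans ht) hx₀)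
  have hy1 : A.valuation y ≤ 1 := by
    have : y = (y - 1) + 1 := by ring
    rw [this]
    exact le_trans (A.valuation.map_add _ _) (max_le (hy.le.trans ht) (by simp))
  have e : x * y * z - x₀ = x * y * (z - 1) + (x * (y - 1) + (x - x₀)) := by ring
  rw [e]
  refine Valuation.map_add_lt _ ?_ (Valuation.map_add_lt _ ?_ hx)
  · rw [map_mul, map_mul]
    calc A.valuation x * A.valuation y * A.valuation (z - 1) ≤ 1 * 1 * A.valuation (z - 1) := by
          gcongr
      _ = A.valuation (z - 1) := by rw [one_mul, one_mul]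
      _ < t := hz
  · rw [map_mul]
    calc A.valuation x * A.valuation (y - 1) ≤ 1 * A.valuation (y - 1) := by gcongr
      _ = A.valuation (y - 1) := one_mul _
      _ < t := hy

end valuation

section model

variable {K : Type*} [Field K] [DecidableEq K] [Algebra ℚ K] [IsAlgClosed K]
  (A : ValuationSubring K) {W' : Affine ℚ}

/-- **Claim (d'), model level.** -/
theorem exists_kummer_elt {γ : K} (D : MultData A (W'⁄K) γ) {p : ℕ} (hp : p.Prime) (hp2 : p ≠ 2)
    (hπ : A.valuation (W'⁄K).a₄ ≤ A.valuation (p : K) ^ p)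
    {ζ₀ : K} (hζ₀ : IsPrimitiveRoot ζ₀ p)
    {S : (W'⁄K).Point} (hS : NearZero A S) (hS0 : S ≠ 0) (hpS : p • S = 0) :
    ∃ ζ : K, IsPrimitiveRoot ζ p ∧ ∀ Z' : (W'⁄K).Point, NearZero A Z' →
      ∃ b : K, b ^ p = uc γ (p • Z') ∧
        ∀ f : K →ₐ[ℚ] K, (∀ x ∈ A, A.valuation (f x - x) < 1) →
          (∀ x, A.valuation (f x) = A.valuation x) →
          ∀ j : ℕ, Point.map (W' := W') f Z' = Z' + j • S → f b = ζ ^ j * b := by
  have haA : (W'⁄K).a₂ ∈ A := by rw [← A.valuation_le_one_iff, D.ha]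
  have hbA : (W'⁄K).a₄ ∈ A := by rw [← A.valuation_le_one_iff]; exact D.hb.le
  have hchar : CharZero K := algebraRat.charZero K
  have hp0 : (p : K) ≠ 0 := Nat.cast_ne_zero.2 hp.ne_zero
  have hp3 : 3 ≤ p := by have := hp.two_le; omega
  -- depth of `S`
  obtain ⟨hτ, -⟩ := torsion_depth A D hp hp2 hp0 hπ hS hS0 hpS
  set τ := A.valuation (KernelOfReduction.zc S) with hτdef
  have hτ1 : τ < 1 := KernelOfReduction.val_zc_lt_one A D.model haA hbA hS
  have hz0 : KernelOfReduction.zc S ≠ 0 := fun h0 =>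
    hS0 ((KernelOfReduction.zc_eq_zero_iff A D.model haA hbA hS).1 h0)
  have hτ0 : τ ≠ 0 := (A.valuation.ne_zero_iff).2 hz0
  have hτpos : 0 < τ := zero_lt_iff.2 hτ0
  set π := A.valuation (p : K) with hπdef
  have hπτ : π < τ := by
    rw [← hτ]
    calc τ ^ (p - 1) ≤ τ ^ 2 := pow_le_pow_of_le_one zero_le hτ1.le (by omega)
      _ = τ * τ := pow_two τ
      _ < τ * 1 := mul_lt_mul_of_pos_left hτ1 hτpos
      _ = τ := mul_one τ
  have hβτp : A.valuation (W'⁄K).a₄ < τ ^ p := by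
    refine lt_of_le_of_lt hπ ?_
    exact pow_lt_pow_left₀ hπτ zero_le hp.ne_zero
  have hβτ : A.valuation (W'⁄K).a₄ < τ := by
    refine lt_of_lt_of_le hβτp ?_
    calc τ ^ p ≤ τ ^ 1 := pow_le_pow_of_le_one zero_le hτ1.le (by omega)
      _ = τ := pow_one τ
  -- the root of unity close to `u(S)`
  set u := uc γ S with hu
  have hup : A.valuation (u ^ p - 1) ≤ A.valuation (W'⁄K).a₄ :=
    uc_pow_sub_one A D.model haA D.hb D.hγ hS hpS
  obtain ⟨ζ, hζp, hζ⟩ := exists_root_near A hp.pos hζ₀ (lt_of_le_of_lt hup hβτp)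
  have hu1 : A.valuation (u - 1) = τ := val_uc_sub_one A D hS
  have hvu : A.valuation u = 1 := val_eq_one_of_sub_one_lt A (by rw [hu1]; exact hτ1)
  have hvζ : A.valuation ζ = 1 := by
    have h1 : A.valuation ζ ^ p = 1 := by rw [← map_pow, hζp, map_one]
    exact (pow_eq_one_iff_of_nonneg zero_le hp.ne_zero).1 h1
  have hζ1 : ζ ≠ 1 := by
    intro h1
    rw [h1, hu1] at hζ
    exact lt_irrefl _ hζ
  have hζprim : IsPrimitiveRoot ζ p := by
    have hdvd : orderOf ζ ∣ p := orderOf_dvd_of_pow_eq_one hζp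
    rcases (Nat.dvd_prime hp).1 hdvd with h1 | h1
    · exact absurd (orderOf_eq_one_iff.1 h1) hζ1
    · rw [← h1]; exact IsPrimitiveRoot.orderOf ζ
  have hζ0 : ζ ≠ 0 := by
    intro h0; rw [h0, map_zero] at hvζ; exact zero_ne_one hvζ
  refine ⟨ζ, hζprim, ?_⟩
  intro Z' hZ'
  -- `u(p Z') = u(Z')^p κ₃`
  obtain ⟨κ₃, hκ₃, hκ₃v⟩ := uc_nsmul A D.model haA hbA D.hγ hZ' p
  obtain ⟨e₁, he₁⟩ := IsAlgClosed.exists_pow_nat_eq κ₃ hp.pos
  obtain ⟨ζ₁, hζ₁p, hζ₁⟩ := exists_root_near A hp.pos hζ₀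
    (u := e₁) (by rw [he₁]; exact lt_of_le_of_lt hκ₃v hβτp)
  have hvζ₁ : A.valuation ζ₁ = 1 := by
    have h1 : A.valuation ζ₁ ^ p = 1 := by rw [← map_pow, hζ₁p, map_one]
    exact (pow_eq_one_iff_of_nonneg zero_le hp.ne_zero).1 h1
  have hζ₁0 : ζ₁ ≠ 0 := by
    intro h0; rw [h0, map_zero] at hvζ₁; exact zero_ne_one hvζ₁
  set e := e₁ / ζ₁ with he
  have hep : e ^ p = κ₃ := by rw [he, div_pow, he₁, hζ₁p, div_one]
  have he1 : A.valuation (e - 1) < τ := by
    have : e - 1 = (e₁ - ζ₁) / ζ₁ := by rw [he]; field_simp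
    rw [this, map_div₀, hvζ₁, div_one]; exact hζ₁
  have hve : A.valuation e = 1 := val_eq_one_of_sub_one_lt A (he1.trans hτ1)
  have he0 : e ≠ 0 := by
    intro h0; rw [h0, map_zero] at hve; exact zero_ne_one hve
  have huZ0 : uc γ Z' ≠ 0 := uc_ne_zero A D.model haA hbA D.hγ hZ'
  refine ⟨uc γ Z' * e, by rw [mul_pow, hep, hκ₃], ?_⟩
  intro f hf hfv j hfZ
  have hfγ : f γ = γ := map_gamma A f hf D
  have hb0 : uc γ Z' * e ≠ 0 := mul_ne_zero huZ0 he0
  -- `f` fixes `u(p Z')`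
  have hfix : f (uc γ (p • Z')) = uc γ (p • Z') := by
    rw [← uc_map f hfγ, map_nsmul, hfZ, smul_add, smul_comm, hpS, smul_zero, add_zero]
  -- `ρ = f b / b` is a `p`-th root of unity
  set ρ := f (uc γ Z' * e) / (uc γ Z' * e) with hρ
  have hρp : ρ ^ p = 1 := by
    rw [hρ, div_pow, ← map_pow, mul_pow, hep, ← hκ₃, hfix]
    exact div_self (by rw [hκ₃, ← hep, ← mul_pow]; exact pow_ne_zero _ hb0)
  -- multiplicativity
  have hNjS : NearZero A (j • S) :=
    (KernelOfReduction.nsmul_estimate A D.model haA hbA hS j).1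
  obtain ⟨κ₂, hκ₂, hκ₂v⟩ := uc_nsmul A D.model haA hbA D.hγ hS j
  obtain ⟨κ₁, hκ₁, hκ₁v⟩ := uc_add A D.model haA hbA D.hγ hZ' hNjS
  rw [← hfZ, uc_map f hfγ, hκ₂, ← hu] at hκ₁
  have hρeq : ρ = u ^ j * (κ₂ * κ₁) * (f e / e) := by
    rw [hρ, map_mul, hκ₁]
    field_simp
  have hβ1 : A.valuation (W'⁄K).a₄ ≤ 1 := (A.valuation_le_one_iff _).2 hbA
  have hκv : A.valuation (κ₂ * κ₁ - 1) < τ :=
    lt_of_le_of_lt (oneUnit_mul A hβ1 hκ₂v hκ₁v) hβτ
  have hfe : A.valuation (f e / e - 1) < τ := by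
    have e' : f e / e - 1 = (f (e - 1) - (e - 1)) / e := by
      rw [map_sub, map_one]; field_simp; ring
    rw [e', map_div₀, hve, div_one]
    refine lt_of_le_of_lt (A.valuation.map_sub _ _) (max_lt ?_ he1)
    rw [hfv]; exact he1
  have huj : A.valuation (u ^ j - ζ ^ j) < τ :=
    lt_of_le_of_lt (val_pow_sub_pow_le A hvu.le hvζ.le j) hζ
  have hvζj : A.valuation (ζ ^ j) = 1 := by rw [map_pow, hvζ, one_pow]
  have hρζ : A.valuation (ρ - ζ ^ j) < τ := by
    rw [hρeq]
    exact val_mul_mul_sub_lt A hvζj.le huj hκv hfe hτ1.le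
  -- conclude with (R2)
  have hζj0 : ζ ^ j ≠ 0 := pow_ne_zero _ hζ0
  have hδ : ρ / ζ ^ j - 1 = 0 := by
    apply Fermat.Agent.S40x.Ell.RootsNear.eq_zero_of_one_add_pow_eq_one A hp
    · have : 1 + (ρ / ζ ^ j - 1) = ρ / ζ ^ j := by ring
      rw [this, div_pow, hρp, ← pow_mul, mul_comm, pow_mul, hζp, one_pow, div_one]
    · have : ρ / ζ ^ j - 1 = (ρ - ζ ^ j) / ζ ^ j := by field_simp
      rw [this, map_div₀, hvζj, div_one]
      show _ < π
      rw [← hτ]
      exact pow_lt_pow_left₀ hρζ zero_le (by omega)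
  have hρζ' : ρ = ζ ^ j := by
    have := sub_eq_zero.1 hδ
    rwa [div_eq_one_iff_eq hζj0] at this
  rw [← hρζ', hρ, div_mul_cancel₀ _ hb0]

end model

/-! ### The Frey curve over `ℚ̄` -/

section frey

open Fermat.Agent.S13 Fermat.Agent.S13.LocalP Fermat.Agent.S40x.Ell.FreyMult

variable {P : FreyPackage} {B : ValuationSubring Qbar}

/-- `u` of a point of the kernel of reduction fixed by inertia is a unit of the inertia field. -/
theorem uc_mem_unitFixed (M : MultModel P B) {Y : (M.W₂⁄Qbar).Point} (hY : NearZero B Y)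
    (hfix : ∀ σ ∈ B.inertiaSubgroupIn ℚ, Point.map (W' := M.W₂) σ.toAlgHom Y = Y) :
    uc M.γ Y ∈ Fermat.Agent.S40x.Kummer.unitFixed B := by
  refine ⟨?_, fun t ht => ?_⟩
  · apply val_eq_one_of_sub_one_lt B
    rw [val_uc_sub_one B M.D hY]
    exact KernelOfReduction.val_zc_lt_one B M.D.model M.ha M.hb hY
  · have hγ : t.toAlgHom M.γ = M.γ :=
      map_gamma B t.toAlgHom (fun x hx => inertia_sub_lt_one ht hx) M.D
    have h1 := uc_map (W' := M.W₂) t.toAlgHom hγ Y
    rw [hfix t ht] at h1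
    exact h1.symm

/-- **Claim (d') of the block B interface**: for `0 ≠ s ∈ T1` there is a primitive `p`-th root
of unity `ζ` such that every `x ∈ E[p]` has a Kummer element `b` (`b ^ p` a unit of the inertia
field) with `τ b = ζ ^ j * b` whenever `τ` is in the inertia group of `B` and `τ x - x = j s`. -/
theorem exists_kummer_of_mem_T1 (M : MultModel P B) (hB : B.LiesOverPrime P.p) {s : Tors P}
    (hs : s ∈ M.T1) (hs0 : s ≠ 0) :
    ∃ ζ : Qbar, IsPrimitiveRoot ζ P.p ∧ ∀ x : Tors P, ∃ b : Qbar,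
      b ^ P.p ∈ Fermat.Agent.S40x.Kummer.unitFixed B ∧
        ∀ τ ∈ B.inertiaSubgroupIn ℚ, ∀ j : ℕ, τ • x - x = j • s → τ b = ζ ^ j * b := by
  have hpne : NeZero ((P.p : ℕ) : Qbar) := ⟨by exact_mod_cast P.hp0⟩
  have : Algebra.IsAlgebraic ℚ Qbar := AlgebraicClosure.isAlgebraic ℚ
  obtain ⟨ζ₀, hζ₀⟩ := HasEnoughRootsOfUnity.exists_primitiveRoot Qbar P.p
  have hS : NearZero B (M.transfer s.1) := (M.mem_T1 s).1 hs
  have hS0 : M.transfer s.1 ≠ 0 := by
    intro h0
    apply hs0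
    apply Subtype.ext
    apply M.transfer_injective
    rw [h0, Submodule.coe_zero, map_zero]
  obtain ⟨ζ, hζ, H⟩ := exists_kummer_elt B M.D P.pp (p_ne_two P) M.hπ hζ₀ hS hS0
    (M.transfer_torsion s)
  refine ⟨ζ, hζ, fun x => ?_⟩
  obtain ⟨Q₀, hQ₀, hZ'⟩ := HenselPoint.exists_fixed_point M hB (M.transfer x.1)
    (M.transfer_torsion x)
  obtain ⟨b, hbp, Hb⟩ := H _ hZ'
  refine ⟨b, ?_, fun τ hτ j hj => ?_⟩
  · rw [hbp]
    apply uc_mem_unitFixed M
    · exact (KernelOfReduction.nsmul_estimate B M.D.model M.ha M.hb hZ' P.p).1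
    · intro σ hσ
      rw [map_nsmul, map_sub, hQ₀ σ hσ, smul_sub, smul_sub, ← map_nsmul, M.transfer_torsion x,
        map_zero]
  · have h1 : Point.map (W' := M.W₂) τ.toAlgHom (M.transfer x.1) - M.transfer x.1
        = j • M.transfer s.1 := by
      have := congrArg (fun y : Tors P => M.transfer y.1) hj
      simp only [Submodule.coe_sub, map_sub, M.transfer_smul] at this
      rw [this, ← map_nsmul]
      rfl
    have h2 : Point.map (W' := M.W₂) τ.toAlgHom (M.transfer x.1 - Q₀)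
        = (M.transfer x.1 - Q₀) + j • M.transfer s.1 := by
      rw [map_sub, hQ₀ τ hτ, ← h1]; abel
    exact Hb τ.toAlgHom (fun t ht => inertia_sub_lt_one hτ ht)
      (fun t => Fermat.Agent.S13.InertiaVal.inertia_valuation_eq hτ t) j h2

end frey

end Fermat.Agent.S40x.Ell.KummerU
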