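/-
P-S44/S40, block B (elliptic side of S44), leaf B7 (helper45): THE EXPORT of block B.

`freyLocalShape`: for the Frey curve of a `FreyPackage` with `p ∣ abc` and a valuation subring
`B` of `ℚ̄` over `p` there is a line-or-less `T1 ⊆ E[p]` (the `p`-torsion in the kernel of
reduction of the multiplicative two-torsion model) such that
(a)  `#T1 ≤ p`, in particular `T1 ≠ ⊤`;
(b)  the inertia group `I` of `B` moves `E[p]` by elements of `T1`;
(c)  `I` acts on `T1` through the mod `p` cyclotomic character;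
(d') explicit Kummer elements: for `0 ≠ s ∈ T1` and every primitive `p`-th root of unity `ζ`,
     every `x ∈ E[p]` has `b` with `b ^ p` a unit of the inertia field and `τ b = ζ ^ j b` whenever
     `τ ∈ I`, `τ x - x = j s`;
(d)  peu ramifié, `I₀`-form: `τ ∈ I` fixing every `p`-th root of every unit of the inertia
     field fixes `E[p]`.
-/
import Fermat.Agent.S40x.Ell.KummerU

set_option autoImplicit false
set_option linter.unusedSectionVars false

noncomputable section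

namespace Fermat.Agent.S40x.Ell.Iface

open WeierstrassCurve WeierstrassCurve.Affine Fermat.Agent.S05 Fermat.Agent.S13
  Fermat.Agent.S13.LocalP Fermat.Agent.S40x.Ell.FreyMult Fermat.Agent.S40x.Kummer

variable {P : FreyPackage} {B : ValuationSubring Qbar}

/-- change of the primitive root: if `τ b = ζS ^ j * b` then `τ (b ^ k) = ζ ^ j * b ^ k` for
`ζ = ζS ^ k`. -/
theorem map_pow_eq_of_map_eq {ζS b : Qbar} (k j : ℕ) (τ : GQ) (h : τ b = ζS ^ j * b) :
    τ (b ^ k) = (ζS ^ k) ^ j * b ^ k := by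
  rw [map_pow, h, mul_pow, ← pow_mul, ← pow_mul, mul_comm j k]

/-- **(d')** with an arbitrary primitive root. -/
theorem exists_kummer (M : MultModel P B) (hB : B.LiesOverPrime P.p) {s : Tors P}
    (hs : s ∈ M.T1) (hs0 : s ≠ 0) {ζ : Qbar} (hζ : IsPrimitiveRoot ζ P.p) (x : Tors P) :
    ∃ b : Qbar, b ^ P.p ∈ unitFixed B ∧
      ∀ τ ∈ B.inertiaSubgroupIn ℚ, ∀ j : ℕ, τ • x - x = j • s → τ b = ζ ^ j * b := by
  obtain ⟨ζS, hζS, H⟩ := KummerU.exists_kummer_of_mem_T1 M hB hs hs0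
  obtain ⟨b, hb, Hb⟩ := H x
  have : NeZero P.p := ⟨P.hp0⟩
  obtain ⟨k, -, hk⟩ := hζS.eq_pow_of_pow_eq_one hζ.pow_eq_one
  refine ⟨b ^ k, ?_, fun τ hτ j hj => ?_⟩
  · rw [← pow_mul, mul_comm, pow_mul]
    exact (unitFixed B).pow_mem hb k
  · rw [← hk]
    exact map_pow_eq_of_map_eq k j τ (Hb τ hτ j hj)

/-- **(d)**, `I₀`-form. -/
theorem peu_ramifie (M : MultModel P B) (hB : B.LiesOverPrime P.p) {τ : GQ}
    (hτ : τ ∈ B.inertiaSubgroupIn ℚ)
    (hfix : ∀ b : Qbar, b ^ P.p ∈ unitFixed B → τ b = b) (x : Tors P) : τ • x = x := by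
  by_contra hne
  have hs0 : τ • x - x ≠ 0 := sub_ne_zero.2 hne
  have hs : τ • x - x ∈ M.T1 := M.inertia_sub_mem_T1 hτ x
  obtain ⟨ζ, hζ, H⟩ := KummerU.exists_kummer_of_mem_T1 M hB hs hs0
  obtain ⟨b, hb, Hb⟩ := H x
  have h1 := Hb τ hτ 1 (by rw [one_smul])
  rw [hfix b hb, pow_one] at h1
  have hb0 : b ≠ 0 := by
    intro h0
    have hv := hb.1
    rw [h0, zero_pow P.hp0, map_zero] at hv
    exact zero_ne_one hv
  have hζ1 : ζ = 1 := by
    have : (ζ - 1) * b = 0 := by linear_combination -h1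
    rcases mul_eq_zero.1 this with h | h
    · exact sub_eq_zero.1 h
    · exact absurd h hb0
  exact hζ.ne_one P.pp.one_lt hζ1

/-- **The export of block B.** -/
theorem freyLocalShape (P : FreyPackage) (hmult : (P.p : ℤ) ∣ P.a * P.b * P.c)
    (B : ValuationSubring Qbar) (hB : B.LiesOverPrime P.p) :
    ∃ T1 : Submodule (ZMod P.p) (Tors P),
      Nat.card T1 ≤ P.p ∧ T1 ≠ ⊤ ∧
      (∀ σ ∈ B.inertiaSubgroupIn ℚ, ∀ x : Tors P, σ • x - x ∈ T1) ∧
      (∀ σ ∈ B.inertiaSubgroupIn ℚ, ∀ a : ℕ, (∀ ζ : Qbar, ζ ^ P.p = 1 → σ ζ = ζ ^ a) →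
        ∀ s ∈ T1, σ • s = a • s) ∧
      (∀ s ∈ T1, s ≠ 0 → ∀ ζ : Qbar, IsPrimitiveRoot ζ P.p → ∀ x : Tors P,
        ∃ b : Qbar, b ^ P.p ∈ unitFixed B ∧
          ∀ τ ∈ B.inertiaSubgroupIn ℚ, ∀ j : ℕ, τ • x - x = j • s → τ b = ζ ^ j * b) ∧
      (∀ τ ∈ B.inertiaSubgroupIn ℚ, (∀ b : Qbar, b ^ P.p ∈ unitFixed B → τ b = b) →
        ∀ x : Tors P, τ • x = x) := by
  obtain ⟨M⟩ := exists_multModel P hmult B hB
  refine ⟨M.T1, M.card_T1_le, M.T1_ne_top, fun σ hσ x => M.inertia_sub_mem_T1 hσ x,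
    fun σ hσ a ha s hs => CycloLine.smul_eq_nsmul_of_mem_T1 M hσ ha hs,
    fun s hs hs0 ζ hζ x => exists_kummer M hB hs hs0 hζ x,
    fun τ hτ hfix x => peu_ramifie M hB hτ hfix x⟩

end Fermat.Agent.S40x.Ell.Iface
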