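/-
P-S40 study (research mode), R4, leaf B-ord (helper14): the ring of functions on a cyclic group of
order `p` with INTEGRAL Fourier coefficients.

`R` a commutative ring, `ζ ∈ R` with `ζ ^ p = 1`.  `fourier ζ : Subalgebra R (Fin p → R)` is the
subalgebra generated by the character `χ j = ζ ^ j`; its elements are exactly the functions
`g j = ∑ i, a i * ζ ^ (i * j)` with coefficients `a i ∈ R` (`mem_fourier_iff`).  A function in a
subalgebra of a finite product all of whose values are units has its pointwise inverse in the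
subalgebra (`exists_inv_mem`: the inverse is a polynomial in the function).
-/
import Mathlib

set_option autoImplicit false

namespace Fermat.Agent.S40x.Ell.BOrdFourier

open Polynomial

variable {R : Type*} [CommRing R]

/-- In a subalgebra of a finite product, a function with unit values has its pointwise inverse in
the subalgebra. -/
theorem exists_inv_mem {ι : Type*} [Fintype ι] (S : Subalgebra R (ι → R)) {g : ι → R}
    (hg : g ∈ S) (hu : ∀ j, IsUnit (g j)) : ∃ h ∈ S, ∀ j, g j * h j = 1 := by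
  classical
  set P : R[X] := ∏ j : ι, (X - C (g j)) with hP
  have hc0 : IsUnit (P.coeff 0) := by
    rw [hP, coeff_zero_eq_eval_zero, eval_prod]
    refine IsUnit.prod_univ_iff.mpr fun j => ?_
    rw [eval_sub, eval_X, eval_C, zero_sub]
    exact (hu j).neg
  obtain ⟨u, hu0⟩ := hc0
  have hroot : ∀ j, P.eval (g j) = 0 := by
    intro j
    rw [hP, eval_prod]
    exact Finset.prod_eq_zero (Finset.mem_univ j) (by simp)
  have hkey : ∀ j, g j * (P.divX).eval (g j) = -(u : R) := by
    intro j
    have h1 := congrArg (Polynomial.eval (g j)) (X_mul_divX_add P)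
    rw [eval_add, eval_mul, eval_X, eval_C, hroot j, ← hu0] at h1
    linear_combination h1
  have hmem : aeval g P.divX ∈ S := by
    rw [← Polynomial.aeval_subalgebra_coe P.divX S ⟨g, hg⟩]
    exact Subtype.coe_prop _
  refine ⟨-((↑u⁻¹ : R)) • aeval g P.divX, S.smul_mem hmem _, fun j => ?_⟩
  have hj : (aeval g P.divX) j = (P.divX).eval (g j) := by
    have := Polynomial.aeval_algHom_apply (Pi.evalAlgHom R (fun _ : ι => R) j) g P.divX
    rw [Pi.evalAlgHom_apply, Pi.evalAlgHom_apply] at this
    rw [← this, Polynomial.aeval_def, Polynomial.eval₂_eq_eval_map]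
    simp
  rw [Pi.smul_apply, hj, smul_eq_mul, mul_left_comm, hkey j]
  simp

/-- The character `j ↦ ζ ^ j` on `Fin p`. -/
def chi (p : ℕ) (ζ : R) : Fin p → R := fun j => ζ ^ (j : ℕ)

/-- The subalgebra of functions with integral Fourier coefficients: generated by the character. -/
def fourier (p : ℕ) (ζ : R) : Subalgebra R (Fin p → R) := Algebra.adjoin R {chi p ζ}

theorem chi_mem_fourier (p : ℕ) (ζ : R) : chi p ζ ∈ fourier p ζ :=
  Algebra.subset_adjoin (Set.mem_singleton _)

theorem aeval_chi_apply (p : ℕ) (ζ : R) (Q : R[X]) (j : Fin p) :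
    (aeval (chi p ζ) Q) j = Q.eval (ζ ^ (j : ℕ)) := by
  have := Polynomial.aeval_algHom_apply (Pi.evalAlgHom R (fun _ : Fin p => R) j) (chi p ζ) Q
  rw [Pi.evalAlgHom_apply, Pi.evalAlgHom_apply] at this
  rw [← this, Polynomial.aeval_def, Polynomial.eval₂_eq_eval_map]
  simp [chi]

/-- Functions with an expansion `∑ i, a i * ζ ^ (i * j)` are in `fourier`. -/
theorem mem_fourier_of_coeff {p : ℕ} {ζ : R} {g : Fin p → R} (a : Fin p → R)
    (h : ∀ j : Fin p, g j = ∑ i : Fin p, a i * ζ ^ ((i : ℕ) * (j : ℕ))) : g ∈ fourier p ζ := by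
  have : g = ∑ i : Fin p, a i • (chi p ζ) ^ (i : ℕ) := by
    funext j
    rw [h j, Finset.sum_apply]
    refine Finset.sum_congr rfl fun i _ => ?_
    rw [Pi.smul_apply, Pi.pow_apply, smul_eq_mul, chi, ← pow_mul, mul_comm (j : ℕ)]
  rw [this]
  exact Subalgebra.sum_mem _ fun i _ =>
    Subalgebra.smul_mem _ (Subalgebra.pow_mem _ (chi_mem_fourier p ζ) _) _

/-- **Coefficients**: every element of `fourier` has an expansion with `p` coefficients in `R`. -/
theorem exists_coeff_of_mem_fourier [Nontrivial R] {p : ℕ} (hp : 0 < p) {ζ : R} (hζ : ζ ^ p = 1)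
    {g : Fin p → R} (hg : g ∈ fourier p ζ) :
    ∃ a : Fin p → R, ∀ j : Fin p, g j = ∑ i : Fin p, a i * ζ ^ ((i : ℕ) * (j : ℕ)) := by
  rw [fourier, Algebra.adjoin_singleton_eq_range_aeval] at hg
  obtain ⟨Q, rfl⟩ := hg
  have hmonic : (X ^ p - C (1 : R) : R[X]).Monic := monic_X_pow_sub_C 1 hp.ne'
  set r := Q %ₘ (X ^ p - C (1 : R)) with hr
  have hdeg : r.natDegree < p := by
    have h1 := natDegree_modByMonic_lt Q hmonic (by
      intro h
      have := congrArg natDegree h
      rw [natDegree_X_pow_sub_C, natDegree_one] at this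
      omega)
    rwa [natDegree_X_pow_sub_C] at h1
  refine ⟨fun i => r.coeff i, fun j => ?_⟩
  have h1 : (aeval (chi p ζ) Q : Fin p → R) j = Q.eval (ζ ^ (j : ℕ)) := aeval_chi_apply p ζ Q j
  rw [AlgHom.toRingHom_eq_coe, RingHom.coe_coe]
  rw [h1]
  have h2 : Q.eval (ζ ^ (j : ℕ)) = r.eval (ζ ^ (j : ℕ)) := by
    conv_lhs => rw [← modByMonic_add_div Q (X ^ p - C (1 : R))]
    have h3 : (ζ ^ (j : ℕ)) ^ p = 1 := by rw [← pow_mul, mul_comm, pow_mul, hζ, one_pow]
    rw [eval_add, eval_mul, eval_sub, eval_pow, eval_X, eval_C, h3, sub_self, zero_mul, add_zero]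
  rw [h2, eval_eq_sum_range' hdeg, Finset.sum_range]
  refine Finset.sum_congr rfl fun i _ => ?_
  rw [← pow_mul, mul_comm (j : ℕ)]

end Fermat.Agent.S40x.Ell.BOrdFourier
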