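/-
P-S40 study (research mode), R4, leaf B-ord (helper14): the MIXED addition law.

For two affine points `(x₁, y₁)`, `(x₂, y₂)` of a Weierstrass curve with `x₁ ≠ x₂`, `x₂ ≠ 0`, the
`x`-coordinate of the sum, written in the variables `κ = 1 / x₂`, `ω = - y₂ / x₂ ^ 2` of the second
point (which lie in the maximal ideal when the second point is in the kernel of reduction), is

  `x₃ = (x₁ + ψ₁ ω + φ₁ κ + θ₁ κ ^ 2) / (1 - x₁ κ) ^ 2`,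

`ψ₁ = 2 y₁ + a₁ x₁ + a₃`, `φ₁ = x₁ ^ 2 + 2 a₂ x₁ + a₄ - a₁ y₁`, `θ₁ = a₄ x₁ + 2 a₆ - a₃ y₁`:
a polynomial in `(x₁, y₁, κ, ω)` over a denominator which is a unit when `x₁` is integral and
`κ` is in the maximal ideal.
-/
import Mathlib

set_option autoImplicit false

namespace Fermat.Agent.S40x.Ell.BOrdMixedLaw

variable {K : Type*} [Field K]

/-- The mixed addition law in affine coordinates. -/
theorem addX_mixed {a₁ a₂ a₃ a₄ a₆ x₁ y₁ x₂ y₂ : K}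
    (h₁ : y₁ ^ 2 + a₁ * x₁ * y₁ + a₃ * y₁ = x₁ ^ 3 + a₂ * x₁ ^ 2 + a₄ * x₁ + a₆)
    (h₂ : y₂ ^ 2 + a₁ * x₂ * y₂ + a₃ * y₂ = x₂ ^ 3 + a₂ * x₂ ^ 2 + a₄ * x₂ + a₆)
    (hx : x₁ ≠ x₂) (hx₂ : x₂ ≠ 0) :
    ((y₁ - y₂) / (x₁ - x₂)) ^ 2 + a₁ * ((y₁ - y₂) / (x₁ - x₂)) - a₂ - x₁ - x₂ =
      (x₁ + (2 * y₁ + a₁ * x₁ + a₃) * (-y₂ / x₂ ^ 2)
        + (x₁ ^ 2 + 2 * a₂ * x₁ + a₄ - a₁ * y₁) * (1 / x₂)
        + (a₄ * x₁ + 2 * a₆ - a₃ * y₁) * (1 / x₂) ^ 2) / (1 - x₁ * (1 / x₂)) ^ 2 := by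
  have hd : x₁ - x₂ ≠ 0 := sub_ne_zero.mpr hx
  have hE : 1 - x₁ * (1 / x₂) ≠ 0 := by
    have : 1 - x₁ * (1 / x₂) = (x₂ - x₁) / x₂ := by field_simp
    rw [this]
    exact div_ne_zero (sub_ne_zero.mpr (Ne.symm hx)) hx₂
  rw [eq_div_iff (pow_ne_zero 2 hE)]
  field_simp
  linear_combination (x₁ - x₂) ^ 2 * h₁ + (x₁ - x₂) ^ 2 * h₂
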