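import Mathlib

/-!
P-S40 study (research mode), R4, leaf B-ord (helper14): the "trace lemma".

`K` is a field with a valuation `v`, `p` a prime, `ζ ∈ K` a primitive `p`-th root of unity and
`S` a set of ring endomorphisms of `K` (in the application: the inertia group at a place over `p`
of `Qbar`).  The only arithmetic input is

  `hfix : ∀ y, v y < 1 → (∀ σ ∈ S, σ y = y) → v y ≤ v p`

(an `S`-invariant element of the maximal ideal is divisible by `p`: `p` is a uniformiser of the
ring of integers of the inertia field).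

For a function `g : ZMod p → K` which is `S`-equivariant (`σ (g j) = g (e j)` when
`σ ζ = ζ ^ e`), with `g j - g 0` in the maximal ideal, we show that the Fourier coefficients of `g`
are integral and `S`-invariant (`exists_coeff`), and we rewrite the expansion in the basis
`(ζ ^ j - 1) ^ k` (`exists_taylor_coeff`).
-/

set_option autoImplicit false

namespace Fermat.Agent.S40x.Ell.BOrdTrace

open Finset

variable {K : Type*} [Field K] {p : ℕ} [Fact p.Prime] {ζ : K}

/-- The additive character `j ↦ ζ ^ j` of `ZMod p`. -/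
noncomputable abbrev chr (hζ : IsPrimitiveRoot ζ p) : AddChar (ZMod p) K :=
  AddChar.zmodChar p hζ.pow_eq_one

/-- `p` times the `i`-th Fourier coefficient of `g`. -/
noncomputable def coeffSum (hζ : IsPrimitiveRoot ζ p) (g : ZMod p → K) (i : ZMod p) : K :=
  ∑ j, g j * chr hζ (-(i * j))

theorem sum_chr_mul (hζ : IsPrimitiveRoot ζ p) (b : ZMod p) :
    ∑ i, chr hζ (i * b) = if b = 0 then (p : K) else 0 := by
  classical
  have h := AddChar.sum_mulShift (R' := K) b (AddChar.zmodChar_primitive_of_primitive_root p hζ)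
  rw [ZMod.card] at h
  rw [h]
  split_ifs <;> simp

/-- Fourier inversion on `ZMod p`. -/
theorem fourier_inversion (hζ : IsPrimitiveRoot ζ p) (g : ZMod p → K) (j : ZMod p) :
    ∑ i, coeffSum hζ g i * chr hζ (i * j) = (p : K) * g j := by
  classical
  simp only [coeffSum, Finset.sum_mul]
  rw [Finset.sum_comm]
  have h1 : ∀ j' : ZMod p, ∑ i, g j' * chr hζ (-(i * j')) * chr hζ (i * j) =
      g j' * (if j - j' = 0 then (p : K) else 0) := by
    intro j'
    rw [← sum_chr_mul hζ (j - j'), Finset.mul_sum]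
    refine Finset.sum_congr rfl fun i _ => ?_
    rw [mul_assoc, ← AddChar.map_add_eq_mul]
    congr 2
    ring
  simp_rw [h1, sub_eq_zero]
  rw [Finset.sum_eq_single j]
  · simp [mul_comm]
  · intro b _ hb
    rw [if_neg (Ne.symm hb), mul_zero]
  · intro h
    exact absurd (Finset.mem_univ j) h

theorem chr_mul_eq_pow (hζ : IsPrimitiveRoot ζ p) (i j : ZMod p) :
    chr hζ (i * j) = chr hζ j ^ i.val := by
  rw [← AddChar.map_nsmul_eq_pow, nsmul_eq_mul, ZMod.natCast_zmod_val]

theorem map_chr (hζ : IsPrimitiveRoot ζ p) (σ : K →+* K) (e : ZMod p) (hσ : σ ζ = ζ ^ e.val)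
    (k : ZMod p) : σ (chr hζ k) = chr hζ (e * k) := by
  rw [chr_mul_eq_pow, AddChar.zmodChar_apply, map_pow, hσ, ← pow_mul,
    ← pow_mul, mul_comm]

theorem map_coeffSum (hζ : IsPrimitiveRoot ζ p) (σ : K →+* K) (e : (ZMod p)ˣ)
    (hσ : σ ζ = ζ ^ (e : ZMod p).val) (g : ZMod p → K) (hg : ∀ j, σ (g j) = g (e * j))
    (i : ZMod p) : σ (coeffSum hζ g i) = coeffSum hζ g i := by
  unfold coeffSum
  rw [map_sum]
  have h1 : ∀ j : ZMod p, σ (g j * chr hζ (-(i * j))) =
      g ((e : ZMod p) * j) * chr hζ (-(i * ((e : ZMod p) * j))) := by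
    intro j
    rw [map_mul, hg, map_chr hζ σ e hσ]
    congr 2
    ring
  simp_rw [h1]
  exact Fintype.sum_equiv (Units.mulLeft e) _ _ (fun j => rfl)

/-- Uniqueness of Fourier coefficients. -/
theorem coeffSum_of_expansion (hζ : IsPrimitiveRoot ζ p) (G M : ZMod p → K)
    (h : ∀ j, G j = ∑ i, M i * chr hζ (i * j)) (i₀ : ZMod p) :
    coeffSum hζ G i₀ = (p : K) * M i₀ := by
  classical
  unfold coeffSum
  simp_rw [h, Finset.sum_mul]
  rw [Finset.sum_comm]
  have h1 : ∀ i : ZMod p, ∑ j, M i * chr hζ (i * j) * chr hζ (-(i₀ * j)) =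
      M i * (if i - i₀ = 0 then (p : K) else 0) := by
    intro i
    rw [← sum_chr_mul hζ (i - i₀), Finset.mul_sum]
    refine Finset.sum_congr rfl fun j _ => ?_
    rw [mul_assoc, ← AddChar.map_add_eq_mul]
    congr 2
    ring
  simp_rw [h1, sub_eq_zero]
  rw [Finset.sum_eq_single i₀]
  · simp [mul_comm]
  · intro b _ hb
    rw [if_neg hb, mul_zero]
  · intro h
    exact absurd (Finset.mem_univ i₀) h

/-- Equivariance up to a shift gives an eigenvector. -/
theorem map_coeffSum_shift (hζ : IsPrimitiveRoot ζ p) (σ : K →+* K) (e : (ZMod p)ˣ)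
    (hσ : σ ζ = ζ ^ (e : ZMod p).val) (c : ZMod p) (G : ZMod p → K)
    (hG : ∀ j, σ (G j) = G (c + e * j)) (i : ZMod p) :
    σ (coeffSum hζ G i) = chr hζ (i * c) * coeffSum hζ G i := by
  unfold coeffSum
  rw [map_sum, Finset.mul_sum]
  have h1 : ∀ j : ZMod p, σ (G j * chr hζ (-(i * j))) =
      chr hζ (i * c) * (G (c + (e : ZMod p) * j) * chr hζ (-(i * (c + (e : ZMod p) * j)))) := by
    intro j
    rw [map_mul, hG, map_chr hζ σ e hσ, mul_left_comm, ← AddChar.map_add_eq_mul]
    congr 2
    ring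
  simp_rw [h1]
  exact Fintype.sum_equiv ((Units.mulLeft e).trans (Equiv.addLeft c)) _ _ (fun j => rfl)

section Valuation

variable {Γ₀ : Type*} [LinearOrderedCommGroupWithZero Γ₀] (v : Valuation K Γ₀)

theorem val_eq_one_of_pow_eq_one {x : K} {n : ℕ} (hn : n ≠ 0) (hx : x ^ n = 1) : v x = 1 := by
  have h : v x ^ n = 1 := by rw [← map_pow, hx, map_one]
  rcases lt_trichotomy (v x) 1 with h1 | h1 | h1
  · exact absurd h (ne_of_lt (pow_lt_one₀ zero_le h1 hn))
  · exact h1
  · exact absurd h (ne_of_gt (one_lt_pow₀ h1 hn))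

theorem val_natCast_le_one (n : ℕ) : v (n : K) ≤ 1 := by
  induction n with
  | zero => simp
  | succ n ih =>
    rw [Nat.cast_succ]
    exact v.map_add_le ih (by rw [map_one])

theorem val_chr (hζ : IsPrimitiveRoot ζ p) (k : ZMod p) : v (chr hζ k) = 1 := by
  have hp : p ≠ 0 := (Fact.out : p.Prime).ne_zero
  apply val_eq_one_of_pow_eq_one v hp
  rw [AddChar.zmodChar_apply, ← pow_mul, mul_comm, pow_mul, hζ.pow_eq_one, one_pow]

theorem val_sum_le {ι : Type*} (s : Finset ι) (f : ι → K) {c : Γ₀} (h : ∀ i ∈ s, v (f i) ≤ c) :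
    v (∑ i ∈ s, f i) ≤ c := by
  classical
  induction s using Finset.induction_on with
  | empty => simp
  | insert a s ha ih =>
    rw [Finset.sum_insert ha]
    exact v.map_add_le (h a (Finset.mem_insert_self a s))
      (ih fun i hi => h i (Finset.mem_insert_of_mem hi))

theorem val_sum_lt {ι : Type*} (s : Finset ι) (f : ι → K) {c : Γ₀} (hc : 0 < c)
    (h : ∀ i ∈ s, v (f i) < c) : v (∑ i ∈ s, f i) < c := by
  classical
  induction s using Finset.induction_on with
  | empty => simpa using hc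
  | insert a s ha ih =>
    rw [Finset.sum_insert ha]
    exact v.map_add_lt (h a (Finset.mem_insert_self a s))
      (ih fun i hi => h i (Finset.mem_insert_of_mem hi))

/-- **Trace lemma.**  Integral, invariant Fourier coefficients. -/
theorem exists_coeff (hζ : IsPrimitiveRoot ζ p) (hp0 : (p : K) ≠ 0) (S : Set (K →+* K))
    (hfix : ∀ y : K, v y < 1 → (∀ σ ∈ S, σ y = y) → v y ≤ v (p : K))
    (g : ZMod p → K) (hg0 : v (g 0) ≤ 1) (hg : ∀ j, v (g j - g 0) < 1)
    (hS : ∀ σ ∈ S, ∃ e : (ZMod p)ˣ, σ ζ = ζ ^ (e : ZMod p).val ∧ ∀ j, σ (g j) = g (e * j)) :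
    ∃ a : ZMod p → K, (∀ i, v (a i) ≤ 1) ∧ (∀ i, ∀ σ ∈ S, σ (a i) = a i) ∧
      ∀ j, g j = ∑ i, a i * chr hζ (i * j) := by
  classical
  refine ⟨fun i => coeffSum hζ g i / (p : K), ?_, ?_, ?_⟩
  · intro i
    -- split off the constant `g 0`
    have hsplit : coeffSum hζ g i = coeffSum hζ (fun j => g j - g 0) i +
        g 0 * (if i = 0 then (p : K) else 0) := by
      have h2 : ∑ j, chr hζ (-(i * j)) = if i = 0 then (p : K) else 0 := by
        have h3 := sum_chr_mul hζ (-i)
        simp only [neg_eq_zero] at h3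
        rw [← h3]
        refine Finset.sum_congr rfl fun j _ => ?_
        congr 1
        ring
      rw [← h2, Finset.mul_sum]
      unfold coeffSum
      rw [← Finset.sum_add_distrib]
      refine Finset.sum_congr rfl fun j _ => ?_
      ring
    have hfixed : ∀ σ ∈ S, σ (coeffSum hζ (fun j => g j - g 0) i) =
        coeffSum hζ (fun j => g j - g 0) i := by
      intro σ hσ
      obtain ⟨e, he, hge⟩ := hS σ hσ
      refine map_coeffSum hζ σ e he _ ?_ i
      intro j
      have h0 : σ (g 0) = g 0 := by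
        have := hge 0
        rwa [mul_zero] at this
      rw [map_sub, hge, h0]
    have hlt : v (coeffSum hζ (fun j => g j - g 0) i) < 1 := by
      unfold coeffSum
      refine val_sum_lt v _ _ zero_lt_one fun j _ => ?_
      rw [map_mul, val_chr v hζ, mul_one]
      exact hg j
    have hle := hfix _ hlt hfixed
    have hle2 : v (g 0 * (if i = 0 then (p : K) else 0)) ≤ v (p : K) := by
      split_ifs
      · rw [map_mul]
        exact mul_le_of_le_one_left' hg0
      · rw [mul_zero, map_zero]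
        exact zero_le
    have hle3 : v (coeffSum hζ g i) ≤ v (p : K) := by
      rw [hsplit]
      exact v.map_add_le hle hle2
    have hvp : v (p : K) ≠ 0 := (Valuation.ne_zero_iff v).mpr hp0
    rw [map_div₀]
    exact (div_le_one₀ (zero_lt_iff.mpr hvp)).mpr hle3
  · intro i σ hσ
    obtain ⟨e, he, hge⟩ := hS σ hσ
    rw [map_div₀, map_coeffSum hζ σ e he g hge i, map_natCast]
  · intro j
    have h := fourier_inversion hζ g j
    have h2 : ∑ i, coeffSum hζ g i / (p : K) * chr hζ (i * j) =
        (∑ i, coeffSum hζ g i * chr hζ (i * j)) / (p : K) := by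
      rw [Finset.sum_div]
      refine Finset.sum_congr rfl fun i _ => ?_
      ring
    rw [h2, h, mul_div_cancel_left₀ _ hp0]

/-- The expansion in the basis `(ζ ^ j - 1) ^ k`, `k < p`. -/
theorem exists_taylor_coeff (hζ : IsPrimitiveRoot ζ p) (S : Set (K →+* K))
    (g : ZMod p → K) (a : ZMod p → K) (ha : ∀ i, v (a i) ≤ 1)
    (haS : ∀ i, ∀ σ ∈ S, σ (a i) = a i) (hga : ∀ j, g j = ∑ i, a i * chr hζ (i * j)) :
    ∃ b : ℕ → K, (∀ k, v (b k) ≤ 1) ∧ (∀ k, ∀ σ ∈ S, σ (b k) = b k) ∧ b 0 = g 0 ∧
      ∀ j, g j = ∑ k ∈ Finset.range p, b k * (chr hζ j - 1) ^ k := by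
  classical
  refine ⟨fun k => ∑ i : ZMod p, a i * ((i.val.choose k : ℕ) : K), ?_, ?_, ?_, ?_⟩
  · intro k
    refine val_sum_le v _ _ fun i _ => ?_
    rw [map_mul]
    exact mul_le_one' (ha i) (val_natCast_le_one v _)
  · intro k σ hσ
    rw [map_sum]
    refine Finset.sum_congr rfl fun i _ => ?_
    rw [map_mul, haS i σ hσ, map_natCast]
  · rw [hga 0]
    refine Finset.sum_congr rfl fun i _ => ?_
    rw [Nat.choose_zero_right, Nat.cast_one, mul_one, mul_zero, AddChar.map_zero_eq_one, mul_one]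
  · intro j
    rw [hga j]
    have hpow : ∀ i : ZMod p, chr hζ (i * j) =
        ∑ k ∈ Finset.range p, ((i.val.choose k : ℕ) : K) * (chr hζ j - 1) ^ k := by
      intro i
      rw [chr_mul_eq_pow]
      have hx : chr hζ j = (chr hζ j - 1) + 1 := by ring
      conv_lhs => rw [hx, add_pow]
      have hlt : i.val + 1 ≤ p := ZMod.val_lt i
      rw [← Finset.sum_subset (Finset.range_subset_range.mpr hlt)]
      · refine Finset.sum_congr rfl fun k _ => ?_
        rw [one_pow, mul_one, mul_comm]
      · intro k _ hk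
        rw [Finset.mem_range, not_lt] at hk
        rw [Nat.choose_eq_zero_of_lt (by omega), Nat.cast_zero, zero_mul]
    simp_rw [hpow, Finset.mul_sum, Finset.sum_mul]
    rw [Finset.sum_comm]
    refine Finset.sum_congr rfl fun k _ => Finset.sum_congr rfl fun i _ => ?_
    ring

end Valuation

end Fermat.Agent.S40x.Ell.BOrdTrace
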