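/-
P-S40 study (research mode), R4, leaf B-ord (helper14): the abstract "unit eigenfunction" lemma.

`A` a local domain, `ζ` a primitive `p`-th root of unity in `A`, `t : ZMod p → A` (the values of a
coordinate function on a coset `c₀ + L`, `L` cyclic of order `p`) such that

* all powers `t ^ a` (`a < p`) have Fourier expansions `t j ^ a = ∑ i, m a i * ζ ^ (i * j)` with
  coefficients `m a i` IN `A` (integrality of translation = the comodule property);
* every difference `t j - t j'` (`j ≠ j'`) divides `ζ - 1`.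

Then for every character `i` some Fourier coefficient `m a i` is a UNIT of `A`.  (Proof: the
Vandermonde determinant of `t` equals `det m` times the Vandermonde determinant of `ζ ^ i`, and the
latter is `(ζ - 1) ^ (p (p - 1) / 2)` up to a unit.)
-/
import Mathlib

set_option autoImplicit false

namespace Fermat.Agent.S40x.Ell.BOrdUnit

open Matrix Finset

variable {A : Type*} [CommRing A] [IsDomain A]

/-- differences of distinct powers of a primitive `p`-th root of unity are associated to `ζ - 1` -/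
theorem associated_pow_sub_pow {p : ℕ} (hp : p.Prime) {ζ : A} (hζ : IsPrimitiveRoot ζ p)
    {i j : ℕ} (hi : i < p) (hj : j < p) (hij : i < j) :
    Associated (ζ - 1) (ζ ^ j - ζ ^ i) := by
  have hd : (j - i).Coprime p := by
    apply Nat.Coprime.symm
    rw [hp.coprime_iff_not_dvd]
    intro h
    have := Nat.le_of_dvd (by omega) h
    omega
  have h1 : Associated (ζ - 1) (ζ ^ (j - i) - 1) :=
    hζ.associated_sub_one_pow_sub_one_of_coprime hd
  have hu : IsUnit (ζ ^ i) := (hζ.isUnit hp.ne_zero).pow i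
  have h2 : ζ ^ j - ζ ^ i = ζ ^ i * (ζ ^ (j - i) - 1) := by
    rw [mul_sub, mul_one, ← pow_add]
    congr 2
    omega
  rw [h2]
  exact h1.trans (associated_unit_mul_right _ _ hu)

/-- **Unit eigenfunction lemma.** -/
theorem exists_isUnit_coeff [IsLocalRing A] {p : ℕ} (hp : p.Prime) {ζ : A}
    (hζ : IsPrimitiveRoot ζ p) (t : Fin p → A) (m : Fin p → Fin p → A)
    (hm : ∀ a j : Fin p, t j ^ (a : ℕ) = ∑ i : Fin p, m a i * ζ ^ ((i : ℕ) * (j : ℕ)))
    (hdvd : ∀ j j' : Fin p, j ≠ j' → t j - t j' ∣ ζ - 1) (i : Fin p) :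
    ∃ a : Fin p, IsUnit (m a i) := by
  classical
  set T : Matrix (Fin p) (Fin p) A := vandermonde t with hT
  set Z : Matrix (Fin p) (Fin p) A := vandermonde (fun j : Fin p => ζ ^ (j : ℕ)) with hZ
  set M : Matrix (Fin p) (Fin p) A := Matrix.of m with hM
  have hTZ : T = Z * Mᵀ := by
    ext j a
    rw [hT, vandermonde_apply, hm a j, Matrix.mul_apply]
    refine Finset.sum_congr rfl fun i' _ => ?_
    rw [hZ, vandermonde_apply, hM, Matrix.transpose_apply, Matrix.of_apply, ← pow_mul, mul_comm,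
      mul_comm (j : ℕ)]
  have hdetT : T.det = ∏ i : Fin p, ∏ j ∈ Ioi i, (t j - t i) := det_vandermonde t
  have hdetZ : Z.det = ∏ i : Fin p, ∏ j ∈ Ioi i, (ζ ^ (j : ℕ) - ζ ^ (i : ℕ)) :=
    det_vandermonde _
  have hdvd' : T.det ∣ Z.det := by
    rw [hdetT, hdetZ]
    refine Finset.prod_dvd_prod_of_dvd _ _ fun i' _ => ?_
    refine Finset.prod_dvd_prod_of_dvd _ _ fun j hj => ?_
    have hij : i' < j := Finset.mem_Ioi.mp hj
    have h1 : t j - t i' ∣ ζ - 1 := hdvd j i' (ne_of_gt hij)
    exact h1.trans (associated_pow_sub_pow hp hζ i'.2 j.2 hij).dvd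
  have hZ0 : Z.det ≠ 0 := by
    rw [hdetZ]
    refine Finset.prod_ne_zero_iff.mpr fun i' _ => Finset.prod_ne_zero_iff.mpr fun j hj => ?_
    have hij : i' < j := Finset.mem_Ioi.mp hj
    intro h0
    have h2 := hζ.pow_inj j.2 i'.2 (sub_eq_zero.mp h0)
    exact absurd (Fin.ext h2) (ne_of_gt hij)
  have hMunit : IsUnit M.det := by
    rw [hTZ, det_mul, det_transpose] at hdvd'
    obtain ⟨c, hc⟩ := hdvd'
    have : Z.det * (M.det * c) = Z.det * 1 := by rw [mul_one, ← mul_assoc]; exact hc.symm
    exact IsUnit.of_mul_eq_one _ (mul_left_cancel₀ hZ0 this)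
  by_contra hcon
  push_neg at hcon
  have hmem : M.det ∈ IsLocalRing.maximalIdeal A := by
    rw [det_eq_sum_mul_adjugate_col M i]
    refine Ideal.sum_mem _ fun a _ => Ideal.mul_mem_right _ _ ?_
    rw [hM, Matrix.of_apply]
    exact (IsLocalRing.mem_maximalIdeal _).mpr (hcon a)
  exact (IsLocalRing.mem_maximalIdeal _).mp hmem hMunit

end Fermat.Agent.S40x.Ell.BOrdUnit
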