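import Mathlib
import Fermat.Agent.S40x.Ell.BOrdTrace

/-!
P-S40 study (research mode), R4, leaf B-ord (helper14): the valuation of the chart coordinate of a
generator of the kernel of reduction on `p`-torsion is the valuation of `ζ - 1`.

Abstract form.  `K` is a field with a valuation `v`, `ζ` a primitive `p`-th root of unity,
`v p < 1`.  A function `g : ℕ → K` (in the application `g j = z (j • S)`) has an expansion
`g j = ∑_{k < p} b k * (ζ ^ j - 1) ^ k` with `b 0 = 0` and each `b k` either a unit or divisible by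
`p` (this is what the trace lemma gives), satisfies `v p ≤ v (g 1)` and is additive up to second
order.  Then `v (g 1) = v (ζ - 1)`.
-/

set_option autoImplicit false

namespace Fermat.Agent.S40x.Ell.BOrdVal

open Finset Fermat.Agent.S40x.Ell.BOrdTrace

variable {K : Type*} [Field K] {Γ₀ : Type*} [LinearOrderedCommGroupWithZero Γ₀]
  (v : Valuation K Γ₀)

theorem val_geom_sum_le_one {x : K} (hx : v x ≤ 1) (n : ℕ) :
    v (∑ i ∈ Finset.range n, x ^ i) ≤ 1 := by
  refine val_sum_le v _ _ fun i _ => ?_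
  rw [map_pow]
  exact pow_le_one₀ zero_le hx

theorem val_geom_sum₂_le_one {x y : K} (hx : v x ≤ 1) (hy : v y ≤ 1) (n : ℕ) :
    v (∑ i ∈ Finset.range n, x ^ i * y ^ (n - 1 - i)) ≤ 1 := by
  refine val_sum_le v _ _ fun i _ => ?_
  rw [map_mul, map_pow, map_pow]
  exact mul_le_one' (pow_le_one₀ zero_le hx) (pow_le_one₀ zero_le hy)

theorem val_pow_sub_one_le {x : K} (hx : v x ≤ 1) (j : ℕ) : v (x ^ j - 1) ≤ v (x - 1) := by
  rw [← geom_sum_mul, map_mul]
  exact mul_le_of_le_one_left' (val_geom_sum_le_one v hx j)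

theorem val_pow_sub_pow_le {x y : K} (hx : v x ≤ 1) (hy : v y ≤ 1) (n : ℕ) :
    v (x ^ n - y ^ n) ≤ v (x - y) := by
  rw [← geom_sum₂_mul, map_mul]
  exact mul_le_of_le_one_left' (val_geom_sum₂_le_one v hx hy n)

variable {p : ℕ} [Fact p.Prime] {ζ : K}

theorem val_pow_sub_one_eq (hζ : IsPrimitiveRoot ζ p) {j : ℕ} (hj : ¬ p ∣ j) :
    v (ζ ^ j - 1) = v (ζ - 1) := by
  have hp : p.Prime := Fact.out
  have hζ1 : v ζ = 1 := val_eq_one_of_pow_eq_one v hp.ne_zero hζ.pow_eq_one
  refine le_antisymm (val_pow_sub_one_le v hζ1.le j) ?_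
  -- `ζ = (ζ ^ j) ^ j'`
  have hcop : Nat.Coprime j p := ((Nat.Prime.coprime_iff_not_dvd hp).mpr hj).symm
  obtain ⟨j', -, hj'⟩ := Nat.exists_mul_mod_eq_one_of_coprime hcop hp.one_lt
  have h1 : (ζ ^ j) ^ j' = ζ := by
    rw [← pow_mul, pow_eq_pow_mod _ hζ.pow_eq_one, hj', pow_one]
  have h2 := val_pow_sub_one_le v (x := ζ ^ j) (by rw [map_pow, hζ1, one_pow]) j'
  rwa [h1] at h2

theorem val_sub_one_pow (hζ : IsPrimitiveRoot ζ p) : v (ζ - 1) ^ (p - 1) = v (p : K) := by
  have hp : p.Prime := Fact.out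
  obtain ⟨n, hn⟩ : ∃ n, p = n + 1 := ⟨p - 1, by have := hp.pos; omega⟩
  have hζ' : IsPrimitiveRoot ζ (n + 1) := hn ▸ hζ
  have h := hζ'.prod_one_sub_pow_eq_order
  have h2 : (p : K) = ∏ k ∈ Finset.range n, (1 - ζ ^ (k + 1)) := by
    rw [h, hn]; push_cast; rfl
  rw [h2, map_prod]
  have h3 : ∀ k ∈ Finset.range n, v (1 - ζ ^ (k + 1)) = v (ζ - 1) := by
    intro k hk
    rw [← Valuation.map_neg, neg_sub]
    apply val_pow_sub_one_eq v hζ
    intro hdvd
    have := Nat.le_of_dvd (Nat.succ_pos k) hdvd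
    have := Finset.mem_range.mp hk
    omega
  rw [Finset.prod_congr rfl h3, Finset.prod_const, Finset.card_range]
  congr 1
  omega

theorem natCast_dvd_of_val_lt_one (hvp : v (p : K) < 1) (N : ℕ) (h : v (N : K) < 1) : p ∣ N := by
  have hp : p.Prime := Fact.out
  by_contra hnd
  have hcop : IsCoprime (N : ℤ) (p : ℤ) := by
    rw [Int.isCoprime_iff_gcd_eq_one, Int.gcd_natCast_natCast]
    exact ((Nat.Prime.coprime_iff_not_dvd hp).mpr hnd).symm
  obtain ⟨a, b, hab⟩ := hcop
  have h1 : (a : K) * (N : K) + (b : K) * (p : K) = 1 := by exact_mod_cast congrArg (Int.cast (R := K)) hab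
  have hint : ∀ c : ℤ, v (c : K) ≤ 1 := by
    intro c
    rcases Int.natAbs_eq c with hc | hc
    · rw [hc, Int.cast_natCast]; exact val_natCast_le_one v _
    · rw [hc, Int.cast_neg, Int.cast_natCast, Valuation.map_neg]; exact val_natCast_le_one v _
  have h2 : v ((a : K) * (N : K) + (b : K) * (p : K)) < 1 := by
    refine v.map_add_lt ?_ ?_
    · rw [map_mul]; exact lt_of_le_of_lt (mul_le_of_le_one_left' (hint a)) h
    · rw [map_mul]; exact lt_of_le_of_lt (mul_le_of_le_one_left' (hint b)) hvp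
  rw [h1, map_one] at h2
  exact lt_irrefl _ h2

/-- If `(x + 1) ^ r = x ^ r + 1` for all `x : ZMod p` and `1 ≤ r < p` then `r = 1`. -/
theorem eq_one_of_additive {r : ℕ} (hr1 : 1 ≤ r) (hrp : r < p)
    (h : ∀ x : ZMod p, (x + 1) ^ r = x ^ r + 1) : r = 1 := by
  have hp : p.Prime := Fact.out
  by_contra hne
  have hr2 : 2 ≤ r := by omega
  -- `x ^ r = x` for all `x`
  have hpow : ∀ n : ℕ, ((n : ZMod p)) ^ r = n := by
    intro n
    induction n with
    | zero => simp [zero_pow (by omega : r ≠ 0)]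
    | succ n ih => push_cast; rw [h, ih]
  have hall : ∀ x : ZMod p, x ^ r = x := by
    intro x
    have := hpow x.val
    rwa [ZMod.natCast_zmod_val] at this
  let P : Polynomial (ZMod p) := Polynomial.X ^ r - Polynomial.X
  have hdeg : P.natDegree < (Finset.univ : Finset (ZMod p)).card := by
    rw [Finset.card_univ, ZMod.card]
    refine lt_of_le_of_lt (Polynomial.natDegree_sub_le _ _) ?_
    rw [Polynomial.natDegree_X_pow, Polynomial.natDegree_X]
    exact max_lt hrp hp.one_lt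
  have hP : P = 0 := by
    refine Polynomial.eq_zero_of_natDegree_lt_card_of_eval_eq_zero' P Finset.univ (fun x _ => ?_) hdeg
    simp only [P, Polynomial.eval_sub, Polynomial.eval_pow, Polynomial.eval_X]
    rw [hall, sub_self]
  have hc : P.coeff r = 1 := by
    simp only [P, Polynomial.coeff_sub, Polynomial.coeff_X_pow, Polynomial.coeff_X]
    rw [if_pos trivial, if_neg (by omega), sub_zero]
  rw [hP, Polynomial.coeff_zero] at hc
  exact zero_ne_one hc

/-- **The valuation of the chart coordinate.** -/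
theorem val_eq_val_sub_one (hζ : IsPrimitiveRoot ζ p) (hp0 : (p : K) ≠ 0) (hvp : v (p : K) < 1)
    (g : ℕ → K) (b : ℕ → K) (hb0 : b 0 = 0)
    (hb : ∀ k, v (b k) = 1 ∨ v (b k) ≤ v (p : K))
    (hgb : ∀ j, g j = ∑ k ∈ Finset.range p, b k * (ζ ^ j - 1) ^ k)
    (hup : v (p : K) ≤ v (g 1))
    (hadd : ∀ j, v (g (j + 1) - g j - g 1) ≤ (max (v (g j)) (v (g 1))) ^ 2) :
    v (g 1) = v (ζ - 1) := by
  classical
  have hp : p.Prime := Fact.out
  have hζ1 : v ζ = 1 := val_eq_one_of_pow_eq_one v hp.ne_zero hζ.pow_eq_one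
  set q : Γ₀ := v (ζ - 1) with hq
  have hqp : q ^ (p - 1) = v (p : K) := val_sub_one_pow v hζ
  have hvp0 : v (p : K) ≠ 0 := (Valuation.ne_zero_iff v).mpr hp0
  have hq0 : q ≠ 0 := by
    intro h0
    rw [h0, zero_pow (by have := hp.two_le; omega)] at hqp
    exact hvp0 hqp.symm
  have hq1 : q < 1 := by
    by_contra hge
    rw [not_lt] at hge
    have : 1 ≤ q ^ (p - 1) := one_le_pow₀ hge
    rw [hqp] at this
    exact absurd hvp (not_lt.mpr this)
  have hqpos : 0 < q := zero_lt_iff.mpr hq0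
  have hqle : ∀ {m n : ℕ}, m ≤ n → q ^ n ≤ q ^ m := fun h => pow_le_pow_of_le_one zero_le hq1.le h
  have hu : ∀ j, v (ζ ^ j - 1) ≤ q := fun j => val_pow_sub_one_le v hζ1.le j
  have hbk : ∀ k, v (b k) ≤ 1 := by
    intro k
    rcases hb k with h | h
    · exact h.le
    · exact h.trans hvp.le
  -- Step A: the first unit coefficient
  have hex : ∃ r, 1 ≤ r ∧ r < p ∧ v (b r) = 1 := by
    by_contra hcon
    push Not at hcon
    have hall : ∀ k, k < p → v (b k * (ζ ^ 1 - 1) ^ k) ≤ v (p : K) * q := by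
      intro k hk
      rcases Nat.eq_zero_or_pos k with h0 | hpos
      · rw [h0, hb0, zero_mul, map_zero]; exact zero_le
      · have hbk' : v (b k) ≤ v (p : K) := by
          rcases hb k with h | h
          · exact absurd h (hcon k hpos hk)
          · exact h
        rw [map_mul, map_pow, pow_one, ← hq]
        exact mul_le_mul' hbk' ((hqle hpos).trans (by rw [pow_one]))
    have h1 : v (g 1) ≤ v (p : K) * q := by
      rw [hgb 1]
      exact val_sum_le v _ _ fun k hk => hall k (Finset.mem_range.mp hk)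
    have h2 : v (p : K) * q < v (p : K) := by
      calc v (p : K) * q < v (p : K) * 1 := by
            exact mul_lt_mul_of_pos_left hq1 (zero_lt_iff.mpr hvp0)
        _ = v (p : K) := mul_one _
    exact absurd (hup.trans h1) (not_le.mpr h2)
  let r := Nat.find hex
  obtain ⟨hr1, hrp, hbr⟩ : 1 ≤ r ∧ r < p ∧ v (b r) = 1 := Nat.find_spec hex
  have hmin : ∀ k, 1 ≤ k → k < r → v (b k) ≤ v (p : K) := by
    intro k hk1 hkr
    rcases hb k with h | h
    · exact absurd ⟨hk1, hkr.trans hrp, h⟩ (Nat.find_min hex hkr)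
    · exact h
  -- Step B
  have hterm : ∀ j k, k < p → k ≠ r → v (b k * (ζ ^ j - 1) ^ k) ≤ q ^ (r + 1) := by
    intro j k hk hkr
    rw [map_mul, map_pow]
    rcases lt_or_gt_of_ne hkr with hlt | hgt
    · rcases Nat.eq_zero_or_pos k with h0 | hpos
      · rw [h0, hb0, map_zero, zero_mul]; exact zero_le
      · calc v (b k) * v (ζ ^ j - 1) ^ k ≤ v (p : K) * q ^ k :=
              mul_le_mul' (hmin k hpos hlt) (pow_le_pow_left₀ zero_le (hu j) k)
          _ ≤ q ^ (p - 1) * q ^ 1 := by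
              rw [hqp]; exact mul_le_mul' le_rfl (hqle hpos)
          _ = q ^ p := by rw [← pow_add]; congr 1; omega
          _ ≤ q ^ (r + 1) := hqle (by omega)
    · calc v (b k) * v (ζ ^ j - 1) ^ k ≤ 1 * q ^ k :=
            mul_le_mul' (hbk k) (pow_le_pow_left₀ zero_le (hu j) k)
        _ = q ^ k := one_mul _
        _ ≤ q ^ (r + 1) := hqle (by omega)
  have hB : ∀ j, v (g j - b r * (ζ ^ j - 1) ^ r) ≤ q ^ (r + 1) := by
    intro j
    rw [hgb j, ← Finset.sum_erase_add _ _ (Finset.mem_range.mpr hrp), add_sub_cancel_right]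
    refine val_sum_le v _ _ fun k hk => ?_
    rw [Finset.mem_erase, Finset.mem_range] at hk
    exact hterm j k hk.2 hk.1
  -- Step C
  have hg1 : v (g 1) = q ^ r := by
    have h1 : v (b r * (ζ ^ 1 - 1) ^ r) = q ^ r := by
      rw [map_mul, map_pow, pow_one, hbr, one_mul]
    have h2 : v (g 1 - b r * (ζ ^ 1 - 1) ^ r) < v (b r * (ζ ^ 1 - 1) ^ r) := by
      rw [h1]
      refine lt_of_le_of_lt (hB 1) ?_
      rw [pow_succ]
      calc q ^ r * q < q ^ r * 1 := mul_lt_mul_of_pos_left hq1 (pow_pos hqpos r)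
        _ = q ^ r := mul_one _
    have h3 : g 1 = (g 1 - b r * (ζ ^ 1 - 1) ^ r) + b r * (ζ ^ 1 - 1) ^ r := by ring
    rw [h3, Valuation.map_add_eq_of_lt_right v h2, h1]
  have hgj : ∀ j, v (g j) ≤ q ^ r := by
    intro j
    have h3 : g j = (g j - b r * (ζ ^ j - 1) ^ r) + b r * (ζ ^ j - 1) ^ r := by ring
    rw [h3]
    refine v.map_add_le ((hB j).trans (hqle (Nat.le_succ r))) ?_
    rw [map_mul, map_pow, hbr, one_mul]
    exact pow_le_pow_left₀ zero_le (hu j) r
  -- Step D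
  set gs : ℕ → K := fun j => ∑ i ∈ Finset.range j, ζ ^ i with hgs
  have hgsmul : ∀ j, ζ ^ j - 1 = gs j * (ζ - 1) := fun j => (geom_sum_mul ζ j).symm
  have hgsle : ∀ j, v (gs j) ≤ 1 := fun j => val_geom_sum_le_one v hζ1.le j
  have hgs1 : gs 1 = 1 := by simp [hgs]
  have hD : ∀ j, v (gs (j + 1) ^ r - gs j ^ r - 1) ≤ q := by
    intro j
    have h1 : v (g (j + 1) - g j - g 1) ≤ q ^ (r + 1) := by
      refine (hadd j).trans ?_
      rw [hg1, max_eq_right (hgj j), ← pow_mul]
      exact hqle (by nlinarith)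
    have e1 : ∀ j, b r * (ζ ^ j - 1) ^ r = b r * (ζ - 1) ^ r * gs j ^ r := by
      intro j
      rw [hgsmul j, mul_pow]
      ring
    have h2 : b r * (ζ - 1) ^ r * (gs (j + 1) ^ r - gs j ^ r - 1) =
        (g (j + 1) - g j - g 1) - (g (j + 1) - b r * (ζ ^ (j + 1) - 1) ^ r)
          + (g j - b r * (ζ ^ j - 1) ^ r) + (g 1 - b r * (ζ ^ 1 - 1) ^ r) := by
      rw [e1 (j + 1), e1 j, e1 1, hgs1]
      ring
    have h3 : v (b r * (ζ - 1) ^ r * (gs (j + 1) ^ r - gs j ^ r - 1)) ≤ q ^ (r + 1) := by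
      rw [h2]
      exact v.map_add_le (v.map_add_le (v.map_sub_le h1 (hB (j + 1))) (hB j)) (hB 1)
    rw [map_mul, map_mul, map_pow, hbr, one_mul, ← hq, pow_succ] at h3
    exact le_of_mul_le_mul_left h3 (pow_pos hqpos r)
  -- Step E
  have hE : ∀ j : ℕ, v (gs j - (j : K)) ≤ q := by
    intro j
    have h1 : gs j - (j : K) = ∑ i ∈ Finset.range j, (ζ ^ i - 1) := by
      rw [hgs, Finset.sum_sub_distrib, Finset.sum_const, Finset.card_range, nsmul_eq_mul, mul_one]
    rw [h1]
    exact val_sum_le v _ _ fun i _ => hu i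
  have hE' : ∀ j : ℕ, v (gs j ^ r - (j : K) ^ r) ≤ q := fun j =>
    (val_pow_sub_pow_le v (hgsle j) (val_natCast_le_one v j) r).trans (hE j)
  have hF : ∀ j : ℕ, v ((((j + 1) ^ r - j ^ r - 1 : ℕ) : ℕ) : K) < 1 := by
    intro j
    have hle : j ^ r + 1 ≤ (j + 1) ^ r := by
      have := pow_add_pow_le (Nat.zero_le j) (Nat.zero_le 1) (by omega : r ≠ 0)
      rwa [one_pow] at this
    have h1 : (((j + 1) ^ r - j ^ r - 1 : ℕ) : K) =
        (gs (j + 1) ^ r - gs j ^ r - 1) - (gs (j + 1) ^ r - ((j + 1 : ℕ) : K) ^ r)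
          + (gs j ^ r - (j : K) ^ r) := by
      rw [Nat.sub_sub, Nat.cast_sub hle]
      push_cast
      ring
    rw [h1]
    exact lt_of_le_of_lt (v.map_add_le (v.map_sub_le (hD j) (hE' (j + 1))) (hE' j)) hq1
  -- Step F, G
  have hr : r = 1 := by
    refine eq_one_of_additive hr1 hrp fun x => ?_
    have hdvd := natCast_dvd_of_val_lt_one v hvp _ (hF x.val)
    have hle : x.val ^ r + 1 ≤ (x.val + 1) ^ r := by
      have := pow_add_pow_le (Nat.zero_le x.val) (Nat.zero_le 1) (by omega : r ≠ 0)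
      rwa [one_pow] at this
    have h0 : (((x.val + 1) ^ r - x.val ^ r - 1 : ℕ) : ZMod p) = 0 :=
      (ZMod.natCast_eq_zero_iff _ _).mpr hdvd
    rw [Nat.sub_sub, Nat.cast_sub hle] at h0
    push_cast at h0
    rw [ZMod.natCast_zmod_val] at h0
    exact sub_eq_zero.mp h0
  rw [hg1, hr, pow_one]

end Fermat.Agent.S40x.Ell.BOrdVal
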