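import Mathlib
import Fermat.Prelude.Def_FLTPrelim_GaloisRep
import Fermat.Agent.Lib.EC.Reduction.ReductionMap
import Fermat.Agent.S40x.Ell.BOrdUnit
import Fermat.Agent.S40x.Ell.BOrdMixedLaw
import Fermat.Agent.S40x.Ell.BOrdFourier
import Fermat.Agent.S40x.Ell.BOrdTrace
import Fermat.Agent.S40x.Ell.BOrdVal

/-!
P-S40 study (research mode), R4, leaf B-ord (helper14): the core argument, in abstract form.

`K` is a field with a valuation subring `A`, `E = W'⁄K` a Weierstrass curve with coefficients in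
`A`, `I` a set of automorphisms of `K` (the inertia group), `p` a prime in the maximal ideal of `A`
and `ζ` a primitive `p`-th root of unity.  The arithmetic input is `hfix` (an `I`-invariant element
of the maximal ideal is divisible by `p`).

`S` is a point of order `p` of the kernel of reduction on which `I` acts through the cyclotomic
character.

* `val_zc_eq` : the chart coordinate `z(S)` has the valuation of `ζ - 1`.
-/

set_option autoImplicit false

namespace Fermat.Agent.S40x.Ell.BOrdCore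

open WeierstrassCurve WeierstrassCurve.Affine Fermat.Agent.Lib.EC
open Fermat.Agent.S40x.Ell.BOrdTrace Fermat.Agent.S40x.Ell.BOrdVal

variable {R : Type*} {F : Type*} {K : Type*} [CommRing R] [CommRing F] [Field K] [DecidableEq K]
  {W' : Affine R} [Algebra R F] [Algebra R K] [Algebra F K] [IsScalarTower R F K]

/-! ### Coordinate functions and their equivariance -/

/-- The `x`-coordinate (and `0` at infinity). -/
def xc : (W'⁄K).Point → K
  | .zero => 0
  | .some x _ _ => x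

/-- `κ = 1 / x` (and `0` at infinity). -/
def kap : (W'⁄K).Point → K
  | .zero => 0
  | .some x _ _ => x⁻¹

/-- `ω = - y / x ^ 2` (and `0` at infinity). -/
def omg : (W'⁄K).Point → K
  | .zero => 0
  | .some x y _ => -y / x ^ 2

omit [DecidableEq K] in
@[simp] theorem xc_zero : xc (0 : (W'⁄K).Point) = 0 := rfl
omit [DecidableEq K] in
@[simp] theorem kap_zero : kap (0 : (W'⁄K).Point) = 0 := rfl
omit [DecidableEq K] in
@[simp] theorem omg_zero : omg (0 : (W'⁄K).Point) = 0 := rfl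

theorem smul_some (σ : K ≃ₐ[F] K) {x y : K} (h : (W'⁄K).Nonsingular x y) :
    ∃ h' : (W'⁄K).Nonsingular (σ x) (σ y),
      σ • (Point.some x y h : (W'⁄K).Point) = Point.some (σ x) (σ y) h' :=
  ⟨(baseChange_nonsingular W' σ.toAlgHom.injective x y).mpr h, rfl⟩

theorem zc_smul (σ : K ≃ₐ[F] K) (Q : (W'⁄K).Point) : Kernel.zc (σ • Q) = σ (Kernel.zc Q) := by
  rcases Q with _ | ⟨x, y, h⟩
  · exact (map_zero σ).symm
  · obtain ⟨h', e⟩ := smul_some σ h
    rw [e, Kernel.zc_some, Kernel.zc_some, map_div₀, map_neg]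

theorem xc_smul (σ : K ≃ₐ[F] K) (Q : (W'⁄K).Point) : xc (σ • Q) = σ (xc Q) := by
  rcases Q with _ | ⟨x, y, h⟩
  · exact (map_zero σ).symm
  · obtain ⟨h', e⟩ := smul_some σ h
    rw [e]; rfl

theorem kap_smul (σ : K ≃ₐ[F] K) (Q : (W'⁄K).Point) : kap (σ • Q) = σ (kap Q) := by
  rcases Q with _ | ⟨x, y, h⟩
  · exact (map_zero σ).symm
  · obtain ⟨h', e⟩ := smul_some σ h
    rw [e]
    show (σ x)⁻¹ = σ (x⁻¹)
    rw [map_inv₀]

theorem omg_smul (σ : K ≃ₐ[F] K) (Q : (W'⁄K).Point) : omg (σ • Q) = σ (omg Q) := by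
  rcases Q with _ | ⟨x, y, h⟩
  · exact (map_zero σ).symm
  · obtain ⟨h', e⟩ := smul_some σ h
    rw [e]
    show -(σ y) / (σ x) ^ 2 = σ (-y / x ^ 2)
    rw [map_div₀, map_neg, map_pow]

/-! ### Multiples of a point of order `p` -/

theorem smul_nsmul_pt (σ : K ≃ₐ[F] K) (n : ℕ) (Q : (W'⁄K).Point) : σ • (n • Q) = n • (σ • Q) :=
  map_nsmul (DistribSMul.toAddMonoidHom (W'⁄K).Point σ) n Q

theorem mod_nsmul {G : Type*} [AddMonoid G] {p : ℕ} {S : G} (hpS : p • S = 0) (a : ℕ) :
    (a % p) • S = a • S := by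
  conv_rhs => rw [← Nat.div_add_mod a p, add_nsmul, mul_nsmul, hpS, nsmul_zero, zero_add]

theorem val_nsmul {G : Type*} [AddMonoid G] {p : ℕ} [NeZero p] {S : G} (hpS : p • S = 0)
    (a : ℕ) : ((a : ZMod p)).val • S = a • S := by
  rw [ZMod.val_natCast, mod_nsmul hpS]

theorem val_mul_nsmul {G : Type*} [AddMonoid G] {p : ℕ} [NeZero p] {S : G} (hpS : p • S = 0)
    (e j : ZMod p) : (e * j).val • S = j.val • (e.val • S) := by
  rw [ZMod.val_mul, mod_nsmul hpS, mul_comm, mul_nsmul']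

/-! ### Expansion of equivariant functions on the line generated by `S` -/

section Expansion

variable (A : ValuationSubring K) {p : ℕ} [Fact p.Prime] {ζ : K}

/-- The set of ring homomorphisms underlying a set of automorphisms. -/
def homSet (I : Set (K ≃ₐ[F] K)) : Set (K →+* K) := {τ | ∃ σ ∈ I, τ = (σ : K →+* K)}

theorem exists_expansion (hζ : IsPrimitiveRoot ζ p) (hp0 : (p : K) ≠ 0) (I : Set (K ≃ₐ[F] K))
    (hfix : ∀ y : K, A.valuation y < 1 → (∀ σ ∈ I, σ y = y) → A.valuation y ≤ A.valuation (p : K))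
    (hE : IsIntegralOver A (W'⁄K)) {S : (W'⁄K).Point} (hS : KerRed A S) (hpS : p • S = 0)
    (hIS : ∀ σ ∈ I, ∃ e : (ZMod p)ˣ, σ ζ = ζ ^ (e : ZMod p).val ∧ σ • S = (e : ZMod p).val • S)
    (f : (W'⁄K).Point → K) (hf0 : f 0 = 0) (hfeq : ∀ σ ∈ I, ∀ Q, f (σ • Q) = σ (f Q))
    (hfv : ∀ Q, KerRed A Q → A.valuation (f Q) < 1) :
    ∃ a : ZMod p → K, (∀ i, A.valuation (a i) ≤ 1) ∧ (∀ i, ∀ σ ∈ I, σ (a i) = a i) ∧
      ∀ j : ZMod p, f (j.val • S) = ∑ i, a i * chr hζ (i * j) := by
  have hker : ∀ n : ℕ, KerRed A (n • S) := fun n =>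
    (mem_kerRedSubgroup hE _).mp
      ((kerRedSubgroup hE).nsmul_mem ((mem_kerRedSubgroup hE _).mpr hS) n)
  have hg00 : f ((0 : ZMod p).val • S) = 0 := by rw [ZMod.val_zero, zero_nsmul, hf0]
  obtain ⟨a, ha1, ha2, ha3⟩ := exists_coeff A.valuation hζ hp0 (homSet I)
    (fun y hy hy' => hfix y hy fun σ hσ => hy' (σ : K →+* K) ⟨σ, hσ, rfl⟩)
    (fun j : ZMod p => f (j.val • S))
    (by rw [hg00, map_zero]; exact zero_le_one)
    (fun j => by rw [hg00, sub_zero]; exact hfv _ (hker _))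
    (by
      rintro τ ⟨σ, hσ, rfl⟩
      obtain ⟨e, he1, he2⟩ := hIS σ hσ
      refine ⟨e, he1, fun j => ?_⟩
      show σ (f (j.val • S)) = f (((e : ZMod p) * j).val • S)
      rw [← hfeq σ hσ, smul_nsmul_pt, he2, val_mul_nsmul hpS])
  exact ⟨a, ha1, fun i σ hσ => ha2 i (σ : K →+* K) ⟨σ, hσ, rfl⟩, ha3⟩

theorem kerRed_nsmul {A : ValuationSubring K} (hE : IsIntegralOver A (W'⁄K)) {S : (W'⁄K).Point}
    (hS : KerRed A S) (n : ℕ) : KerRed A (n • S) :=
  (mem_kerRedSubgroup hE _).mp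
    ((kerRedSubgroup hE).nsmul_mem ((mem_kerRedSubgroup hE _).mpr hS) n)

/-- **The valuation of the chart coordinate of a generator.** -/
theorem val_zc_eq (hζ : IsPrimitiveRoot ζ p) (hp0 : (p : K) ≠ 0) (hvp : A.valuation (p : K) < 1)
    (I : Set (K ≃ₐ[F] K))
    (hfix : ∀ y : K, A.valuation y < 1 → (∀ σ ∈ I, σ y = y) → A.valuation y ≤ A.valuation (p : K))
    (hE : IsIntegralOver A (W'⁄K)) {S : (W'⁄K).Point} (hS : KerRed A S) (hS0 : S ≠ 0)
    (hpS : p • S = 0)
    (hIS : ∀ σ ∈ I, ∃ e : (ZMod p)ˣ, σ ζ = ζ ^ (e : ZMod p).val ∧ σ • S = (e : ZMod p).val • S) :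
    A.valuation (Kernel.zc S) = A.valuation (ζ - 1) := by
  have hI := hE.isIntegralAt
  have hnear : ∀ n : ℕ, Kernel.Near A.valuation (n • S) := fun n =>
    (kerRed_iff_near A _).mp (kerRed_nsmul hE hS n)
  have hnearS : Kernel.Near A.valuation S := (kerRed_iff_near A _).mp hS
  obtain ⟨a, ha1, ha2, ha3⟩ := exists_expansion A hζ hp0 I hfix hE hS hpS hIS
    Kernel.zc Kernel.zc_zero (fun σ _ Q => zc_smul σ Q)
    (fun Q hQ => Kernel.val_zc_lt_one A.valuation hI ((kerRed_iff_near A _).mp hQ))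
  obtain ⟨b, hb1, hb2, hb3, hb4⟩ := exists_taylor_coeff A.valuation hζ (homSet I)
    (fun j : ZMod p => Kernel.zc (j.val • S)) a ha1
    (fun i τ hτ => by obtain ⟨σ, hσ, rfl⟩ := hτ; exact ha2 i σ hσ) ha3
  have hb0 : b 0 = 0 := by
    rw [hb3, ZMod.val_zero, zero_nsmul]; rfl
  have h1S : Kernel.zc (1 • S) = Kernel.zc S := by rw [one_nsmul]
  have hz0 : A.valuation (Kernel.zc S) ≠ 0 := Kernel.val_zc_ne_zero A.valuation hI hnearS hS0
  have key := val_eq_val_sub_one A.valuation hζ hp0 hvp (fun j : ℕ => Kernel.zc (j • S)) b hb0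
    (fun k => by
      rcases lt_or_eq_of_le (hb1 k) with h | h
      · right
        exact hfix _ h fun σ hσ => hb2 k (σ : K →+* K) ⟨σ, hσ, rfl⟩
      · left; exact h)
    (fun j => by
      have := hb4 (j : ZMod p)
      simp only [val_nsmul hpS] at this
      rw [this]
      refine Finset.sum_congr rfl fun k _ => ?_
      rw [AddChar.zmodChar_apply'])
    (by
      show A.valuation (p : K) ≤ A.valuation (Kernel.zc (1 • S))
      rw [h1S]
      have h := (Kernel.nsmul_estimate A.valuation hI hnearS p).2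
      rw [hpS, Kernel.zc_zero, zero_sub, Valuation.map_neg, map_mul, sq] at h
      exact le_of_mul_le_mul_right h (zero_lt_iff.mpr hz0))
    (fun j => by
      show A.valuation (Kernel.zc ((j + 1) • S) - Kernel.zc (j • S) - Kernel.zc (1 • S)) ≤ _
      have hc : max (A.valuation (Kernel.zc (j • S))) (A.valuation (Kernel.zc (1 • S))) < 1 :=
        max_lt (Kernel.val_zc_lt_one A.valuation hI (hnear j))
          (Kernel.val_zc_lt_one A.valuation hI (hnear 1))
      have h := (Kernel.add_estimate A.valuation hI hc (hnear j) (hnear 1) (le_max_left _ _)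
        (le_max_right _ _)).2
      rwa [← add_nsmul] at h)
  simpa only [one_nsmul] using key

end Expansion

end Fermat.Agent.S40x.Ell.BOrdCore
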