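import Mathlib
import Fermat.Agent.S40x.Ell.BOrdCore

/-!
P-S40 study (research mode), R4, leaf B-ord (helper14): functions on a coset `c + ⟨S⟩` of the
kernel of reduction.

* `xc_add` : the mixed addition law for points: for `c = (x₁, y₁)` with integral `x₁` and `Q` in
  the kernel of reduction, `x (c + Q)` is the explicit rational function of
  `(x₁, y₁, κ(Q), ω(Q))` of `BOrdMixedLaw.addX_mixed`.
* `mem_fourier_of_equivariant` : an equivariant function on `⟨S⟩` with values in the maximal ideal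
  has integral Fourier coefficients.
* `xc_coset_mem_fourier` : so does `j ↦ x (c + j • S)`.
-/

set_option autoImplicit false

namespace Fermat.Agent.S40x.Ell.BOrdCore

open WeierstrassCurve WeierstrassCurve.Affine Fermat.Agent.Lib.EC
open Fermat.Agent.S40x.Ell.BOrdTrace Fermat.Agent.S40x.Ell.BOrdVal
  Fermat.Agent.S40x.Ell.BOrdFourier

variable {R : Type*} {F : Type*} {K : Type*} [CommRing R] [CommRing F] [Field K] [DecidableEq K]
  {W' : Affine R} [Algebra R F] [Algebra R K] [Algebra F K] [IsScalarTower R F K]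

/-! ### The mixed law for points -/

/-- The numerator of the mixed law. -/
def mixNum (E : Affine K) (x₁ y₁ κ ω : K) : K :=
  x₁ + (2 * y₁ + E.a₁ * x₁ + E.a₃) * ω + (x₁ ^ 2 + 2 * E.a₂ * x₁ + E.a₄ - E.a₁ * y₁) * κ
    + (E.a₄ * x₁ + 2 * E.a₆ - E.a₃ * y₁) * κ ^ 2

/-- The denominator of the mixed law. -/
def mixDen (x₁ κ : K) : K := (1 - x₁ * κ) ^ 2

theorem xc_add (A : ValuationSubring K) {x₁ y₁ : K} (h₁ : (W'⁄K).Nonsingular x₁ y₁) (hx₁ : x₁ ∈ A)
    {Q : (W'⁄K).Point} (hQ : KerRed A Q) :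
    xc (Point.some x₁ y₁ h₁ + Q) = mixNum (W'⁄K) x₁ y₁ (kap Q) (omg Q) / mixDen x₁ (kap Q) := by
  rcases Q with _ | ⟨x₂, y₂, h₂⟩
  · rw [← Point.zero_def, add_zero]
    simp [mixNum, mixDen, xc]
  · rw [kerRed_some] at hQ
    have hx : x₁ ≠ x₂ := fun h => hQ (h ▸ hx₁)
    have hx₂ : x₂ ≠ 0 := fun h => hQ (h ▸ A.zero_mem)
    have hxy : ¬(x₁ = x₂ ∧ y₁ = (W'⁄K).negY x₂ y₂) := fun h => hx h.1
    rw [Point.add_some hxy]
    show (W'⁄K).addX x₁ x₂ ((W'⁄K).slope x₁ x₂ y₁ y₂) = _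
    rw [slope_of_X_ne hx]
    have e₁ := (equation_iff x₁ y₁).mp h₁.left
    have e₂ := (equation_iff x₂ y₂).mp h₂.left
    have := BOrdMixedLaw.addX_mixed e₁ e₂ hx hx₂
    simp only [addX, mixNum, mixDen, kap, omg]
    rw [this, one_div]

/-! ### Integral elements -/

section Integral

variable (A : ValuationSubring K)

open Classical in
/-- An element of `K` as an element of `A` (and `0` if it is not integral). -/
noncomputable def toA (x : K) : A := if h : x ∈ A then ⟨x, h⟩ else 0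

omit [DecidableEq K] in
theorem coe_toA {x : K} (h : x ∈ A) : ((toA A x : A) : K) = x := by
  rw [toA, dif_pos h]

omit [DecidableEq K] in
theorem coe_toA_of_val_le {x : K} (h : A.valuation x ≤ 1) : ((toA A x : A) : K) = x :=
  coe_toA A ((A.valuation_le_one_iff x).mp h)

omit [DecidableEq K] in
theorem dvd_of_val_le {a b : A} (h : A.valuation (b : K) ≤ A.valuation (a : K)) : a ∣ b := by
  by_cases ha : (a : K) = 0
  · rw [ha, map_zero, le_zero_iff, map_eq_zero] at h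
    have hb : b = 0 := Subtype.ext h
    rw [hb]
    exact dvd_zero a
  · have hq : (b : K) / (a : K) ∈ A := by
      rw [← A.valuation_le_one_iff, map_div₀]
      exact (div_le_one₀ (zero_lt_iff.mpr ((Valuation.ne_zero_iff _).mpr ha))).mpr h
    refine ⟨⟨_, hq⟩, Subtype.ext ?_⟩
    show (b : K) = (a : K) * ((b : K) / (a : K))
    field_simp

omit [DecidableEq K] in
theorem isUnit_of_val_eq_one {a : A} (h : A.valuation (a : K) = 1) : IsUnit a :=
  (A.valuation_eq_one_iff a).mpr h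

end Integral

/-! ### Sums over `ZMod p` and over `Fin p` -/

/-- The bijection `Fin p ≃ ZMod p`. -/
def finZ (p : ℕ) [NeZero p] : Fin p ≃ ZMod p where
  toFun i := ((i : ℕ) : ZMod p)
  invFun j := ⟨j.val, ZMod.val_lt j⟩
  left_inv i := Fin.ext (ZMod.val_natCast_of_lt i.2)
  right_inv j := ZMod.natCast_zmod_val j

theorem sum_zmod_eq_sum_fin {p : ℕ} [NeZero p] {M : Type*} [AddCommMonoid M] (G : ZMod p → M) :
    ∑ i, G i = ∑ i : Fin p, G ((i : ℕ) : ZMod p) :=
  (Fintype.sum_equiv (finZ p) _ _ (fun _ => rfl)).symm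

/-! ### Fourier membership -/

section Fourier

variable (A : ValuationSubring K) {p : ℕ} [Fact p.Prime] {ζ : K}

theorem mem_fourier_of_equivariant (hζ : IsPrimitiveRoot ζ p) (hp0 : (p : K) ≠ 0)
    (I : Set (K ≃ₐ[F] K))
    (hfix : ∀ y : K, A.valuation y < 1 → (∀ σ ∈ I, σ y = y) → A.valuation y ≤ A.valuation (p : K))
    (hE : IsIntegralOver A (W'⁄K)) {S : (W'⁄K).Point} (hS : KerRed A S) (hpS : p • S = 0)
    (hIS : ∀ σ ∈ I, ∃ e : (ZMod p)ˣ, σ ζ = ζ ^ (e : ZMod p).val ∧ σ • S = (e : ZMod p).val • S)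
    (f : (W'⁄K).Point → K) (hf0 : f 0 = 0) (hfeq : ∀ σ ∈ I, ∀ Q, f (σ • Q) = σ (f Q))
    (hfv : ∀ Q, KerRed A Q → A.valuation (f Q) < 1) :
    (fun j : Fin p => toA A (f ((j : ℕ) • S))) ∈ fourier p (toA A ζ) := by
  have hp : p.Prime := Fact.out
  obtain ⟨a, ha1, -, ha3⟩ := exists_expansion A hζ hp0 I hfix hE hS hpS hIS f hf0 hfeq hfv
  have hζ1 : A.valuation ζ = 1 := val_eq_one_of_pow_eq_one _ hp.ne_zero hζ.pow_eq_one
  refine mem_fourier_of_coeff (fun i : Fin p => toA A (a ((i : ℕ) : ZMod p))) fun j => ?_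
  apply Subtype.ext
  rw [coe_toA_of_val_le A (hfv _ (kerRed_nsmul hE hS _)).le]
  have h := ha3 ((j : ℕ) : ZMod p)
  rw [val_nsmul hpS, sum_zmod_eq_sum_fin] at h
  rw [h]
  push_cast
  refine Finset.sum_congr rfl fun i _ => ?_
  rw [coe_toA_of_val_le A (ha1 _), coe_toA_of_val_le A hζ1.le, ← Nat.cast_mul,
    AddChar.zmodChar_apply']

/-! ### Valuations of `κ` and `ω` on the kernel of reduction -/

omit [DecidableEq K] in
theorem val_kap (hE : IsIntegralOver A (W'⁄K)) {Q : (W'⁄K).Point} (hQ : KerRed A Q) :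
    A.valuation (kap Q) = A.valuation (Kernel.zc Q) ^ 2 := by
  rcases Q with _ | ⟨x, y, h⟩
  · show A.valuation 0 = A.valuation 0 ^ 2
    rw [map_zero, zero_pow two_ne_zero]
  · obtain ⟨g1, g2, g3, g4, g6⟩ := hE.isIntegralAt
    have hx : 1 < A.valuation x := (kerRed_iff_near A _).mp hQ
    have hm := Kernel.val_z_sq_mul A.valuation g1 g2 g3 g4 g6 hx ((equation_iff x y).mp h.left)
    have hx0 : A.valuation x ≠ 0 := (lt_trans zero_lt_one hx).ne'
    show A.valuation x⁻¹ = A.valuation (-x / y) ^ 2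
    rw [map_inv₀]
    exact (eq_inv_of_mul_eq_one_left hm).symm

omit [DecidableEq K] in
theorem val_omg (hE : IsIntegralOver A (W'⁄K)) {Q : (W'⁄K).Point} (hQ : KerRed A Q) :
    A.valuation (omg Q) = A.valuation (Kernel.zc Q) := by
  rcases Q with _ | ⟨x, y, h⟩
  · rfl
  · obtain ⟨g1, g2, g3, g4, g6⟩ := hE.isIntegralAt
    have hx : 1 < A.valuation x := (kerRed_iff_near A _).mp hQ
    have e := (equation_iff x y).mp h.left
    have hk := val_kap A hE hQ
    have hz0 := Kernel.val_z_ne_zero A.valuation g1 g2 g3 g4 g6 hx e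
    have hy0 : y ≠ 0 := Kernel.y_ne_zero A.valuation g1 g2 g3 g4 g6 hx e
    have hx0 : x ≠ 0 := by
      rintro rfl
      rw [map_zero] at hx
      exact not_lt.mpr zero_le hx
    have hrel : omg (Point.some x y h : (W'⁄K).Point) * Kernel.zc (Point.some x y h : (W'⁄K).Point)
        = kap (Point.some x y h : (W'⁄K).Point) := by
      show -y / x ^ 2 * (-x / y) = x⁻¹
      field_simp
    have h2 := congrArg A.valuation hrel
    rw [map_mul, hk, sq] at h2
    exact mul_right_cancel₀ hz0 h2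

omit [DecidableEq K] in
theorem val_kap_lt_one (hE : IsIntegralOver A (W'⁄K)) {Q : (W'⁄K).Point} (hQ : KerRed A Q) :
    A.valuation (kap Q) < 1 := by
  rw [val_kap A hE hQ]
  exact pow_lt_one₀ zero_le
    (Kernel.val_zc_lt_one A.valuation hE.isIntegralAt ((kerRed_iff_near A _).mp hQ)) two_ne_zero

omit [DecidableEq K] in
theorem val_omg_lt_one (hE : IsIntegralOver A (W'⁄K)) {Q : (W'⁄K).Point} (hQ : KerRed A Q) :
    A.valuation (omg Q) < 1 := by
  rw [val_omg A hE hQ]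
  exact Kernel.val_zc_lt_one A.valuation hE.isIntegralAt ((kerRed_iff_near A _).mp hQ)

omit [DecidableEq K] in
theorem val_mixDen {x₁ κ : K} (hx₁ : x₁ ∈ A) (hκ : A.valuation κ < 1) :
    A.valuation (mixDen x₁ κ) = 1 := by
  have h1 : A.valuation (x₁ * κ) < 1 := by
    rw [map_mul]
    exact lt_of_le_of_lt (mul_le_of_le_one_left' ((A.valuation_le_one_iff _).mpr hx₁)) hκ
  rw [mixDen, map_pow, Valuation.map_one_sub_of_lt _ h1, one_pow]

/-- **The `x`-coordinate on a coset has integral Fourier coefficients.** -/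
theorem xc_coset_mem_fourier (hζ : IsPrimitiveRoot ζ p) (hp0 : (p : K) ≠ 0)
    (I : Set (K ≃ₐ[F] K))
    (hfix : ∀ y : K, A.valuation y < 1 → (∀ σ ∈ I, σ y = y) → A.valuation y ≤ A.valuation (p : K))
    (hE : IsIntegralOver A (W'⁄K)) {S : (W'⁄K).Point} (hS : KerRed A S) (hpS : p • S = 0)
    (hIS : ∀ σ ∈ I, ∃ e : (ZMod p)ˣ, σ ζ = ζ ^ (e : ZMod p).val ∧ σ • S = (e : ZMod p).val • S)
    {x₁ y₁ : K} (h₁ : (W'⁄K).Nonsingular x₁ y₁) (hx₁ : x₁ ∈ A) (hy₁ : y₁ ∈ A) :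
    (fun j : Fin p => toA A (xc (Point.some x₁ y₁ h₁ + (j : ℕ) • S))) ∈ fourier p (toA A ζ) := by
  set Fr := fourier p (toA A ζ) with hFr
  set kf : Fin p → A := fun j => toA A (kap ((j : ℕ) • S)) with hkf
  set of : Fin p → A := fun j => toA A (omg ((j : ℕ) • S)) with hof
  have hk : kf ∈ Fr := mem_fourier_of_equivariant A hζ hp0 I hfix hE hS hpS hIS kap kap_zero
    (fun σ _ Q => kap_smul σ Q) (fun Q hQ => val_kap_lt_one A hE hQ)
  have ho : of ∈ Fr := mem_fourier_of_equivariant A hζ hp0 I hfix hE hS hpS hIS omg omg_zero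
    (fun σ _ Q => omg_smul σ Q) (fun Q hQ => val_omg_lt_one A hE hQ)
  have hker : ∀ n : ℕ, KerRed A (n • S) := kerRed_nsmul hE hS
  have hkc : ∀ j : Fin p, ((kf j : A) : K) = kap ((j : ℕ) • S) := fun j =>
    coe_toA_of_val_le A (val_kap_lt_one A hE (hker _)).le
  have hoc : ∀ j : Fin p, ((of j : A) : K) = omg ((j : ℕ) • S) := fun j =>
    coe_toA_of_val_le A (val_omg_lt_one A hE (hker _)).le
  -- the constants
  obtain ⟨g1, g2, g3, g4, g6⟩ := hE
  let X₁ : A := ⟨x₁, hx₁⟩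
  let Y₁ : A := ⟨y₁, hy₁⟩
  let Ψ : A := 2 * Y₁ + ⟨_, g1⟩ * X₁ + ⟨_, g3⟩
  let Φ : A := X₁ ^ 2 + 2 * ⟨_, g2⟩ * X₁ + ⟨_, g4⟩ - ⟨_, g1⟩ * Y₁
  let Θ : A := ⟨_, g4⟩ * X₁ + 2 * ⟨_, g6⟩ - ⟨_, g3⟩ * Y₁
  set N : Fin p → A := algebraMap A (Fin p → A) X₁ + Ψ • of + Φ • kf + Θ • kf ^ 2 with hN
  set D : Fin p → A := (1 - X₁ • kf) ^ 2 with hD
  have hNmem : N ∈ Fr :=
    Fr.add_mem (Fr.add_mem (Fr.add_mem (Fr.algebraMap_mem _) (Fr.smul_mem ho _))
      (Fr.smul_mem hk _)) (Fr.smul_mem (Fr.pow_mem hk 2) _)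
  have hDmem : D ∈ Fr := Fr.pow_mem (Fr.sub_mem Fr.one_mem (Fr.smul_mem hk _)) 2
  have hNc : ∀ j : Fin p, ((N j : A) : K) =
      mixNum (W'⁄K) x₁ y₁ (kap ((j : ℕ) • S)) (omg ((j : ℕ) • S)) := by
    intro j
    simp only [hN, Pi.add_apply, Pi.smul_apply, Pi.pow_apply, Pi.algebraMap_apply, smul_eq_mul,
      Algebra.algebraMap_self, RingHom.id_apply]
    push_cast
    rw [hkc, hoc]
    rfl
  have hDc : ∀ j : Fin p, ((D j : A) : K) = mixDen x₁ (kap ((j : ℕ) • S)) := by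
    intro j
    simp only [hD, Pi.pow_apply, Pi.sub_apply, Pi.one_apply, Pi.smul_apply, smul_eq_mul]
    push_cast
    rw [hkc]
    rfl
  have hDv : ∀ j : Fin p, A.valuation ((D j : A) : K) = 1 := fun j => by
    rw [hDc]; exact val_mixDen A hx₁ (val_kap_lt_one A ⟨g1, g2, g3, g4, g6⟩ (hker _))
  have hDu : ∀ j, IsUnit (D j) := fun j => isUnit_of_val_eq_one A (hDv j)
  obtain ⟨Dinv, hDinv, hD1⟩ := exists_inv_mem Fr hDmem hDu
  have hmain : (fun j : Fin p => toA A (xc (Point.some x₁ y₁ h₁ + (j : ℕ) • S))) = N * Dinv := by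
    funext j
    have hxa := xc_add A h₁ hx₁ (hker (j : ℕ))
    have hD0 : mixDen x₁ (kap ((j : ℕ) • S)) ≠ 0 := by
      intro h0
      have := hDv j
      rw [hDc, h0, map_zero] at this
      exact zero_ne_one this
    have hval : A.valuation (xc (Point.some x₁ y₁ h₁ + (j : ℕ) • S)) ≤ 1 := by
      rw [hxa, map_div₀, ← hDc, hDv, div_one, ← hNc]
      exact A.valuation_le_one _
    have h1 : toA A (xc (Point.some x₁ y₁ h₁ + (j : ℕ) • S)) * D j = N j := by
      apply Subtype.ext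
      push_cast
      rw [coe_toA_of_val_le A hval, hxa, hDc, hNc, div_mul_cancel₀ _ hD0]
    rw [Pi.mul_apply, ← h1, mul_assoc, hD1 j, mul_one]
  rw [hmain]
  exact Fr.mul_mem hNmem hDinv

end Fourier

end Fermat.Agent.S40x.Ell.BOrdCore
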