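import Mathlib
import Fermat.Agent.S40x.Ell.BOrdCoset

/-!
P-S40 study (research mode), R4, leaf B-ord (helper14): the main theorem, abstract form.

`K` a field, `A` a valuation subring, `E = W'⁄K` with integral coefficients, `I` a set of
automorphisms of `K`, `p` a prime of the maximal ideal, `ζ` a primitive `p`-th root of unity,
`hfix` (invariant elements of the maximal ideal are divisible by `p`).  `S` is a point of order `p`
in the kernel of reduction on which `I` acts through the cyclotomic character, `T` a point outside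
the kernel of reduction such that `2 (T + n S)` is never in the kernel of reduction (`hψ`).

`bord_core` : there is a unit `b` of `A` such that `σ b = ζ ^ c * b` whenever `σ ∈ I` and
`σ T = T + c S`.  (Kummer-character form of "the extension generated by `T` is peu ramifiée".)
-/

set_option autoImplicit false

namespace Fermat.Agent.S40x.Ell.BOrdCore

open WeierstrassCurve WeierstrassCurve.Affine Fermat.Agent.Lib.EC
open Fermat.Agent.S40x.Ell.BOrdTrace Fermat.Agent.S40x.Ell.BOrdVal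
  Fermat.Agent.S40x.Ell.BOrdFourier

variable {R : Type*} {F : Type*} {K : Type*} [CommRing R] [CommRing F] [Field K] [DecidableEq K]
  {W' : Affine R} [Algebra R F] [Algebra R K] [Algebra F K] [IsScalarTower R F K]

section Main

variable (A : ValuationSubring K) {p : ℕ} [Fact p.Prime] {ζ : K}

omit [DecidableEq K] in
/-- A point outside the kernel of reduction is affine with integral coordinates. -/
theorem exists_some_of_not_kerRed (hE : IsIntegralOver A (W'⁄K)) {Q : (W'⁄K).Point}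
    (hQ : ¬ KerRed A Q) :
    ∃ x y, ∃ h : (W'⁄K).Nonsingular x y, Q = Point.some x y h ∧ x ∈ A ∧ y ∈ A := by
  rcases Q with _ | ⟨x, y, h⟩
  · exact absurd trivial hQ
  · refine ⟨x, y, h, rfl, ?_, ?_⟩
    · by_contra hx
      exact hQ ((kerRed_some A h).mpr hx)
    · by_contra hy
      exact hQ ((kerRed_some_iff_y hE h).mpr hy)

omit [DecidableEq K] in
theorem val_natCast_eq_one (hvp : A.valuation (p : K) < 1) {d : ℕ} (hd : ¬ p ∣ d) :
    A.valuation (d : K) = 1 := by
  rcases lt_or_eq_of_le (val_natCast_le_one A.valuation d) with h | h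
  · exact absurd (natCast_dvd_of_val_lt_one A.valuation hvp d h) hd
  · exact h

theorem val_zc_nsmul (hE : IsIntegralOver A (W'⁄K)) {S : (W'⁄K).Point} (hS : KerRed A S)
    (hS0 : S ≠ 0) (hvp : A.valuation (p : K) < 1) {d : ℕ} (hd : ¬ p ∣ d) :
    A.valuation (Kernel.zc (d • S)) = A.valuation (Kernel.zc S) := by
  have hI := hE.isIntegralAt
  have hnear := (kerRed_iff_near A _).mp hS
  have h := (Kernel.nsmul_estimate A.valuation hI hnear d).2
  have hz1 := Kernel.val_zc_lt_one A.valuation hI hnear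
  have hz0 := Kernel.val_zc_ne_zero A.valuation hI hnear hS0
  have h2 : A.valuation ((d : K) * Kernel.zc S) = A.valuation (Kernel.zc S) := by
    rw [map_mul, val_natCast_eq_one A hvp hd, one_mul]
  have h3 : A.valuation (Kernel.zc (d • S) - (d : K) * Kernel.zc S) <
      A.valuation ((d : K) * Kernel.zc S) := by
    rw [h2]
    refine lt_of_le_of_lt h ?_
    rw [sq]
    calc A.valuation (Kernel.zc S) * A.valuation (Kernel.zc S)
        < 1 * A.valuation (Kernel.zc S) := mul_lt_mul_of_pos_right hz1 (zero_lt_iff.mpr hz0)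
      _ = A.valuation (Kernel.zc S) := one_mul _
  have h4 : Kernel.zc (d • S) =
      (Kernel.zc (d • S) - (d : K) * Kernel.zc S) + (d : K) * Kernel.zc S := by ring
  rw [h4, Valuation.map_add_eq_of_lt_right _ h3, h2]

/-- Moving an integral point by a nonzero point of the kernel of reduction changes `x` by an
element of the valuation of the chart coordinate (when `2 c` does not reduce to `0`). -/
theorem val_xc_add_sub (hE : IsIntegralOver A (W'⁄K)) {x₁ y₁ : K}
    (h₁ : (W'⁄K).Nonsingular x₁ y₁) (hx₁ : x₁ ∈ A) (hy₁ : y₁ ∈ A)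
    (hψ : A.valuation (2 * y₁ + (W'⁄K).a₁ * x₁ + (W'⁄K).a₃) = 1)
    {Q : (W'⁄K).Point} (hQ : KerRed A Q) (hQ0 : Q ≠ 0) :
    A.valuation (xc (Point.some x₁ y₁ h₁ + Q) - x₁) = A.valuation (Kernel.zc Q) := by
  have hI := hE.isIntegralAt
  have hnear := (kerRed_iff_near A _).mp hQ
  have hz1 := Kernel.val_zc_lt_one A.valuation hI hnear
  have hz0 := Kernel.val_zc_ne_zero A.valuation hI hnear hQ0
  have hzpos : 0 < A.valuation (Kernel.zc Q) := zero_lt_iff.mpr hz0
  have hk := val_kap A hE hQ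
  have ho := val_omg A hE hQ
  have hD := val_mixDen A hx₁ (val_kap_lt_one A hE hQ)
  have hD0 : mixDen x₁ (kap Q) ≠ 0 := by
    intro h0
    rw [h0, map_zero] at hD
    exact zero_ne_one hD
  obtain ⟨g1, g2, g3, g4, g6⟩ := hE
  let X₁ : A := ⟨x₁, hx₁⟩
  let Y₁ : A := ⟨y₁, hy₁⟩
  let Φ : A := X₁ ^ 2 + (⟨_, g2⟩ * X₁ + ⟨_, g2⟩ * X₁) + ⟨_, g4⟩ - ⟨_, g1⟩ * Y₁ + (X₁ ^ 2 + X₁ ^ 2)
  let Θ : A := ⟨_, g4⟩ * X₁ + (⟨_, g6⟩ + ⟨_, g6⟩) - ⟨_, g3⟩ * Y₁ - X₁ ^ 3
  have hΦ : A.valuation ((Φ : A) : K) ≤ 1 := A.valuation_le_one _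
  have hΘ : A.valuation ((Θ : A) : K) ≤ 1 := A.valuation_le_one _
  have hsplit : mixNum (W'⁄K) x₁ y₁ (kap Q) (omg Q) - x₁ * mixDen x₁ (kap Q) =
      (2 * y₁ + (W'⁄K).a₁ * x₁ + (W'⁄K).a₃) * omg Q +
        (((Φ : A) : K) * kap Q + ((Θ : A) : K) * kap Q ^ 2) := by
    simp only [mixNum, mixDen, Φ, Θ, X₁, Y₁]
    push_cast
    ring
  have h1 : A.valuation ((2 * y₁ + (W'⁄K).a₁ * x₁ + (W'⁄K).a₃) * omg Q) =
      A.valuation (Kernel.zc Q) := by rw [map_mul, hψ, one_mul, ho]
  have hsq : A.valuation (Kernel.zc Q) ^ 2 < A.valuation (Kernel.zc Q) := by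
    rw [sq]
    calc A.valuation (Kernel.zc Q) * A.valuation (Kernel.zc Q)
        < 1 * A.valuation (Kernel.zc Q) := mul_lt_mul_of_pos_right hz1 hzpos
      _ = A.valuation (Kernel.zc Q) := one_mul _
  have h2 : A.valuation (((Φ : A) : K) * kap Q + ((Θ : A) : K) * kap Q ^ 2) ≤
      A.valuation (Kernel.zc Q) ^ 2 := by
    refine (A.valuation).map_add_le ?_ ?_
    · rw [map_mul, hk]
      exact mul_le_of_le_one_left' hΦ
    · rw [map_mul, map_pow, hk]
      refine (mul_le_of_le_one_left' hΘ).trans ?_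
      rw [← pow_mul]
      exact pow_le_pow_of_le_one zero_le hz1.le (by norm_num)
  have h3 : A.valuation (mixNum (W'⁄K) x₁ y₁ (kap Q) (omg Q) - x₁ * mixDen x₁ (kap Q)) =
      A.valuation (Kernel.zc Q) := by
    rw [hsplit, Valuation.map_add_eq_of_lt_left _ (by rw [h1]; exact lt_of_le_of_lt h2 hsq), h1]
  have hxa := xc_add A h₁ hx₁ hQ
  have h4 : xc (Point.some x₁ y₁ h₁ + Q) - x₁ =
      (mixNum (W'⁄K) x₁ y₁ (kap Q) (omg Q) - x₁ * mixDen x₁ (kap Q)) / mixDen x₁ (kap Q) := by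
    rw [hxa]
    field_simp
  rw [h4, map_div₀, hD, div_one, h3]

/-- **B-ord, abstract core.** -/
theorem bord_core (hζ : IsPrimitiveRoot ζ p) (hp0 : (p : K) ≠ 0) (hvp : A.valuation (p : K) < 1)
    (I : Set (K ≃ₐ[F] K))
    (hfix : ∀ y : K, A.valuation y < 1 → (∀ σ ∈ I, σ y = y) → A.valuation y ≤ A.valuation (p : K))
    (hE : IsIntegralOver A (W'⁄K)) {S T : (W'⁄K).Point} (hS : KerRed A S) (hS0 : S ≠ 0)
    (hpS : p • S = 0)
    (hIS : ∀ σ ∈ I, ∃ e : (ZMod p)ˣ, σ ζ = ζ ^ (e : ZMod p).val ∧ σ • S = (e : ZMod p).val • S)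
    (hT : ¬ KerRed A T)
    (hψ : ∀ n : ℕ, ∀ x y, ∀ h : (W'⁄K).Nonsingular x y, T + n • S = Point.some x y h →
      A.valuation (2 * y + (W'⁄K).a₁ * x + (W'⁄K).a₃) = 1) :
    ∃ b : K, A.valuation b = 1 ∧ ∀ σ ∈ I, ∀ c : ℕ, σ • T = T + c • S → σ b = ζ ^ c * b := by
  classical
  have hp : p.Prime := Fact.out
  have : Fact (1 < p) := ⟨hp.one_lt⟩
  have hI := hE.isIntegralAt
  have hζ1 : A.valuation ζ = 1 := val_eq_one_of_pow_eq_one _ hp.ne_zero hζ.pow_eq_one
  set q := A.valuation (ζ - 1) with hq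
  have hzS : A.valuation (Kernel.zc S) = q := val_zc_eq A hζ hp0 hvp I hfix hE hS hS0 hpS hIS
  have hker : ∀ n : ℕ, KerRed A (n • S) := kerRed_nsmul hE hS
  have hcoset : ∀ n : ℕ, ¬ KerRed A (T + n • S) := by
    intro n hn
    apply hT
    have := kerRed_sub hE hn (hker n)
    rwa [add_sub_cancel_right] at this
  have hnz : ∀ d : ℕ, ¬ p ∣ d → d • S ≠ 0 := by
    intro d hd h0
    have := val_zc_nsmul A hE hS hS0 hvp hd
    rw [h0, Kernel.zc_zero, map_zero] at this
    exact (Kernel.val_zc_ne_zero A.valuation hI ((kerRed_iff_near A _).mp hS) hS0) this.symm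
  set tK : ℕ → K := fun n => xc (T + n • S) with htK
  have hdiff : ∀ n d : ℕ, ¬ p ∣ d → A.valuation (tK (n + d) - tK n) = q := by
    intro n d hd
    obtain ⟨x₁, y₁, h₁, e₁, hx₁, hy₁⟩ := exists_some_of_not_kerRed A hE (hcoset n)
    have hψ₁ := hψ n x₁ y₁ h₁ e₁
    have e2 : T + (n + d) • S = Point.some x₁ y₁ h₁ + d • S := by
      rw [add_nsmul, ← add_assoc, e₁]
    simp only [htK]
    rw [e2, e₁]
    show A.valuation (xc (Point.some x₁ y₁ h₁ + d • S) - x₁) = q
    rw [val_xc_add_sub A hE h₁ hx₁ hy₁ hψ₁ (hker d) (hnz d hd), val_zc_nsmul A hE hS hS0 hvp hd,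
      hzS]
  have htA : ∀ n : ℕ, A.valuation (tK n) ≤ 1 := by
    intro n
    obtain ⟨x₁, y₁, h₁, e₁, hx₁, hy₁⟩ := exists_some_of_not_kerRed A hE (hcoset n)
    simp only [htK]
    rw [e₁]
    exact (A.valuation_le_one_iff _).mpr hx₁
  -- Fourier membership
  obtain ⟨x₀, y₀, h₀, e₀, hx₀, hy₀⟩ := exists_some_of_not_kerRed A hE hT
  have hmem := xc_coset_mem_fourier A hζ hp0 I hfix hE hS hpS hIS h₀ hx₀ hy₀
  rw [← e₀] at hmem
  set t : Fin p → A := fun j => toA A (tK j) with ht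
  have htc : ∀ j : Fin p, ((t j : A) : K) = tK j := fun j => coe_toA_of_val_le A (htA j)
  have hζc : ((toA A ζ : A) : K) = ζ := coe_toA_of_val_le A hζ1.le
  have hζA : IsPrimitiveRoot (toA A ζ) p :=
    IsPrimitiveRoot.of_map_of_injective (f := A.subtype)
      (by rw [show A.subtype (toA A ζ) = ζ from hζc]; exact hζ) Subtype.coe_injective
  have hcoef : ∀ a : Fin p, ∃ m : Fin p → A, ∀ j : Fin p,
      t j ^ (a : ℕ) = ∑ i : Fin p, m i * (toA A ζ) ^ ((i : ℕ) * (j : ℕ)) := fun a =>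
    exists_coeff_of_mem_fourier hp.pos hζA.pow_eq_one
      (Subalgebra.pow_mem _ hmem (a : ℕ))
  choose m hm using hcoef
  have hdvd : ∀ j j' : Fin p, j ≠ j' → t j - t j' ∣ toA A ζ - 1 := by
    intro j j' hjj'
    apply dvd_of_val_le
    push_cast
    rw [htc, htc, hζc]
    rcases lt_or_gt_of_ne (Fin.val_ne_of_ne hjj') with hlt | hgt
    · have hd : ¬ p ∣ ((j' : ℕ) - j) := fun h => by
        have := Nat.le_of_dvd (by omega) h
        have := j'.2
        omega
      have h5 := hdiff j ((j' : ℕ) - j) hd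
      rw [show (j : ℕ) + ((j' : ℕ) - j) = j' by omega] at h5
      have h6 : A.valuation (tK j - tK j') = q := by
        rw [← Valuation.map_neg, neg_sub]
        exact h5
      rw [h6]
    · have hd : ¬ p ∣ ((j : ℕ) - j') := fun h => by
        have := Nat.le_of_dvd (by omega) h
        have := j.2
        omega
      have h5 := hdiff j' ((j : ℕ) - j') hd
      rw [show (j' : ℕ) + ((j : ℕ) - j') = j by omega] at h5
      rw [h5]
  obtain ⟨a, ha⟩ := BOrdUnit.exists_isUnit_coeff hp hζA t m hm hdvd ⟨1, hp.one_lt⟩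
  refine ⟨((m a ⟨1, hp.one_lt⟩ : A) : K), (A.valuation_eq_one_iff _).mp ha, ?_⟩
  intro σ hσ c hc
  obtain ⟨e, he1, he2⟩ := hIS σ hσ
  set G : ZMod p → K := fun j => tK j.val ^ (a : ℕ) with hG
  set M : ZMod p → K := fun i => ((m a ((finZ p).symm i) : A) : K) with hM
  have hexp : ∀ j, G j = ∑ i, M i * chr hζ (i * j) := by
    intro j
    have h1 := congrArg (fun z : A => (z : K)) (hm a ((finZ p).symm j))
    push_cast at h1
    rw [htc, hζc] at h1
    rw [sum_zmod_eq_sum_fin]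
    simp only [hG]
    have hj : (((finZ p).symm j : Fin p) : ℕ) = j.val := rfl
    rw [hj] at h1
    rw [h1]
    refine Finset.sum_congr rfl fun i _ => ?_
    have hMi : M ((i : ℕ) : ZMod p) = ((m a i : A) : K) := by
      simp only [hM]
      have : (finZ p).symm (((i : ℕ) : ZMod p)) = i := (finZ p).symm_apply_apply i
      rw [this]
    rw [hMi]
    congr 1
    have : ((i : ℕ) : ZMod p) * j = (((i : ℕ) * j.val : ℕ) : ZMod p) := by
      push_cast
      rw [ZMod.natCast_zmod_val]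
    rw [this, AddChar.zmodChar_apply']
  have hcs : coeffSum hζ G 1 = (p : K) * M 1 := coeffSum_of_expansion hζ G M hexp 1
  have hM1 : M 1 = ((m a ⟨1, hp.one_lt⟩ : A) : K) := by
    simp only [hM]
    have : (finZ p).symm (1 : ZMod p) = ⟨1, hp.one_lt⟩ := Fin.ext (ZMod.val_one p)
    rw [this]
  have hGσ : ∀ j : ZMod p, σ (G j) = G ((c : ZMod p) + e * j) := by
    intro j
    simp only [hG, htK]
    rw [map_pow, ← xc_smul, smul_add, smul_nsmul_pt, hc, he2]
    congr 2
    rw [add_assoc]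
    congr 1
    have h6 : ((c : ZMod p) + e * j) = ((c + (e : ZMod p).val * j.val : ℕ) : ZMod p) := by
      push_cast
      rw [ZMod.natCast_zmod_val, ZMod.natCast_zmod_val]
    rw [h6, val_nsmul hpS, add_nsmul, mul_nsmul]
  have hfin := map_coeffSum_shift hζ (σ : K →+* K) e he1 (c : ZMod p) G hGσ 1
  rw [hcs, hM1, one_mul, AddChar.zmodChar_apply', map_mul, map_natCast] at hfin
  have h7 : (p : K) * σ ((m a ⟨1, hp.one_lt⟩ : A) : K) =
      (p : K) * (ζ ^ c * ((m a ⟨1, hp.one_lt⟩ : A) : K)) := by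
    rw [mul_left_comm]
    exact hfin
  exact mul_left_cancel₀ hp0 h7

end Main

end Fermat.Agent.S40x.Ell.BOrdCore
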