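import Mathlib
import Fermat.Agent.Lib.EC.ReductionTorsion
import Fermat.Agent.S56x.Flat.InertiaField
import Fermat.Agent.S40x.Ell.BOrdMain

/-!
P-S40 study (research mode), R4, leaf B-ord (helper14): the concrete statement.

`W` a Weierstrass curve over `ℤ`, `p` an odd prime of good reduction, `P` a valuation subring of
`Qbar` over `p`, `I = P.inertiaSubgroupIn ℚ`.  `S` a point of order `p` in the kernel of reduction
on which `I` acts through the cyclotomic character, `T` a `p`-torsion point outside the kernel of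
reduction.

`bord` : there is a unit `b` of `P` (`P.valuation b = 1`) with `σ b = ζ ^ c * b` whenever `σ ∈ I`, `σ T = T + c S`.
`bord_fixes` : consequently `b ^ p` is `I`-invariant, and every `τ ∈ I` fixing `ζ` and `b` fixes
`T` (the extension cut out by `T` over the inertia field is generated by `ζ` and a `p`-th root of
the unit `b ^ p` of the ring of integers of the inertia field: "peu ramifiée").
-/

set_option autoImplicit false

namespace Fermat.Agent.S40x.Ell.BOrdQbar

open WeierstrassCurve WeierstrassCurve.Affine IsLocalRing Fermat.Agent.Lib.EC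
  Fermat.Agent.Lib.EC.ReductionTorsion Fermat.Agent.S40x.Ell.BOrdCore
  Fermat.Agent.S56x.Flat

/-! ### `2 Q ∉ KerRed` implies that `ψ(Q)` is a unit -/

section Psi

variable {K : Type*} [Field K] [DecidableEq K] {A : ValuationSubring K} {k : Type*} [Field k]
  [DecidableEq k] {π : A →+* k} [IsLocalHom π] {W : WeierstrassCurve K} {Wk : WeierstrassCurve k}

theorem val_psi_eq_one (hR : IsReduction π W Wk) (hΔ : Wk.Δ ≠ 0) {x y : K}
    (h : W.toAffine.Nonsingular x y) (hx : x ∈ A) (hy : y ∈ A)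
    (h2 : ¬ KerRed A (Point.some x y h + Point.some x y h : W.toAffine.Point)) :
    A.valuation (2 * y + W.a₁ * x + W.a₃) = 1 := by
  have hE0 := hR.isE0_of_Δ_ne_zero hΔ (Point.some x y h)
  have hmk := hR.redHom_eq_zero_iff hΔ (Point.some x y h + Point.some x y h)
  obtain ⟨W₀, rfl, rfl⟩ := hR
  have hns : (W₀.map π).toAffine.Nonsingular (res π x) (res π y) := hE0 hx
  let X : A := ⟨x, hx⟩
  let Y : A := ⟨y, hy⟩
  let ψ : A := Y + Y + W₀.a₁ * X + W₀.a₃
  have hψc : ((ψ : A) : K) = 2 * y + (W₀.map A.subtype).a₁ * x + (W₀.map A.subtype).a₃ := by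
    simp only [ψ, X, Y, WeierstrassCurve.map_a₁, WeierstrassCurve.map_a₃]
    push_cast
    rw [two_mul]
    rfl
  rw [← hψc]
  by_contra hne
  have hπ : π ψ = 0 := by
    by_contra h0
    exact hne ((pi_ne_zero_iff π ψ).mp h0)
  apply h2
  rw [← hmk]
  show (isReduction_map π W₀).redHom hΔ (Point.some x y h + Point.some x y h) = 0
  rw [map_add, IsReduction.redHom_apply, red_some_of_mem π h hx hy hns]
  refine Point.add_of_Y_eq rfl ?_
  have hrx : res π x = π X := res_of_mem π hx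
  have hry : res π y = π Y := res_of_mem π hy
  simp only [negY, WeierstrassCurve.map_a₁, WeierstrassCurve.map_a₃]
  rw [hrx, hry]
  simp only [ψ, map_add, map_mul] at hπ
  linear_combination hπ

end Psi

local notation "Qbar" => AlgebraicClosure ℚ

variable (W : WeierstrassCurve ℤ) {p : ℕ} [Fact p.Prime] (P : ValuationSubring Qbar)

theorem hfix_inertia (hP : P.LiesOverPrime p) (y : Qbar) (hy : P.valuation y < 1)
    (hfixed : ∀ σ ∈ (P.inertiaSubgroupIn ℚ : Set (Qbar ≃ₐ[ℚ] Qbar)), σ y = y) :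
    P.valuation y ≤ P.valuation (p : Qbar) := by
  obtain ⟨d, hd, rfl⟩ := InertiaField.div_mem_of_fixed P (Fact.out : p.Prime) hP y
    (P.mem_nonunits_iff.mpr hy) hfixed
  rw [map_mul]
  exact mul_le_of_le_one_right' ((P.valuation_le_one_iff d).mpr hd)

/-- **B-ord** (good reduction, `p` odd), Kummer-character form. -/
theorem bord (hp2 : p ≠ 2) (hP : P.LiesOverPrime p) (hgood : W.IsGoodPrimeFor p) {ζ : Qbar}
    (hζ : IsPrimitiveRoot ζ p) {S T : (curveQbar W).Point} (hS : KerRed P S) (hS0 : S ≠ 0)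
    (hpS : p • S = 0) (hpT : p • T = 0) (hT : ¬ KerRed P T)
    (hIS : ∀ σ ∈ P.inertiaSubgroupIn ℚ, ∃ e : (ZMod p)ˣ,
      σ ζ = ζ ^ (e : ZMod p).val ∧ σ • S = (e : ZMod p).val • S) :
    ∃ b : Qbar, P.valuation b = 1 ∧
      ∀ σ ∈ P.inertiaSubgroupIn ℚ, ∀ c : ℕ, σ • T = T + c • S → σ b = ζ ^ c * b := by
  have hp : p.Prime := Fact.out
  have : CharP (ResidueField P) p := charP_residueField P hp hP
  let _ : Algebra (ZMod p) (ResidueField P) := ZMod.algebra _ p
  let _ : DecidableEq (ResidueField P) := Classical.decEq _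
  have hR : IsReduction (residue P) (curveQbar W) (curveRes W p (ResidueField P)) :=
    isReduction_model W (residue P)
  have hΔ : (curveRes W p (ResidueField P)).Δ ≠ 0 := curveRes_Δ_ne_zero W hgood
  have hE : IsIntegralOver P (curveQbar W) := hR.isIntegralOver
  have hp0 : ((p : ℕ) : Qbar) ≠ 0 := Nat.cast_ne_zero.mpr hp.ne_zero
  have hvp : P.valuation ((p : ℕ) : Qbar) < 1 := P.mem_nonunits_iff.mp hP
  have hker : ∀ n : ℕ, KerRed P (n • S) := kerRed_nsmul hE hS
  obtain ⟨m, hm⟩ : ∃ m, p + 1 = 2 * m := by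
    rcases hp.eq_two_or_odd with h | h
    · exact absurd h hp2
    · exact ⟨(p + 1) / 2, by omega⟩
  have hψ : ∀ n : ℕ, ∀ x y, ∀ h : (curveQbar W).Nonsingular x y, T + n • S = Point.some x y h →
      P.valuation (2 * y + (curveQbar W).a₁ * x + (curveQbar W).a₃) = 1 := by
    intro n x y h e
    have hQ : ¬ KerRed P (T + n • S) := by
      intro hn
      apply hT
      have := kerRed_sub hE hn (hker n)
      rwa [add_sub_cancel_right] at this
    have hpQ : p • (T + n • S) = 0 := by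
      rw [nsmul_add, hpT, zero_add, ← mul_nsmul', mul_comm, mul_nsmul', hpS, nsmul_zero]
    obtain ⟨x', y', h', e', hx', hy'⟩ := exists_some_of_not_kerRed P hE hQ
    have hxy : x' = x ∧ y' = y := by
      rw [e'] at e
      have := Point.some.inj e
      exact ⟨this.1, this.2⟩
    obtain ⟨rfl, rfl⟩ := hxy
    refine val_psi_eq_one hR hΔ h hx' hy' ?_
    rw [← e]
    intro h2
    apply hQ
    have h3 : m • (T + n • S + (T + n • S)) = T + n • S := by
      rw [← two_nsmul, ← mul_nsmul', mul_comm, ← hm, add_nsmul, hpQ, zero_add, one_nsmul]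
    rw [← h3]
    exact kerRed_nsmul hE h2 m
  exact bord_core P hζ hp0 hvp (P.inertiaSubgroupIn ℚ : Set (Qbar ≃ₐ[ℚ] Qbar))
    (hfix_inertia P hP) hE hS hS0 hpS hIS hT hψ

/-- **B-ord**, consequence: the Kummer generator. -/
theorem bord_fixes (hp2 : p ≠ 2) (hP : P.LiesOverPrime p) (hgood : W.IsGoodPrimeFor p) {ζ : Qbar}
    (hζ : IsPrimitiveRoot ζ p) {S T : (curveQbar W).Point} (hS : KerRed P S) (hS0 : S ≠ 0)
    (hpS : p • S = 0) (hpT : p • T = 0) (hT : ¬ KerRed P T)
    (hIS : ∀ σ ∈ P.inertiaSubgroupIn ℚ, ∃ e : (ZMod p)ˣ,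
      σ ζ = ζ ^ (e : ZMod p).val ∧ σ • S = (e : ZMod p).val • S)
    (hIT : ∀ σ ∈ P.inertiaSubgroupIn ℚ, ∃ c : ℕ, σ • T = T + c • S) :
    ∃ b : Qbar, P.valuation b = 1 ∧ (∀ σ ∈ P.inertiaSubgroupIn ℚ, σ (b ^ p) = b ^ p) ∧
      ∀ τ ∈ P.inertiaSubgroupIn ℚ, τ ζ = ζ → τ b = b → τ • T = T := by
  obtain ⟨b, hb1, hb3⟩ := bord W P hp2 hP hgood hζ hS hS0 hpS hpT hT hIS
  have hb0 : b ≠ 0 := by
    rintro rfl
    rw [map_zero] at hb1
    exact zero_ne_one hb1
  refine ⟨b, hb1, ?_, ?_⟩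
  · intro σ hσ
    obtain ⟨c, hc⟩ := hIT σ hσ
    rw [map_pow, hb3 σ hσ c hc, mul_pow, ← pow_mul, mul_comm c p, pow_mul, hζ.pow_eq_one, one_pow,
      one_mul]
  · intro τ hτ _ hτb
    obtain ⟨c, hc⟩ := hIT τ hτ
    have h1 := hb3 τ hτ c hc
    rw [hτb] at h1
    have h2 : ζ ^ c = 1 := by
      have : ζ ^ c * b = 1 * b := by rw [one_mul]; exact h1.symm
      exact mul_right_cancel₀ hb0 this
    obtain ⟨d, rfl⟩ := (hζ.pow_eq_one_iff_dvd c).mp h2
    rw [hc, mul_nsmul, hpS, nsmul_zero, add_zero]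

end Fermat.Agent.S40x.Ell.BOrdQbar
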