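import Mathlib
import Fermat.Agent.S40x.Ell.BOrdQbar

/-!
P-S40 (S40-only path), elliptic side, good ordinary reduction (helper14): the "peu ramifiée"
statement (d) of the local shape, from `BOrdQbar.bord_fixes`.

`W` over `ℤ`, `p` an odd prime of good reduction, `P | p`, `I = P.inertiaSubgroupIn ℚ`.  Suppose the
`p`-torsion points of the kernel of reduction are the multiples of one point `S ≠ 0` (ordinary
case), `I` acts on `S` through the cyclotomic character (`hc`) and `(σ - 1) x ∈ ⟨S⟩` for every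
`p`-torsion point `x` and `σ ∈ I` (`hb`).  Then every `τ ∈ I` which fixes all `p`-th roots of all
units of the ring of integers of the inertia field fixes `W[p]` pointwise.
-/

set_option autoImplicit false

namespace Fermat.Agent.S40x.Ell.BOrdShape

open WeierstrassCurve WeierstrassCurve.Affine Fermat.Agent.Lib.EC
  Fermat.Agent.Lib.EC.ReductionTorsion Fermat.Agent.S40x.Ell.BOrdCore
  Fermat.Agent.S40x.Ell.BOrdQbar Fermat.Agent.S56x.Flat

local notation "Qbar" => AlgebraicClosure ℚ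

variable (W : WeierstrassCurve ℤ) {p : ℕ} [Fact p.Prime] (P : ValuationSubring Qbar)

/-- From the exponent form of the cyclotomic action to the unit form used by `bord`. -/
theorem hIS_of_exponent (hP : P.LiesOverPrime p) {ζ : Qbar} (hζ : IsPrimitiveRoot ζ p)
    {S : (curveQbar W).Point} (hpS : p • S = 0)
    (hc : ∀ σ ∈ P.inertiaSubgroupIn ℚ, ∀ a : ℕ, (∀ μ : Qbar, μ ^ p = 1 → σ μ = μ ^ a) →
      σ • S = a • S) :
    ∀ σ ∈ P.inertiaSubgroupIn ℚ, ∃ e : (ZMod p)ˣ,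
      σ ζ = ζ ^ (e : ZMod p).val ∧ σ • S = (e : ZMod p).val • S := by
  have hp : p.Prime := Fact.out
  intro σ hσ
  obtain ⟨a, ha⟩ := InertiaField.exists_cyclotomic_exponent P hp hP σ
  have hane : (a : ZMod p) ≠ 0 := by
    intro h0
    have hdvd : p ∣ a := (ZMod.natCast_eq_zero_iff a p).mp h0
    have h1 := ha ζ hζ.pow_eq_one
    rw [(hζ.pow_eq_one_iff_dvd a).mpr hdvd] at h1
    have h2 : ζ = 1 := σ.injective (by rw [h1, map_one])
    exact hζ.ne_one hp.one_lt h2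
  refine ⟨Units.mk0 (a : ZMod p) hane, ?_, ?_⟩
  · rw [Units.val_mk0, ZMod.val_natCast, ← pow_eq_pow_mod a hζ.pow_eq_one]
    exact ha ζ hζ.pow_eq_one
  · rw [Units.val_mk0, ZMod.val_natCast, mod_nsmul hpS]
    exact hc σ hσ a ha

/-- **Peu ramifiée, good ordinary case.** -/
theorem good_ord_peu (hp2 : p ≠ 2) (hP : P.LiesOverPrime p) (hgood : W.IsGoodPrimeFor p)
    {S : (curveQbar W).Point} (hS : KerRed P S) (hS0 : S ≠ 0) (hpS : p • S = 0)
    (hgen : ∀ x : (curveQbar W).Point, p • x = 0 → KerRed P x → ∃ n : ℕ, x = n • S)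
    (hc : ∀ σ ∈ P.inertiaSubgroupIn ℚ, ∀ a : ℕ, (∀ μ : Qbar, μ ^ p = 1 → σ μ = μ ^ a) →
      σ • S = a • S)
    (hb : ∀ σ ∈ P.inertiaSubgroupIn ℚ, ∀ x : (curveQbar W).Point, p • x = 0 →
      ∃ c : ℕ, σ • x = x + c • S)
    {τ : Qbar ≃ₐ[ℚ] Qbar} (hτI : τ ∈ P.inertiaSubgroupIn ℚ)
    (hτ : ∀ b : Qbar, b ^ p ∈ InertiaField.inertiaInt P → b ^ p ∉ P.nonunits → τ b = b)
    (x : (curveQbar W).Point) (hx : p • x = 0) : τ • x = x := by
  have hp : p.Prime := Fact.out
  have : NeZero p := ⟨hp.ne_zero⟩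
  have : NeZero ((p : ℕ) : ℚ) := ⟨by exact_mod_cast hp.ne_zero⟩
  have : HasEnoughRootsOfUnity Qbar p := AlgebraicClosure.hasEnoughRootsOfUnity ℚ p
  obtain ⟨ζ, hζ⟩ := HasEnoughRootsOfUnity.exists_primitiveRoot Qbar p
  -- `τ` fixes the `p`-th roots of unity
  have hτμ : ∀ μ : Qbar, μ ^ p = 1 → τ μ = μ := by
    intro μ hμ
    apply hτ μ
    · rw [hμ]; exact (InertiaField.inertiaInt P).one_mem
    · rw [hμ]; exact InertiaField.one_notMem_nonunits P
  have hτS : τ • S = S := by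
    have := hc τ hτI 1 (fun μ hμ => by rw [pow_one]; exact hτμ μ hμ)
    rwa [one_nsmul] at this
  by_cases hxK : KerRed P x
  · obtain ⟨n, rfl⟩ := hgen x hx hxK
    rw [smul_nsmul_pt, hτS]
  · obtain ⟨b, hb1, hb2, hb3⟩ := bord_fixes W P hp2 hP hgood hζ hS hS0 hpS hx hxK
      (hIS_of_exponent W P hP hζ hpS hc) (fun σ hσ => hb σ hσ x hx)
    refine hb3 τ hτI (hτμ ζ hζ.pow_eq_one) (hτ b ?_ ?_)
    · refine ⟨?_, hb2⟩
      rw [← P.valuation_le_one_iff, map_pow, hb1, one_pow]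
    · rw [P.mem_nonunits_iff, map_pow, hb1, one_pow]
      exact lt_irrefl _

end Fermat.Agent.S40x.Ell.BOrdShape
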