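import Fermat.Agent.S40x.Ell.ChartDefs

/-!
# S40 research (R4, elliptic side): the chart law, pure algebra and valuation estimates (helper95)

* `key_chord`, `snd_on_line` : the chart line through two chart points;
* `law_origin_left`, `law_origin_right`, `law_inverse` : the chart formulas `sumZ`, `sumW` in the
  three degenerate cases (one of the points is the origin, or the points are opposite), including
  `2`-torsion points (`euler_tangent`);
* `chart_vieta`, `law_generic` : the generic case, transferring the `(x, y)` Vieta relations of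
  Mathlib's `addPolynomial_slope` to the chart;
* `val_chain` : all denominators are units and all intermediate quantities are small.
-/

set_option autoImplicit false

noncomputable section

namespace Fermat.Agent.S40x.Ell.ChartLaw

open Fermat.Agent.Lib.EC.Kernel

section Algebra

variable {K : Type*} [Field K] {a1 a2 a3 a4 a6 : K}

/-- the chord identity between two chart points. -/
theorem key_chord {z1 w1 z2 w2 : K} (hE1 : ChartEq a1 a2 a3 a4 a6 z1 w1)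
    (hE2 : ChartEq a1 a2 a3 a4 a6 z2 w2) :
    (w2 - w1) * chB a1 a2 a3 a4 a6 z1 w1 w2 = (z2 - z1) * chA a1 a2 a4 z1 z2 w2 := by
  unfold ChartEq at hE1 hE2
  unfold chA chB
  linear_combination hE2 - hE1

/-- the second point lies on the chart line. -/
theorem snd_on_line {z1 w1 z2 w2 : K} (hE1 : ChartEq a1 a2 a3 a4 a6 z1 w1)
    (hE2 : ChartEq a1 a2 a3 a4 a6 z2 w2) (hB : chB a1 a2 a3 a4 a6 z1 w1 w2 ≠ 0) :
    w2 = chLam a1 a2 a3 a4 a6 z1 w1 z2 w2 * z2 + chNu a1 a2 a3 a4 a6 z1 w1 z2 w2 := by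
  have h := key_chord hE1 hE2
  unfold chNu chLam
  field_simp
  linear_combination h

/-- a chart point on a line through the origin satisfies the quadratic
`C3 z^2 + (a1 lam + a3 lam^2) z - lam = 0` (after removing the root `0`). -/
theorem quad_of_chartEq {z w lam : K} (hE : ChartEq a1 a2 a3 a4 a6 z w) (hw : w = lam * z)
    (hz : z ≠ 0) :
    lam = z ^ 2 * chC3 a2 a4 a6 lam + z * (a1 * lam + a3 * lam ^ 2) := by
  unfold ChartEq at hE
  unfold chC3
  rw [hw] at hE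
  have h : z * (lam - (z ^ 2 * (1 + a2 * lam + a4 * lam ^ 2 + a6 * lam ^ 3)
      + z * (a1 * lam + a3 * lam ^ 2))) = 0 := by linear_combination hE
  rcases mul_eq_zero.mp h with h0 | h0
  · exact absurd h0 hz
  · linear_combination h0

/-- the third point of a line through the origin and a chart point `(z, w)`, `w = lam z`, is the
chart negative of `(z, w)`. -/
theorem third_of_origin {z w lam : K} (hquad : lam = z ^ 2 * chC3 a2 a4 a6 lam
      + z * (a1 * lam + a3 * lam ^ 2)) (hw : w = lam * z)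
    (hC3 : chC3 a2 a4 a6 lam ≠ 0) (hU : chU a1 a3 z w ≠ 0) :
    -z - (a1 * lam + a3 * lam ^ 2) / chC3 a2 a4 a6 lam = -z / chU a1 a3 z w := by
  generalize hc : chC3 a2 a4 a6 lam = c at *
  generalize hu : chU a1 a3 z w = u at *
  have hu' : u = 1 - a1 * z - a3 * (lam * z) := by
    rw [← hu, hw]; rfl
  field_simp
  rw [hu']
  linear_combination (-(a1 + a3 * lam)) * hquad

/-- the chart negation is an involution. -/
theorem chart_neg_neg {z w : K} (hU : chU a1 a3 z w ≠ 0) :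
    chU a1 a3 (-z / chU a1 a3 z w) (-w / chU a1 a3 z w) = 1 / chU a1 a3 z w ∧
    -(-z / chU a1 a3 z w) / chU a1 a3 (-z / chU a1 a3 z w) (-w / chU a1 a3 z w) = z ∧
    -(-w / chU a1 a3 z w) / chU a1 a3 (-z / chU a1 a3 z w) (-w / chU a1 a3 z w) = w := by
  have h1 : chU a1 a3 (-z / chU a1 a3 z w) (-w / chU a1 a3 z w) = 1 / chU a1 a3 z w := by
    generalize hu : chU a1 a3 z w = u at *
    unfold chU at hu ⊢
    field_simp
    linear_combination (-1 : K) * hu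
  refine ⟨h1, ?_, ?_⟩
  · rw [h1]; field_simp
  · rw [h1]; field_simp

/-- Euler's identity: the tangent at a chart point with `chU = -1` (a `2`-torsion point) passes
through the origin. -/
theorem euler_tangent {z w : K} (hE : ChartEq a1 a2 a3 a4 a6 z w) (hU : chU a1 a3 z w = -1) :
    w * chB a1 a2 a3 a4 a6 z w w = z * chA a1 a2 a4 z z w := by
  unfold ChartEq at hE
  unfold chU at hU
  unfold chA chB
  linear_combination 3 * hE - w * hU

theorem chartEq_zero : ChartEq a1 a2 a3 a4 a6 (0 : K) 0 := by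
  unfold ChartEq; ring

/-- the chart law on a line through the origin: the common part. -/
theorem law_line_origin {z w lam : K} (hE : ChartEq a1 a2 a3 a4 a6 z w) (hw : w = lam * z)
    (hlam0 : z = 0 → lam = 0)
    (hC3 : chC3 a2 a4 a6 lam ≠ 0) (hU : chU a1 a3 z w ≠ 0) :
    -z - chC2 a1 a2 a3 a4 a6 lam 0 / chC3 a2 a4 a6 lam = -z / chU a1 a3 z w := by
  have hC2 : chC2 a1 a2 a3 a4 a6 lam 0 = a1 * lam + a3 * lam ^ 2 := by
    unfold chC2; ring
  rw [hC2]
  by_cases hz : z = 0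
  · rw [hlam0 hz, hz]; simp
  · exact third_of_origin (quad_of_chartEq hE hw hz) hw hC3 hU

/-- the chart law, first point the origin. -/
theorem law_origin_left {z w : K} (hE : ChartEq a1 a2 a3 a4 a6 z w)
    (hB : chB a1 a2 a3 a4 a6 0 0 w ≠ 0)
    (hC3 : chC3 a2 a4 a6 (chLam a1 a2 a3 a4 a6 0 0 z w) ≠ 0) (hU : chU a1 a3 z w ≠ 0) :
    sumZ a1 a2 a3 a4 a6 0 0 z w = z ∧ sumW a1 a2 a3 a4 a6 0 0 z w = w := by
  have hnu : chNu a1 a2 a3 a4 a6 0 0 z w = 0 := by unfold chNu; ring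
  have hline := snd_on_line chartEq_zero hE hB
  rw [hnu, add_zero] at hline
  have hlam0 : z = 0 → chLam a1 a2 a3 a4 a6 0 0 z w = 0 := by
    intro hz
    have hw0 : w = 0 := by rw [hline, hz, mul_zero]
    unfold chLam chA
    rw [hz, hw0]
    simp
  have hzS : chZS a1 a2 a3 a4 a6 0 0 z w = -z / chU a1 a3 z w := by
    have := law_line_origin hE hline hlam0 hC3 hU
    unfold chZS
    rw [hnu, neg_zero, zero_sub]
    exact this
  have hwS : chWS a1 a2 a3 a4 a6 0 0 z w = -w / chU a1 a3 z w := by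
    unfold chWS
    rw [hnu, add_zero, hzS]
    rw [mul_div_assoc', mul_neg, ← hline]
  obtain ⟨-, k2, k3⟩ := chart_neg_neg (a1 := a1) (a3 := a3) hU
  refine ⟨?_, ?_⟩
  · unfold sumZ; rw [hzS, hwS]; exact k2
  · unfold sumW; rw [hzS, hwS]; exact k3

/-- the chart law, second point the origin. -/
theorem law_origin_right {z w : K} (hE : ChartEq a1 a2 a3 a4 a6 z w)
    (hB : chB a1 a2 a3 a4 a6 z w 0 ≠ 0)
    (hC3 : chC3 a2 a4 a6 (chLam a1 a2 a3 a4 a6 z w 0 0) ≠ 0) (hU : chU a1 a3 z w ≠ 0) :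
    sumZ a1 a2 a3 a4 a6 z w 0 0 = z ∧ sumW a1 a2 a3 a4 a6 z w 0 0 = w := by
  have hline := snd_on_line hE chartEq_zero hB
  rw [mul_zero, zero_add] at hline
  have hnu : chNu a1 a2 a3 a4 a6 z w 0 0 = 0 := hline.symm
  have hw : w = chLam a1 a2 a3 a4 a6 z w 0 0 * z := by
    have := hnu
    unfold chNu at this
    exact sub_eq_zero.mp this
  have hlam0 : z = 0 → chLam a1 a2 a3 a4 a6 z w 0 0 = 0 := by
    intro hz
    unfold chLam chA
    rw [hz]
    simp
  have hzS : chZS a1 a2 a3 a4 a6 z w 0 0 = -z / chU a1 a3 z w := by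
    have := law_line_origin hE hw hlam0 hC3 hU
    unfold chZS
    rw [hnu, sub_zero]
    exact this
  have hwS : chWS a1 a2 a3 a4 a6 z w 0 0 = -w / chU a1 a3 z w := by
    unfold chWS
    rw [hnu, add_zero, hzS]
    rw [mul_div_assoc', mul_neg, ← hw]
  obtain ⟨-, k2, k3⟩ := chart_neg_neg (a1 := a1) (a3 := a3) hU
  refine ⟨?_, ?_⟩
  · unfold sumZ; rw [hzS, hwS]; exact k2
  · unfold sumW; rw [hzS, hwS]; exact k3

/-- the chart law, opposite points. -/
theorem law_inverse {z1 w1 z2 w2 : K} (hE1 : ChartEq a1 a2 a3 a4 a6 z1 w1)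
    (hE2 : ChartEq a1 a2 a3 a4 a6 z2 w2) (hz1 : z1 ≠ 0)
    (hU : chU a1 a3 z1 w1 ≠ 0) (hz2 : z2 = -z1 / chU a1 a3 z1 w1)
    (hw2 : w2 = -w1 / chU a1 a3 z1 w1)
    (hB : chB a1 a2 a3 a4 a6 z1 w1 w2 ≠ 0)
    (hC3 : chC3 a2 a4 a6 (chLam a1 a2 a3 a4 a6 z1 w1 z2 w2) ≠ 0) :
    sumZ a1 a2 a3 a4 a6 z1 w1 z2 w2 = 0 ∧ sumW a1 a2 a3 a4 a6 z1 w1 z2 w2 = 0 := by
  -- the line passes through the origin
  have hline : w1 * chB a1 a2 a3 a4 a6 z1 w1 w2 = z1 * chA a1 a2 a4 z1 z2 w2 := by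
    by_cases hk : chU a1 a3 z1 w1 = -1
    · have e1 : z2 = z1 := by rw [hz2, hk]; field_simp
      have e2 : w2 = w1 := by rw [hw2, hk]; field_simp
      rw [e1, e2]
      exact euler_tangent hE1 hk
    · have h := key_chord hE1 hE2
      have hk' : -1 / chU a1 a3 z1 w1 - 1 ≠ 0 := by
        intro h0
        apply hk
        have : -1 / chU a1 a3 z1 w1 = 1 := sub_eq_zero.mp h0
        rw [div_eq_iff hU, one_mul] at this
        exact this.symm
      have e1 : z2 - z1 = (-1 / chU a1 a3 z1 w1 - 1) * z1 := by rw [hz2]; ring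
      have e2 : w2 - w1 = (-1 / chU a1 a3 z1 w1 - 1) * w1 := by rw [hw2]; ring
      rw [e1, e2, mul_assoc, mul_assoc] at h
      exact mul_left_cancel₀ hk' h
  have hw : w1 = chLam a1 a2 a3 a4 a6 z1 w1 z2 w2 * z1 := by
    unfold chLam
    field_simp
    linear_combination hline
  have hnu : chNu a1 a2 a3 a4 a6 z1 w1 z2 w2 = 0 := by
    unfold chNu
    exact sub_eq_zero.mpr hw
  have h3 := law_line_origin hE1 hw (fun h => absurd h hz1) hC3 hU
  have hzS : chZS a1 a2 a3 a4 a6 z1 w1 z2 w2 = 0 := by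
    unfold chZS
    rw [hnu, sub_right_comm, h3, ← hz2, sub_self]
  have hwS : chWS a1 a2 a3 a4 a6 z1 w1 z2 w2 = 0 := by
    unfold chWS
    rw [hnu, hzS, mul_zero, add_zero]
  refine ⟨?_, ?_⟩
  · unfold sumZ; rw [hzS]; simp
  · unfold sumW; rw [hwS]; simp

/-- chart Vieta from the `(x, y)` Vieta relations. -/
theorem chart_vieta {x1 x2 xS L M : K}
    (hM : M ≠ 0)
    (e1 : x1 + x2 + xS = L ^ 2 + a1 * L - a2)
    (e2 : x1 * x2 + x1 * xS + x2 * xS = a4 - 2 * L * M - a1 * M - a3 * L)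
    (e3 : x1 * x2 * xS = M ^ 2 + a3 * M - a6)
    (hy1 : L * x1 + M ≠ 0) (hy2 : L * x2 + M ≠ 0) (hyS : L * xS + M ≠ 0) :
    (1 + a2 * (-L / M) + a4 * (-L / M) ^ 2 + a6 * (-L / M) ^ 3) ≠ 0 ∧
    -x1 / (L * x1 + M) + -x2 / (L * x2 + M) + -xS / (L * xS + M) =
      -(a1 * (-L / M) + a2 * (-1 / M) + a3 * (-L / M) ^ 2 + 2 * a4 * (-L / M) * (-1 / M)
          + 3 * a6 * (-L / M) ^ 2 * (-1 / M)) /
        (1 + a2 * (-L / M) + a4 * (-L / M) ^ 2 + a6 * (-L / M) ^ 3) := by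
  have hprod : (L * x1 + M) * (L * x2 + M) * (L * xS + M) =
      -a6 * L ^ 3 + a4 * L ^ 2 * M - a2 * L * M ^ 2 + M ^ 3 := by
    have : (L * x1 + M) * (L * x2 + M) * (L * xS + M) =
        L ^ 3 * (x1 * x2 * xS) + L ^ 2 * M * (x1 * x2 + x1 * xS + x2 * xS)
          + L * M ^ 2 * (x1 + x2 + xS) + M ^ 3 := by ring
    rw [this, e1, e2, e3]; ring
  have hsum : x1 * ((L * x2 + M) * (L * xS + M)) + x2 * ((L * x1 + M) * (L * xS + M))
      + xS * ((L * x1 + M) * (L * x2 + M)) =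
      a3 * L ^ 2 * M - 3 * a6 * L ^ 2 + 2 * a4 * L * M - a1 * L * M ^ 2 - a2 * M ^ 2 := by
    have : x1 * ((L * x2 + M) * (L * xS + M)) + x2 * ((L * x1 + M) * (L * xS + M))
      + xS * ((L * x1 + M) * (L * x2 + M)) =
        3 * L ^ 2 * (x1 * x2 * xS) + 2 * L * M * (x1 * x2 + x1 * xS + x2 * xS)
          + M ^ 2 * (x1 + x2 + xS) := by ring
    rw [this, e1, e2, e3]; ring
  have hC3 : (1 + a2 * (-L / M) + a4 * (-L / M) ^ 2 + a6 * (-L / M) ^ 3) =
      ((L * x1 + M) * (L * x2 + M) * (L * xS + M)) / M ^ 3 := by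
    rw [hprod]; field_simp; ring
  have hne : ((L * x1 + M) * (L * x2 + M) * (L * xS + M)) ≠ 0 :=
    mul_ne_zero (mul_ne_zero hy1 hy2) hyS
  refine ⟨?_, ?_⟩
  · rw [hC3]; exact div_ne_zero hne (pow_ne_zero 3 hM)
  · rw [hC3]
    have hlhs : -x1 / (L * x1 + M) + -x2 / (L * x2 + M) + -xS / (L * xS + M) =
        -(x1 * ((L * x2 + M) * (L * xS + M)) + x2 * ((L * x1 + M) * (L * xS + M))
          + xS * ((L * x1 + M) * (L * x2 + M))) /
          ((L * x1 + M) * (L * x2 + M) * (L * xS + M)) := by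
      rw [div_add_div _ _ hy1 hy2, div_add_div _ _ (mul_ne_zero hy1 hy2) hyS]
      congr 1
      ring
    rw [hlhs, hsum]
    field_simp
    ring

/-- the chart law, generic case (Vieta transfer). -/
theorem law_generic {x1 y1 x2 y2 xS L M : K}
    (hM : M ≠ 0) (hl1 : y1 = L * x1 + M) (hl2 : y2 = L * x2 + M)
    (e1 : x1 + x2 + xS = L ^ 2 + a1 * L - a2)
    (e2 : x1 * x2 + x1 * xS + x2 * xS = a4 - 2 * L * M - a1 * M - a3 * L)
    (e3 : x1 * x2 * xS = M ^ 2 + a3 * M - a6)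
    (hy1 : y1 ≠ 0) (hy2 : y2 ≠ 0) (hyS : L * xS + M ≠ 0)
    (hB : chB a1 a2 a3 a4 a6 (-x1 / y1) (-1 / y1) (-1 / y2) ≠ 0)
    (hlam : (-L / M) * chB a1 a2 a3 a4 a6 (-x1 / y1) (-1 / y1) (-1 / y2) =
      chA a1 a2 a4 (-x1 / y1) (-x2 / y2) (-1 / y2))
    (hne : L * xS + M + a1 * xS + a3 ≠ 0) :
    sumZ a1 a2 a3 a4 a6 (-x1 / y1) (-1 / y1) (-x2 / y2) (-1 / y2) =
        -xS / (-(L * xS + M) - a1 * xS - a3) ∧
      sumW a1 a2 a3 a4 a6 (-x1 / y1) (-1 / y1) (-x2 / y2) (-1 / y2) =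
        -1 / (-(L * xS + M) - a1 * xS - a3) := by
  have hLam : chLam a1 a2 a3 a4 a6 (-x1 / y1) (-1 / y1) (-x2 / y2) (-1 / y2) = -L / M := by
    unfold chLam
    rw [div_eq_iff hB]
    exact hlam.symm
  have hNu : chNu a1 a2 a3 a4 a6 (-x1 / y1) (-1 / y1) (-x2 / y2) (-1 / y2) = -1 / M := by
    unfold chNu
    rw [hLam]
    field_simp
    linear_combination hl1
  have hy1' : L * x1 + M ≠ 0 := hl1 ▸ hy1
  have hy2' : L * x2 + M ≠ 0 := hl2 ▸ hy2
  obtain ⟨hC3ne, hV⟩ := chart_vieta hM e1 e2 e3 hy1' hy2' hyS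
  rw [← hl1, ← hl2] at hV
  have hzS : chZS a1 a2 a3 a4 a6 (-x1 / y1) (-1 / y1) (-x2 / y2) (-1 / y2) =
      -xS / (L * xS + M) := by
    unfold chZS chC2 chC3
    rw [hLam, hNu]
    linear_combination (-1 : K) * hV
  have hwS : chWS a1 a2 a3 a4 a6 (-x1 / y1) (-1 / y1) (-x2 / y2) (-1 / y2) =
      -1 / (L * xS + M) := by
    unfold chWS
    rw [hLam, hNu, hzS]
    field_simp
    ring
  have hne' : -(L * xS + M) - a1 * xS - a3 ≠ 0 := by
    intro h0
    apply hne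
    linear_combination (-1 : K) * h0
  unfold sumZ sumW
  rw [hzS, hwS]
  unfold chU
  generalize L * xS + M = Y at *
  have hU : 1 - a1 * (-xS / Y) - a3 * (-1 / Y) = (Y + a1 * xS + a3) / Y := by
    field_simp
    ring
  rw [hU]
  refine ⟨?_, ?_⟩
  · rw [div_div_eq_mul_div, div_eq_div_iff hne hne']
    field_simp
    ring
  · rw [div_div_eq_mul_div, div_eq_div_iff hne hne']
    field_simp
    ring

end Algebra

section Val

variable {K : Type*} [Field K] {Γ₀ : Type*} [LinearOrderedCommGroupWithZero Γ₀]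
  (v : Valuation K Γ₀) {a1 a2 a3 a4 a6 : K}

/-- all the valuation estimates along the chart law. -/
theorem val_chain {z1 w1 z2 w2 : K} {c : Γ₀} (h1 : v a1 ≤ 1) (h2 : v a2 ≤ 1)
    (h3 : v a3 ≤ 1) (h4 : v a4 ≤ 1) (h6 : v a6 ≤ 1) (hc : c < 1)
    (vz1 : v z1 ≤ c) (vz2 : v z2 ≤ c) (vw1 : v w1 ≤ c ^ 3) (vw2 : v w2 ≤ c ^ 3) :
    v (chB a1 a2 a3 a4 a6 z1 w1 w2) = 1 ∧
    v (chLam a1 a2 a3 a4 a6 z1 w1 z2 w2) ≤ c ^ 2 ∧
    v (chNu a1 a2 a3 a4 a6 z1 w1 z2 w2) ≤ c ^ 3 ∧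
    v (chC3 a2 a4 a6 (chLam a1 a2 a3 a4 a6 z1 w1 z2 w2)) = 1 ∧
    v (chZS a1 a2 a3 a4 a6 z1 w1 z2 w2) ≤ c ∧
    v (chWS a1 a2 a3 a4 a6 z1 w1 z2 w2) ≤ c ^ 3 ∧
    v (chU a1 a3 (chZS a1 a2 a3 a4 a6 z1 w1 z2 w2) (chWS a1 a2 a3 a4 a6 z1 w1 z2 w2)) = 1 := by
  have hc1 : c ≤ 1 := hc.le
  have hc2 : c ^ 2 ≤ c := pow_le_self hc1 (by norm_num)
  have hc3 : c ^ 3 ≤ c ^ 2 := pow_le_pow_of_le_one hc1 (by norm_num)
  have hc21 : c ^ 2 < 1 := lt_of_le_of_lt hc2 hc
  have hB : v (chB a1 a2 a3 a4 a6 z1 w1 w2) = 1 := val_D v h1 h2 h3 h4 h6 hc vz1 vw1 vw2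
  have hA : v (chA a1 a2 a4 z1 z2 w2) ≤ c ^ 2 := val_N v h1 h2 h4 hc vz1 vz2 vw2
  have hlam : v (chLam a1 a2 a3 a4 a6 z1 w1 z2 w2) ≤ c ^ 2 := by
    unfold chLam
    rw [map_div₀, hB, div_one]
    exact hA
  set lam := chLam a1 a2 a3 a4 a6 z1 w1 z2 w2 with hlamdef
  have hlam1 : v lam ≤ 1 := hlam.trans hc21.le
  have hnu : v (chNu a1 a2 a3 a4 a6 z1 w1 z2 w2) ≤ c ^ 3 := by
    unfold chNu
    rw [← hlamdef]
    refine (v.map_sub_le vw1 ?_)
    have : c ^ 3 = c ^ 2 * c := by rw [pow_succ]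
    rw [this]
    exact val_mul_le v hlam vz1
  set nu := chNu a1 a2 a3 a4 a6 z1 w1 z2 w2 with hnudef
  have hnu2 : v nu ≤ c ^ 2 := hnu.trans hc3
  have hnu1 : v nu ≤ 1 := hnu2.trans hc21.le
  have hC3 : v (chC3 a2 a4 a6 lam) = 1 := by
    unfold chC3
    have hsm : v (a2 * lam + a4 * lam ^ 2 + a6 * lam ^ 3) < 1 := by
      refine lt_of_le_of_lt (v.map_add_le (g := c ^ 2) (v.map_add_le ?_ ?_) ?_) hc21
      · exact val_mul_le_of_le_one v h2 hlam
      · refine val_mul_le_of_le_one v h4 ?_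
        rw [sq]
        exact val_mul_le_of_le_one v hlam1 hlam
      · refine val_mul_le_of_le_one v h6 ?_
        have : lam ^ 3 = lam * (lam * lam) := by ring
        rw [this]
        exact val_mul_le_of_le_one v hlam1 (val_mul_le_of_le_one v hlam1 hlam)
    have : 1 + a2 * lam + a4 * lam ^ 2 + a6 * lam ^ 3 =
        1 + (a2 * lam + a4 * lam ^ 2 + a6 * lam ^ 3) := by ring
    rw [this]
    exact v.map_one_add_of_lt hsm
  have hC2 : v (chC2 a1 a2 a3 a4 a6 lam nu) ≤ c ^ 2 := by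
    unfold chC2
    refine v.map_add_le (v.map_add_le (v.map_add_le (v.map_add_le ?_ ?_) ?_) ?_) ?_
    · exact val_mul_le_of_le_one v h1 hlam
    · exact val_mul_le_of_le_one v h2 hnu2
    · refine val_mul_le_of_le_one v h3 ?_
      rw [sq]
      exact val_mul_le_of_le_one v hlam1 hlam
    · have : 2 * a4 * lam * nu = 2 * (a4 * (lam * nu)) := by ring
      rw [this]
      refine val_mul_le_of_le_one v (val_two_le_one v) ?_
      refine val_mul_le_of_le_one v h4 ?_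
      exact val_mul_le_of_le_one v hlam1 hnu2
    · have : 3 * a6 * lam ^ 2 * nu = 3 * (a6 * (lam ^ 2 * nu)) := by ring
      rw [this]
      refine val_mul_le_of_le_one v (val_three_le_one v) ?_
      refine val_mul_le_of_le_one v h6 ?_
      refine val_mul_le_of_le_one v ?_ hnu2
      exact (val_pow_le v hlam1 2).trans (by rw [one_pow])
  have hzS : v (chZS a1 a2 a3 a4 a6 z1 w1 z2 w2) ≤ c := by
    unfold chZS
    rw [← hlamdef, ← hnudef]
    refine v.map_sub_le (v.map_sub_le ?_ vz2) ?_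
    · rw [Valuation.map_neg]; exact vz1
    · rw [map_div₀, hC3, div_one]
      exact hC2.trans hc2
  set zS := chZS a1 a2 a3 a4 a6 z1 w1 z2 w2 with hzSdef
  have hwS : v (chWS a1 a2 a3 a4 a6 z1 w1 z2 w2) ≤ c ^ 3 := by
    unfold chWS
    rw [← hlamdef, ← hnudef, ← hzSdef]
    refine v.map_add_le ?_ hnu
    have : c ^ 3 = c ^ 2 * c := by rw [pow_succ]
    rw [this]
    exact val_mul_le v hlam hzS
  set wS := chWS a1 a2 a3 a4 a6 z1 w1 z2 w2 with hwSdef
  have hU : v (chU a1 a3 zS wS) = 1 := by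
    unfold chU
    have hsm : v (a1 * zS + a3 * wS) < 1 := by
      refine lt_of_le_of_lt (v.map_add_le (g := c) ?_ ?_) hc
      · exact val_mul_le_of_le_one v h1 hzS
      · exact val_mul_le_of_le_one v h3 ((hwS.trans hc3).trans hc2)
    have : 1 - a1 * zS - a3 * wS = 1 - (a1 * zS + a3 * wS) := by ring
    rw [this]
    exact v.map_one_sub_of_lt hsm
  exact ⟨hB, hlam, hnu, hC3, hzS, hwS, hU⟩

end Val

end Fermat.Agent.S40x.Ell.ChartLaw
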