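import Mathlib
import Fermat.Agent.S56x.Flat.InertiaField

/-!
# S40 research (R4, elliptic side), POLYNOMIALISATION LEMMA (helper95)

`P` a valuation subring of `ℚ̄`, `O = inertiaInt P` the ring of integers of its inertia field,
`Z` a finite set on which the inertia group acts by bijections, `M` an `O`-algebra of functions
`Z → ℚ̄`.

`inv_mem_of_unit_valued` : an inertia-equivariant function `D ∈ M` all of whose values are units of
`P` has its pointwise inverse in `M`.  Indeed `χ(T) = ∏_z (T - D z)` has coefficients in `O`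
(they are in `P` and fixed by the inertia group, which permutes the factors), its constant term
`± ∏_z D z` is a unit of `O`, and `χ(D z) = 0` for every `z`; so `(D z)⁻¹` is a polynomial in `D z`
with coefficients in `O`, the same polynomial for all `z`.

Consequence (used for the chart group law of a Weierstrass curve on the kernel of reduction): a
rational function of exactly equivariant integral coordinates whose denominator is `1 + small` is a
POLYNOMIAL in these coordinates over `O`, as a function on the finite set.  No power series, no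
approximation.
-/

set_option autoImplicit false
set_option linter.unusedSectionVars false

noncomputable section

namespace Fermat.Agent.S40x.Ell.PolyInv

open Fermat.Agent.S56x.Flat.InertiaField Polynomial

local notation "Qbar" => AlgebraicClosure ℚ
local notation "Γℚ" => (AlgebraicClosure ℚ ≃ₐ[ℚ] AlgebraicClosure ℚ)

variable (P : ValuationSubring Qbar) {Z : Type*} [Fintype Z] (actZ : Γℚ → Z → Z)

/-- the polynomial `∏_z (T - D z)`. -/
def charPolyFn (D : Z → Qbar) : Qbar[X] := ∏ z : Z, (X - C (D z))

theorem charPolyFn_eval (D : Z → Qbar) (z : Z) : (charPolyFn D).eval (D z) = 0 := by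
  unfold charPolyFn
  rw [eval_prod]
  exact Finset.prod_eq_zero (Finset.mem_univ z) (by simp)

theorem charPolyFn_coeff_zero (D : Z → Qbar) :
    (charPolyFn D).coeff 0 = ∏ z : Z, (- D z) := by
  unfold charPolyFn
  rw [coeff_zero_eq_eval_zero, eval_prod]
  simp

/-- the coefficients of `∏_z (T - D z)` are in `P` when the values of `D` are. -/
theorem charPolyFn_coeff_mem {D : Z → Qbar} (hint : ∀ z, D z ∈ P) (n : ℕ) :
    (charPolyFn D).coeff n ∈ P := by
  have h : charPolyFn D ∈ Polynomial.lifts (P.toSubring.subtype) := by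
    unfold charPolyFn
    refine Subsemiring.prod_mem _ fun z _ => ?_
    have h1 : (X : Qbar[X]) ∈ Polynomial.lifts (P.toSubring.subtype) := X_mem_lifts _
    have h2 : C (D z) ∈ Polynomial.lifts (P.toSubring.subtype) :=
      C_mem_lifts (P.toSubring.subtype) ⟨D z, hint z⟩
    have h3 : X - C (D z) ∈ Polynomial.liftsRing (P.toSubring.subtype) :=
      Subring.sub_mem _ h1 h2
    exact h3
  rw [lifts_iff_coeff_lifts] at h
  obtain ⟨c, hc⟩ := h n
  rw [← hc]
  exact c.2

/-- the coefficients of `∏_z (T - D z)` are fixed by the inertia group when `D` is equivariant. -/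
theorem charPolyFn_coeff_fixed {D : Z → Qbar}
    (hbij : ∀ τ ∈ P.inertiaSubgroupIn ℚ, Function.Bijective (actZ τ))
    (heq : ∀ τ ∈ P.inertiaSubgroupIn ℚ, ∀ z, D (actZ τ z) = τ (D z))
    (τ : Γℚ) (hτ : τ ∈ P.inertiaSubgroupIn ℚ) (n : ℕ) :
    τ ((charPolyFn D).coeff n) = (charPolyFn D).coeff n := by
  have h1 : (charPolyFn D).map (τ : Qbar →+* Qbar) = charPolyFn D := by
    unfold charPolyFn
    rw [Polynomial.map_prod]
    have h2 : ∀ z : Z, (X - C (D z)).map (τ : Qbar →+* Qbar) = X - C (D (actZ τ z)) := by
      intro z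
      rw [Polynomial.map_sub, map_X, map_C, heq τ hτ z]
      rfl
    rw [Finset.prod_congr rfl fun z _ => h2 z]
    exact Function.Bijective.prod_comp (hbij τ hτ) fun z => X - C (D z)
  have h3 := congrArg (fun q : Qbar[X] => q.coeff n) h1
  simp only [coeff_map] at h3
  exact h3

/-- **Polynomialisation**: the pointwise inverse of an equivariant unit-valued function of an
`inertiaInt P`-algebra of functions on a finite set belongs to the algebra. -/
theorem inv_mem_of_unit_valued
    (hbij : ∀ τ ∈ P.inertiaSubgroupIn ℚ, Function.Bijective (actZ τ))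
    (M : Subalgebra (inertiaInt P) (Z → Qbar)) {D : Z → Qbar} (hD : D ∈ M)
    (heq : ∀ τ ∈ P.inertiaSubgroupIn ℚ, ∀ z, D (actZ τ z) = τ (D z))
    (hint : ∀ z, D z ∈ P) (hunit : ∀ z, D z ∉ P.nonunits) :
    (fun z => (D z)⁻¹) ∈ M := by
  classical
  -- the characteristic polynomial over `inertiaInt P`
  have hlift : charPolyFn D ∈ Polynomial.lifts ((inertiaInt P).subtype) := by
    rw [lifts_iff_coeff_lifts]
    intro n
    exact ⟨⟨_, (mem_inertiaInt P).mpr
      ⟨charPolyFn_coeff_mem P hint n, fun τ hτ => charPolyFn_coeff_fixed P actZ hbij heq τ hτ n⟩⟩,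
      rfl⟩
  obtain ⟨χ₀, hχ₀'⟩ := hlift
  have hχ₀ : χ₀.map (inertiaInt P).subtype = charPolyFn D := hχ₀'
  -- constant term is a unit
  have hc0 : ((χ₀.coeff 0 : inertiaInt P) : Qbar) = ∏ z : Z, (- D z) := by
    have := congrArg (fun q : Qbar[X] => q.coeff 0) hχ₀
    simp only [coeff_map] at this
    rw [← charPolyFn_coeff_zero]
    exact this
  have hunit0 : IsUnit (χ₀.coeff 0) := by
    rw [isUnit_inertiaInt_iff, hc0]
    -- a product of units of `P` is a unit of `P`
    have key : ∀ s : Finset Z, (∏ z ∈ s, (- D z)) ∈ P ∧ (∏ z ∈ s, (- D z)) ∉ P.nonunits := by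
      intro s
      induction s using Finset.induction_on with
      | empty =>
        rw [Finset.prod_empty]
        exact ⟨P.one_mem, one_notMem_nonunits P⟩
      | insert a s ha ih =>
        rw [Finset.prod_insert ha]
        have hu : ∀ x : Qbar, x ∈ P → x ∉ P.nonunits → P.valuation x = 1 := by
          intro x hx hxn
          rw [ValuationSubring.mem_nonunits_iff] at hxn
          exact le_antisymm ((P.valuation_le_one_iff x).mpr hx) (not_lt.mp hxn)
        have ha1 : P.valuation (- D a) = 1 := by
          rw [Valuation.map_neg]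
          exact hu _ (hint a) (hunit a)
        have hs1 : P.valuation (∏ z ∈ s, (- D z)) = 1 := hu _ ih.1 ih.2
        have hprod : P.valuation (- D a * ∏ z ∈ s, (- D z)) = 1 := by
          rw [map_mul, ha1, hs1, one_mul]
        refine ⟨(P.valuation_le_one_iff _).mp hprod.le, ?_⟩
        rw [ValuationSubring.mem_nonunits_iff, hprod]
        exact lt_irrefl _
    exact (key Finset.univ).2
  obtain ⟨e, he⟩ := hunit0
  -- `χ₀ = X * divX χ₀ + C (coeff 0)` evaluated at `D z`
  have hval : ∀ z, D z * (((divX χ₀).map (inertiaInt P).subtype).eval (D z)) +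
      ((χ₀.coeff 0 : inertiaInt P) : Qbar) = 0 := by
    intro z
    have h1 : (χ₀.map (inertiaInt P).subtype).eval (D z) = 0 := by
      rw [hχ₀]
      exact charPolyFn_eval D z
    have h2 : χ₀ = X * divX χ₀ + C (χ₀.coeff 0) := (X_mul_divX_add χ₀).symm
    rw [h2] at h1
    simp only [Polynomial.map_add, Polynomial.map_mul, map_X, map_C, eval_add, eval_mul, eval_X,
      eval_C] at h1
    exact h1
  -- the inverse as an element of `M`
  have hq : (fun z => ((divX χ₀).map (inertiaInt P).subtype).eval (D z)) ∈ M := by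
    have h1 : (Polynomial.aeval (⟨D, hD⟩ : M) (divX χ₀) : M) ∈ (⊤ : Subalgebra (inertiaInt P) M) :=
      Algebra.mem_top
    have h2 : ((Polynomial.aeval (⟨D, hD⟩ : M) (divX χ₀) : M) : Z → Qbar) =
        fun z => ((divX χ₀).map (inertiaInt P).subtype).eval (D z) := by
      rw [← Subalgebra.coe_val, ← Polynomial.aeval_algHom_apply]
      funext z
      show Pi.evalAlgHom (inertiaInt P) (fun _ : Z => Qbar) z (Polynomial.aeval D (divX χ₀)) = _
      rw [← Polynomial.aeval_algHom_apply (Pi.evalAlgHom (inertiaInt P) (fun _ : Z => Qbar) z)]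
      rw [Polynomial.eval_map, Polynomial.aeval_def]
      rfl
    rw [← h2]
    exact (Polynomial.aeval (⟨D, hD⟩ : M) (divX χ₀) : M).2
  have hfin : (fun z => (D z)⁻¹) =
      (-(↑(e⁻¹ : (inertiaInt P)ˣ) : inertiaInt P)) •
        (fun z => ((divX χ₀).map (inertiaInt P).subtype).eval (D z)) := by
    funext z
    have hDz : D z ≠ 0 := (inv_mem_of_notMem_nonunits P (hint z) (hunit z)).1
    have h1 := hval z
    have h2 : ((↑(e⁻¹ : (inertiaInt P)ˣ) : inertiaInt P) : Qbar) *
        ((χ₀.coeff 0 : inertiaInt P) : Qbar) = 1 := by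
      have : (↑(e⁻¹ : (inertiaInt P)ˣ) : inertiaInt P) * χ₀.coeff 0 = 1 := by
        rw [← he]
        exact Units.inv_mul e
      have := congrArg (fun c : inertiaInt P => (c : Qbar)) this
      simpa using this
    show (D z)⁻¹ = ((-(↑(e⁻¹ : (inertiaInt P)ˣ) : inertiaInt P) : inertiaInt P) : Qbar) *
      ((divX χ₀).map (inertiaInt P).subtype).eval (D z)
    set q := ((divX χ₀).map (inertiaInt P).subtype).eval (D z)
    set c0 := ((χ₀.coeff 0 : inertiaInt P) : Qbar)
    set ei := ((↑(e⁻¹ : (inertiaInt P)ˣ) : inertiaInt P) : Qbar)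
    have h3 : ((-(↑(e⁻¹ : (inertiaInt P)ˣ) : inertiaInt P) : inertiaInt P) : Qbar) = - ei := by
      simp [ei]
    rw [h3]
    have h4 : D z * q = - c0 := by linear_combination h1
    have h5 : D z * (- ei * q) = 1 := by
      calc D z * (- ei * q) = - ei * (D z * q) := by ring
        _ = - ei * (- c0) := by rw [h4]
        _ = ei * c0 := by ring
        _ = 1 := h2
    exact (eq_inv_of_mul_eq_one_right h5).symm
  rw [hfin]
  exact M.smul_mem hq _

end Fermat.Agent.S40x.Ell.PolyInv
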