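import Fermat.Agent.S40x.Ell.ChartDefs
import Fermat.Agent.S40x.Ell.PolyInv

/-!
# S40 research (R4, elliptic side): the chart law is POLYNOMIAL on finite inertia-stable sets
(helper95)

`Zs` a finite set with an action of the inertia group of `P`, `M` an `inertiaInt P`-algebra of
inertia-equivariant `P`-integral functions on `Zs`, `Z1 W1 Z2 W2 ∈ M` (the chart coordinates of two
varying points of the kernel of reduction), the three denominators of the chart law unit-valued.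
Then the chart coordinates `sumZ`, `sumW` of the sum are again in `M`
(`sum_mem_of_chartLaw`): the three divisions are performed inside `M` by
`PolyInv.inv_mem_of_unit_valued`.
-/

set_option autoImplicit false
set_option linter.unusedSectionVars false

noncomputable section

namespace Fermat.Agent.S40x.Ell.ChartComul

open Fermat.Agent.S56x.Flat.InertiaField Fermat.Agent.S40x.Ell.ChartLaw
  Fermat.Agent.S40x.Ell.PolyInv

local notation "Qbar" => AlgebraicClosure ℚ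
local notation "Γℚ" => (AlgebraicClosure ℚ ≃ₐ[ℚ] AlgebraicClosure ℚ)

variable (P : ValuationSubring Qbar) {Zs : Type*} [Fintype Zs] (actZ : Γℚ → Zs → Zs)

theorem mem_and_not_nonunits_of_val_eq_one {x : Qbar} (h : P.valuation x = 1) :
    x ∈ P ∧ x ∉ P.nonunits := by
  refine ⟨(P.valuation_le_one_iff x).mp h.le, ?_⟩
  rw [ValuationSubring.mem_nonunits_iff, h]
  exact lt_irrefl _

/-- constants of `inertiaInt P` as functions. -/
theorem const_mem (M : Subalgebra (inertiaInt P) (Zs → Qbar)) (c : inertiaInt P) :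
    (fun _ : Zs => (c : Qbar)) ∈ M := by
  have h := M.algebraMap_mem c
  have e : (algebraMap (inertiaInt P) (Zs → Qbar) c) = fun _ : Zs => (c : Qbar) := by
    funext q
    rw [Pi.algebraMap_apply]
    rfl
  rwa [e] at h

/-- **The chart law inside an algebra of functions.** -/
theorem sum_mem_of_chartLaw
    (hbij : ∀ τ ∈ P.inertiaSubgroupIn ℚ, Function.Bijective (actZ τ))
    (M : Subalgebra (inertiaInt P) (Zs → Qbar))
    (hMeq : ∀ F ∈ M, ∀ τ ∈ P.inertiaSubgroupIn ℚ, ∀ q, F (actZ τ q) = τ (F q))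
    (hMint : ∀ F ∈ M, ∀ q, F q ∈ P)
    (c1 c2 c3 c4 c6 : inertiaInt P)
    {Z1 W1 Z2 W2 : Zs → Qbar} (hZ1 : Z1 ∈ M) (hW1 : W1 ∈ M) (hZ2 : Z2 ∈ M) (hW2 : W2 ∈ M)
    (hB : ∀ q, P.valuation (chB (c1 : Qbar) c2 c3 c4 c6 (Z1 q) (W1 q) (W2 q)) = 1)
    (hC3 : ∀ q, P.valuation (chC3 (c2 : Qbar) c4 c6
      (chLam (c1 : Qbar) c2 c3 c4 c6 (Z1 q) (W1 q) (Z2 q) (W2 q))) = 1)
    (hU : ∀ q, P.valuation (chU (c1 : Qbar) c3
      (chZS (c1 : Qbar) c2 c3 c4 c6 (Z1 q) (W1 q) (Z2 q) (W2 q))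
      (chWS (c1 : Qbar) c2 c3 c4 c6 (Z1 q) (W1 q) (Z2 q) (W2 q))) = 1) :
    (fun q => sumZ (c1 : Qbar) c2 c3 c4 c6 (Z1 q) (W1 q) (Z2 q) (W2 q)) ∈ M ∧
    (fun q => sumW (c1 : Qbar) c2 c3 c4 c6 (Z1 q) (W1 q) (Z2 q) (W2 q)) ∈ M := by
  have k1 := const_mem P M c1
  have k2 := const_mem P M c2
  have k3 := const_mem P M c3
  have k4 := const_mem P M c4
  have k6 := const_mem P M c6
  have kone : (fun _ : Zs => (1 : Qbar)) ∈ M := M.one_mem
  have ktwo : (fun _ : Zs => (2 : Qbar)) ∈ M := M.add_mem kone kone |> fun h => by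
    have e : (fun _ : Zs => (2 : Qbar)) = (fun _ : Zs => (1 : Qbar)) + fun _ : Zs => (1 : Qbar) := by
      funext q; simp [Pi.add_apply]; norm_num
    rw [e]; exact h
  have kthree : (fun _ : Zs => (3 : Qbar)) ∈ M := by
    have e : (fun _ : Zs => (3 : Qbar)) = (fun _ : Zs => (2 : Qbar)) + fun _ : Zs => (1 : Qbar) := by
      funext q; simp [Pi.add_apply]; norm_num
    rw [e]; exact M.add_mem ktwo kone
  -- inversion inside `M`
  have inv : ∀ D : Zs → Qbar, D ∈ M → (∀ q, P.valuation (D q) = 1) →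
      (fun q => (D q)⁻¹) ∈ M := by
    intro D hD hv
    exact inv_mem_of_unit_valued P actZ hbij M hD (hMeq D hD) (hMint D hD)
      (fun q => (mem_and_not_nonunits_of_val_eq_one P (hv q)).2)
  -- the slope
  have hFA : (fun q => chA (c1 : Qbar) c2 c4 (Z1 q) (Z2 q) (W2 q)) ∈ M := by
    unfold chA
    exact M.add_mem (M.add_mem (M.add_mem (M.add_mem (M.add_mem (M.pow_mem hZ2 2)
      (M.mul_mem hZ1 hZ2)) (M.pow_mem hZ1 2)) (M.mul_mem k1 hW2))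
      (M.mul_mem (M.mul_mem k2 (M.add_mem hZ1 hZ2)) hW2)) (M.mul_mem k4 (M.pow_mem hW2 2))
  have hFB : (fun q => chB (c1 : Qbar) c2 c3 c4 c6 (Z1 q) (W1 q) (W2 q)) ∈ M := by
    unfold chB
    exact M.sub_mem (M.sub_mem (M.sub_mem (M.sub_mem (M.sub_mem kone (M.mul_mem k1 hZ1))
      (M.mul_mem k2 (M.pow_mem hZ1 2))) (M.mul_mem k3 (M.add_mem hW1 hW2)))
      (M.mul_mem (M.mul_mem k4 hZ1) (M.add_mem hW1 hW2)))
      (M.mul_mem k6 (M.add_mem (M.add_mem (M.pow_mem hW2 2) (M.mul_mem hW1 hW2)) (M.pow_mem hW1 2)))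
  have hLam : (fun q => chLam (c1 : Qbar) c2 c3 c4 c6 (Z1 q) (W1 q) (Z2 q) (W2 q)) ∈ M := by
    unfold chLam
    have := M.mul_mem hFA (inv _ hFB hB)
    have e : (fun q => chA (c1 : Qbar) c2 c4 (Z1 q) (Z2 q) (W2 q) /
        chB (c1 : Qbar) c2 c3 c4 c6 (Z1 q) (W1 q) (W2 q)) =
        (fun q => chA (c1 : Qbar) c2 c4 (Z1 q) (Z2 q) (W2 q)) *
          fun q => (chB (c1 : Qbar) c2 c3 c4 c6 (Z1 q) (W1 q) (W2 q))⁻¹ := by
      funext q; rw [Pi.mul_apply, div_eq_mul_inv]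
    rw [e]; exact this
  have hNu : (fun q => chNu (c1 : Qbar) c2 c3 c4 c6 (Z1 q) (W1 q) (Z2 q) (W2 q)) ∈ M := by
    unfold chNu
    exact M.sub_mem hW1 (M.mul_mem hLam hZ1)
  -- the cubic on the line
  have hFC3 : (fun q => chC3 (c2 : Qbar) c4 c6
      (chLam (c1 : Qbar) c2 c3 c4 c6 (Z1 q) (W1 q) (Z2 q) (W2 q))) ∈ M := by
    unfold chC3
    exact M.add_mem (M.add_mem (M.add_mem kone (M.mul_mem k2 hLam))
      (M.mul_mem k4 (M.pow_mem hLam 2))) (M.mul_mem k6 (M.pow_mem hLam 3))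
  have hFC2 : (fun q => chC2 (c1 : Qbar) c2 c3 c4 c6
      (chLam (c1 : Qbar) c2 c3 c4 c6 (Z1 q) (W1 q) (Z2 q) (W2 q))
      (chNu (c1 : Qbar) c2 c3 c4 c6 (Z1 q) (W1 q) (Z2 q) (W2 q))) ∈ M := by
    unfold chC2
    exact M.add_mem (M.add_mem (M.add_mem (M.add_mem (M.mul_mem k1 hLam) (M.mul_mem k2 hNu))
      (M.mul_mem k3 (M.pow_mem hLam 2))) (M.mul_mem (M.mul_mem (M.mul_mem ktwo k4) hLam) hNu))
      (M.mul_mem (M.mul_mem (M.mul_mem kthree k6) (M.pow_mem hLam 2)) hNu)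
  have hZS : (fun q => chZS (c1 : Qbar) c2 c3 c4 c6 (Z1 q) (W1 q) (Z2 q) (W2 q)) ∈ M := by
    unfold chZS
    have h := M.mul_mem hFC2 (inv _ hFC3 hC3)
    have e : (fun q => -Z1 q - Z2 q - chC2 (c1 : Qbar) c2 c3 c4 c6
        (chLam (c1 : Qbar) c2 c3 c4 c6 (Z1 q) (W1 q) (Z2 q) (W2 q))
        (chNu (c1 : Qbar) c2 c3 c4 c6 (Z1 q) (W1 q) (Z2 q) (W2 q)) /
        chC3 (c2 : Qbar) c4 c6 (chLam (c1 : Qbar) c2 c3 c4 c6 (Z1 q) (W1 q) (Z2 q) (W2 q))) =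
        (-Z1 - Z2) - ((fun q => chC2 (c1 : Qbar) c2 c3 c4 c6
        (chLam (c1 : Qbar) c2 c3 c4 c6 (Z1 q) (W1 q) (Z2 q) (W2 q))
        (chNu (c1 : Qbar) c2 c3 c4 c6 (Z1 q) (W1 q) (Z2 q) (W2 q))) *
        fun q => (chC3 (c2 : Qbar) c4 c6
          (chLam (c1 : Qbar) c2 c3 c4 c6 (Z1 q) (W1 q) (Z2 q) (W2 q)))⁻¹) := by
      funext q
      simp only [Pi.sub_apply, Pi.neg_apply, Pi.mul_apply, div_eq_mul_inv]
    rw [e]
    exact M.sub_mem (M.sub_mem (M.neg_mem hZ1) hZ2) h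
  have hWS : (fun q => chWS (c1 : Qbar) c2 c3 c4 c6 (Z1 q) (W1 q) (Z2 q) (W2 q)) ∈ M := by
    unfold chWS
    exact M.add_mem (M.mul_mem hLam hZS) hNu
  have hFU : (fun q => chU (c1 : Qbar) c3
      (chZS (c1 : Qbar) c2 c3 c4 c6 (Z1 q) (W1 q) (Z2 q) (W2 q))
      (chWS (c1 : Qbar) c2 c3 c4 c6 (Z1 q) (W1 q) (Z2 q) (W2 q))) ∈ M := by
    unfold chU
    exact M.sub_mem (M.sub_mem kone (M.mul_mem k1 hZS)) (M.mul_mem k3 hWS)
  have hUinv := inv _ hFU hU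
  refine ⟨?_, ?_⟩
  · unfold sumZ
    have h := M.mul_mem (M.neg_mem hZS) hUinv
    have e : (fun q => -chZS (c1 : Qbar) c2 c3 c4 c6 (Z1 q) (W1 q) (Z2 q) (W2 q) /
        chU (c1 : Qbar) c3 (chZS (c1 : Qbar) c2 c3 c4 c6 (Z1 q) (W1 q) (Z2 q) (W2 q))
          (chWS (c1 : Qbar) c2 c3 c4 c6 (Z1 q) (W1 q) (Z2 q) (W2 q))) =
        (-fun q => chZS (c1 : Qbar) c2 c3 c4 c6 (Z1 q) (W1 q) (Z2 q) (W2 q)) *
        fun q => (chU (c1 : Qbar) c3 (chZS (c1 : Qbar) c2 c3 c4 c6 (Z1 q) (W1 q) (Z2 q) (W2 q))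
          (chWS (c1 : Qbar) c2 c3 c4 c6 (Z1 q) (W1 q) (Z2 q) (W2 q)))⁻¹ := by
      funext q
      simp only [Pi.neg_apply, Pi.mul_apply, div_eq_mul_inv]
    rw [e]; exact h
  · unfold sumW
    have h := M.mul_mem (M.neg_mem hWS) hUinv
    have e : (fun q => -chWS (c1 : Qbar) c2 c3 c4 c6 (Z1 q) (W1 q) (Z2 q) (W2 q) /
        chU (c1 : Qbar) c3 (chZS (c1 : Qbar) c2 c3 c4 c6 (Z1 q) (W1 q) (Z2 q) (W2 q))
          (chWS (c1 : Qbar) c2 c3 c4 c6 (Z1 q) (W1 q) (Z2 q) (W2 q))) =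
        (-fun q => chWS (c1 : Qbar) c2 c3 c4 c6 (Z1 q) (W1 q) (Z2 q) (W2 q)) *
        fun q => (chU (c1 : Qbar) c3 (chZS (c1 : Qbar) c2 c3 c4 c6 (Z1 q) (W1 q) (Z2 q) (W2 q))
          (chWS (c1 : Qbar) c2 c3 c4 c6 (Z1 q) (W1 q) (Z2 q) (W2 q)))⁻¹ := by
      funext q
      simp only [Pi.neg_apply, Pi.mul_apply, div_eq_mul_inv]
    rw [e]; exact h

end Fermat.Agent.S40x.Ell.ChartComul
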