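import Mathlib
import Fermat.Agent.Lib.EC.Reduction.KernelGeneral

/-!
# S40 research (R4, elliptic side): the chart `(z, w) = (-x/y, -1/y)` of a Weierstrass curve,
definitions (helper95)

The EXACT group law of a Weierstrass curve in the chart `(z, w)` at the origin, as a composition
of rational functions each of whose denominators is `1 + (small)` on the kernel of reduction:

* `chLam = chA / chB` : the slope of the chart line through `(z1, w1)`, `(z2, w2)`
  (`chB = 1 + small`; the same formula gives the tangent when the two points coincide);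
* `chNu = w1 - chLam * z1` : its intercept;
* `chZS = -z1 - z2 - chC2 / chC3` : the `z`-coordinate of the third intersection point of the line
  with the chart cubic (`chC3 = 1 + small`), `chWS = chLam * chZS + chNu` its `w`-coordinate;
* `sumZ = -chZS / chU`, `sumW = -chWS / chU` : the chart negative of the third point
  (`chU = 1 - a1 z - a3 w = 1 + small`).

`wc` is the `w`-coordinate of a point (`0` at the origin), next to `Kernel.zc` of
`Lib/EC/Reduction/KernelGeneral`.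
-/

set_option autoImplicit false

noncomputable section

namespace Fermat.Agent.S40x.Ell.ChartLaw

open WeierstrassCurve WeierstrassCurve.Affine

section Defs

variable {K : Type*} [Field K] (a1 a2 a3 a4 a6 : K)

/-- numerator of the chart slope. -/
def chA (z1 z2 w2 : K) : K :=
  z2 ^ 2 + z1 * z2 + z1 ^ 2 + a1 * w2 + a2 * (z1 + z2) * w2 + a4 * w2 ^ 2

/-- denominator of the chart slope (`1 + small`). -/
def chB (z1 w1 w2 : K) : K :=
  1 - a1 * z1 - a2 * z1 ^ 2 - a3 * (w1 + w2) - a4 * z1 * (w1 + w2)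
    - a6 * (w2 ^ 2 + w1 * w2 + w1 ^ 2)

/-- leading coefficient of the chart cubic on the line `w = lam z + nu` (`1 + small`). -/
def chC3 (lam : K) : K := 1 + a2 * lam + a4 * lam ^ 2 + a6 * lam ^ 3

/-- second coefficient of the chart cubic on the line `w = lam z + nu`. -/
def chC2 (lam nu : K) : K :=
  a1 * lam + a2 * nu + a3 * lam ^ 2 + 2 * a4 * lam * nu + 3 * a6 * lam ^ 2 * nu

/-- the denominator of the negation in the chart (`1 + small`). -/
def chU (z w : K) : K := 1 - a1 * z - a3 * w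

/-- the chart slope of the line through two points. -/
def chLam (z1 w1 z2 w2 : K) : K := chA a1 a2 a4 z1 z2 w2 / chB a1 a2 a3 a4 a6 z1 w1 w2

/-- the intercept of the chart line. -/
def chNu (z1 w1 z2 w2 : K) : K := w1 - chLam a1 a2 a3 a4 a6 z1 w1 z2 w2 * z1

/-- `z` of the third point of the chart line. -/
def chZS (z1 w1 z2 w2 : K) : K :=
  -z1 - z2 - chC2 a1 a2 a3 a4 a6 (chLam a1 a2 a3 a4 a6 z1 w1 z2 w2) (chNu a1 a2 a3 a4 a6 z1 w1 z2 w2)
    / chC3 a2 a4 a6 (chLam a1 a2 a3 a4 a6 z1 w1 z2 w2)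

/-- `w` of the third point of the chart line. -/
def chWS (z1 w1 z2 w2 : K) : K :=
  chLam a1 a2 a3 a4 a6 z1 w1 z2 w2 * chZS a1 a2 a3 a4 a6 z1 w1 z2 w2 + chNu a1 a2 a3 a4 a6 z1 w1 z2 w2

/-- `z` of the sum. -/
def sumZ (z1 w1 z2 w2 : K) : K :=
  -chZS a1 a2 a3 a4 a6 z1 w1 z2 w2 /
    chU a1 a3 (chZS a1 a2 a3 a4 a6 z1 w1 z2 w2) (chWS a1 a2 a3 a4 a6 z1 w1 z2 w2)

/-- `w` of the sum. -/
def sumW (z1 w1 z2 w2 : K) : K :=
  -chWS a1 a2 a3 a4 a6 z1 w1 z2 w2 /
    chU a1 a3 (chZS a1 a2 a3 a4 a6 z1 w1 z2 w2) (chWS a1 a2 a3 a4 a6 z1 w1 z2 w2)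

/-- the chart equation. -/
def ChartEq (z w : K) : Prop :=
  w = z ^ 3 + a1 * z * w + a2 * z ^ 2 * w + a3 * w ^ 2 + a4 * z * w ^ 2 + a6 * w ^ 3

end Defs

section Points

variable {K : Type*} [Field K]

/-- The chart coordinate `w = -1/y` of a point (and `0` for the point at infinity). -/
def wc {W : Affine K} : W.Point → K
  | .zero => 0
  | .some _ y _ => -1 / y

@[simp] theorem wc_zero {W : Affine K} : wc (0 : W.Point) = 0 := rfl

@[simp] theorem wc_some {W : Affine K} {x y : K} (h : W.Nonsingular x y) :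
    wc (Point.some x y h) = -1 / y := rfl

/-- **The statement of the exact chart law** on the kernel of reduction (proved in
`ChartLaw.lean`): the three denominators are units and the two coordinates of the sum are given by
`sumZ`, `sumW`. -/
def ChartLawStatement {Γ₀ : Type*} [LinearOrderedCommGroupWithZero Γ₀] (v : Valuation K Γ₀)
    [DecidableEq K] (W : Affine K) : Prop :=
  ∀ P Q : W.Point, Fermat.Agent.Lib.EC.Kernel.Near v P → Fermat.Agent.Lib.EC.Kernel.Near v Q →
    let z1 := Fermat.Agent.Lib.EC.Kernel.zc P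
    let w1 := wc P
    let z2 := Fermat.Agent.Lib.EC.Kernel.zc Q
    let w2 := wc Q
    v (chB W.a₁ W.a₂ W.a₃ W.a₄ W.a₆ z1 w1 w2) = 1 ∧
    v (chC3 W.a₂ W.a₄ W.a₆ (chLam W.a₁ W.a₂ W.a₃ W.a₄ W.a₆ z1 w1 z2 w2)) = 1 ∧
    v (chU W.a₁ W.a₃ (chZS W.a₁ W.a₂ W.a₃ W.a₄ W.a₆ z1 w1 z2 w2)
      (chWS W.a₁ W.a₂ W.a₃ W.a₄ W.a₆ z1 w1 z2 w2)) = 1 ∧
    Fermat.Agent.Lib.EC.Kernel.zc (P + Q) = sumZ W.a₁ W.a₂ W.a₃ W.a₄ W.a₆ z1 w1 z2 w2 ∧
    wc (P + Q) = sumW W.a₁ W.a₂ W.a₃ W.a₄ W.a₆ z1 w1 z2 w2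

end Points

end Fermat.Agent.S40x.Ell.ChartLaw
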