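import Fermat.Agent.S40x.Ell.ChartDefs
import Fermat.Agent.S40x.Ell.ChartAlg

/-!
# S40 research (R4, elliptic side): THE EXACT CHART LAW on the kernel of reduction (helper95)

`chart_add` : for a Weierstrass curve `W` over a valued field `(K, v)` with integral coefficients
and two points `P`, `Q` of the kernel of reduction (`Kernel.Near v`), with
`(z1, w1) = (zc P, wc P)`, `(z2, w2) = (zc Q, wc Q)`:

* the three denominators `chB`, `chC3 (chLam)`, `chU (chZS) (chWS)` of the chart formulas are units;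
* `zc (P + Q) = sumZ z1 w1 z2 w2` and `wc (P + Q) = sumW z1 w1 z2 w2`, EXACTLY, in all cases
  (`P = 0`, `Q = 0`, `Q = -P`, doubling, generic; any residue characteristic, including `2`-torsion
  points in the kernel of reduction).

No power series and no formal group: the law is a composition of three rational functions with
denominators `1 + small`; `PolyInv.inv_mem_of_unit_valued` turns it into a polynomial on finite
inertia-stable sets.
-/

set_option autoImplicit false

noncomputable section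

namespace Fermat.Agent.S40x.Ell.ChartLaw

open Fermat.Agent.Lib.EC Fermat.Agent.Lib.EC.Kernel WeierstrassCurve WeierstrassCurve.Affine

section Points

variable {K : Type*} [Field K] [DecidableEq K] {Γ₀ : Type*} [LinearOrderedCommGroupWithZero Γ₀]
  (v : Valuation K Γ₀)

omit [DecidableEq K] in
/-- the chart equation of a point of the kernel of reduction. -/
theorem chartEq_point {W : Affine K} (hW : IsIntegralAt v W) {P : W.Point} (hP : Near v P) :
    ChartEq W.a₁ W.a₂ W.a₃ W.a₄ W.a₆ (zc P) (wc P) := by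
  obtain ⟨g1, g2, g3, g4, g6⟩ := hW
  rcases P with _ | ⟨x, y, h⟩
  · exact chartEq_zero
  · have q := (equation_iff x y).mp h.left
    have hy : y ≠ 0 := y_ne_zero v g1 g2 g3 g4 g6 hP q
    exact chart_eq hy q

omit [DecidableEq K] in
/-- `v w = v z ^ 3` on the kernel of reduction. -/
theorem val_wc {W : Affine K} (hW : IsIntegralAt v W) {P : W.Point} (hP : Near v P) :
    v (wc P) = v (zc P) ^ 3 := by
  obtain ⟨g1, g2, g3, g4, g6⟩ := hW
  rcases P with _ | ⟨x, y, h⟩
  · show v (0 : K) = v (0 : K) ^ 3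
    rw [map_zero, zero_pow (by norm_num)]
  · exact val_w v g1 g2 g3 g4 g6 hP ((equation_iff x y).mp h.left)

omit [DecidableEq K] in
/-- the denominator of the chart negation is a unit. -/
theorem val_chU {a1 a3 z w : K} {c : Γ₀} (h1 : v a1 ≤ 1) (h3 : v a3 ≤ 1) (hc : c < 1)
    (vz : v z ≤ c) (vw : v w ≤ c) : v (chU a1 a3 z w) = 1 := by
  unfold chU
  have hsm : v (a1 * z + a3 * w) < 1 := by
    refine lt_of_le_of_lt (v.map_add_le (g := c) ?_ ?_) hc
    · exact val_mul_le_of_le_one v h1 vz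
    · exact val_mul_le_of_le_one v h3 vw
  have : 1 - a1 * z - a3 * w = 1 - (a1 * z + a3 * w) := by ring
  rw [this]
  exact v.map_one_sub_of_lt hsm

/-- **The exact chart law on the kernel of reduction.** -/
theorem chart_add {W : Affine K} (hW : IsIntegralAt v W) : ChartLawStatement v W := by
  intro P Q hP hQ
  dsimp only
  have hzP := val_zc_lt_one v hW hP
  have hzQ := val_zc_lt_one v hW hQ
  obtain ⟨c, hc, vz1, vz2⟩ : ∃ c : Γ₀, c < 1 ∧ v (zc P) ≤ c ∧ v (zc Q) ≤ c :=
    ⟨max (v (zc P)) (v (zc Q)), max_lt hzP hzQ, le_max_left _ _, le_max_right _ _⟩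
  have hc1 : c ≤ 1 := hc.le
  have hc3 : c ^ 3 ≤ c := pow_le_self hc1 (by norm_num)
  have vw1 : v (wc P) ≤ c ^ 3 := by rw [val_wc v hW hP]; exact pow_le_pow_left' vz1 3
  have vw2 : v (wc Q) ≤ c ^ 3 := by rw [val_wc v hW hQ]; exact pow_le_pow_left' vz2 3
  obtain ⟨hB, -, -, hC3, -, -, hU⟩ :=
    val_chain v hW.a₁ hW.a₂ hW.a₃ hW.a₄ hW.a₆ hc vz1 vz2 vw1 vw2
  refine ⟨hB, hC3, hU, ?_⟩
  have hB0 : chB W.a₁ W.a₂ W.a₃ W.a₄ W.a₆ (zc P) (wc P) (wc Q) ≠ 0 := by
    intro h0; rw [h0, map_zero] at hB; exact zero_ne_one hB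
  have hC30 : chC3 W.a₂ W.a₄ W.a₆
      (chLam W.a₁ W.a₂ W.a₃ W.a₄ W.a₆ (zc P) (wc P) (zc Q) (wc Q)) ≠ 0 := by
    intro h0; rw [h0, map_zero] at hC3; exact zero_ne_one hC3
  have hE1 := chartEq_point v hW hP
  have hE2 := chartEq_point v hW hQ
  have hUP : chU W.a₁ W.a₃ (zc P) (wc P) ≠ 0 := by
    intro h0
    have := val_chU v hW.a₁ hW.a₃ hc vz1 (vw1.trans hc3)
    rw [h0, map_zero] at this; exact zero_ne_one this
  have hUQ : chU W.a₁ W.a₃ (zc Q) (wc Q) ≠ 0 := by
    intro h0
    have := val_chU v hW.a₁ hW.a₃ hc vz2 (vw2.trans hc3)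
    rw [h0, map_zero] at this; exact zero_ne_one this
  rcases P with _ | ⟨x1, y1, h1⟩
  · obtain ⟨k1, k2⟩ := law_origin_left hE2 hB0 hC30 hUQ
    rw [← Point.zero_def, zero_add]
    exact ⟨k1.symm, k2.symm⟩
  · rcases Q with _ | ⟨x2, y2, h2⟩
    · obtain ⟨k1, k2⟩ := law_origin_right hE1 hB0 hC30 hUP
      rw [← Point.zero_def, add_zero]
      exact ⟨k1.symm, k2.symm⟩
    · rw [near_some] at hP hQ
      obtain ⟨g1, g2, g3, g4, g6⟩ := hW
      have q1 := (equation_iff x1 y1).mp h1.left
      have q2 := (equation_iff x2 y2).mp h2.left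
      have hy1 : y1 ≠ 0 := y_ne_zero v g1 g2 g3 g4 g6 hP q1
      have hy2 : y2 ≠ 0 := y_ne_zero v g1 g2 g3 g4 g6 hQ q2
      have hx1 : x1 ≠ 0 := by
        intro h0; rw [h0, map_zero] at hP; exact not_lt.mpr zero_le hP
      rw [zc_some, wc_some, zc_some, wc_some] at *
      by_cases hxy : x1 = x2 ∧ y1 = W.negY x2 y2
      · rw [Point.add_of_Y_eq hxy.1 hxy.2]
        have hy2' : y2 = -y1 - W.a₁ * x1 - W.a₃ := by
          have := hxy.2
          simp only [negY] at this
          rw [hxy.1]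
          linear_combination this
        have hUval : chU W.a₁ W.a₃ (-x1 / y1) (-1 / y1) = -y2 / y1 := by
          unfold chU
          rw [hy2']
          field_simp
          ring
        have hz1 : -x1 / y1 ≠ 0 := div_ne_zero (neg_ne_zero.mpr hx1) hy1
        have hz2 : -x2 / y2 = -(-x1 / y1) / chU W.a₁ W.a₃ (-x1 / y1) (-1 / y1) := by
          rw [hUval, ← hxy.1]
          field_simp
        have hw2 : -1 / y2 = -(-1 / y1) / chU W.a₁ W.a₃ (-x1 / y1) (-1 / y1) := by
          rw [hUval]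
          field_simp
        obtain ⟨k1, k2⟩ := law_inverse hE1 hE2 hz1 hUP hz2 hw2 hB0 hC30
        exact ⟨k1.symm, k2.symm⟩
      · rw [Point.add_some hxy, zc_some, wc_some]
        -- Vieta relations from Mathlib
        have key := addPolynomial_slope h1.left h2.left hxy
        rw [addPolynomial_eq, neg_inj, Cubic.prod_X_sub_C_eq, Cubic.toPoly_injective] at key
        simp only [Cubic.mk.injEq] at key
        obtain ⟨-, k1, k2, k3⟩ := key
        simp only [addY, negAddY, negY]
        generalize hL : W.slope x1 x2 y1 y2 = L at *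
        generalize hxS : W.addX x1 x2 L = xS at *
        set M := y1 - L * x1 with hM
        have e1 : x1 + x2 + xS = L ^ 2 + W.a₁ * L - W.a₂ := by linear_combination k1
        have e2 : x1 * x2 + x1 * xS + x2 * xS = W.a₄ - 2 * L * M - W.a₁ * M - W.a₃ * L := by
          rw [hM]; linear_combination (-1 : K) * k2
        have e3 : x1 * x2 * xS = M ^ 2 + W.a₃ * M - W.a₆ := by
          rw [hM]; linear_combination k3
        have hl1 : y1 = L * x1 + M := by rw [hM]; ring
        have hyT : L * (xS - x1) + y1 = L * xS + M := by rw [hM]; ring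
        rw [hyT]
        have hslope : M ≠ 0 ∧ y2 = L * x2 + M ∧
            (-L / M) * (1 - W.a₁ * (-x1 / y1) - W.a₂ * (-x1 / y1) ^ 2
              - W.a₃ * (-1 / y1 + -1 / y2)
              - W.a₄ * (-x1 / y1) * (-1 / y1 + -1 / y2)
              - W.a₆ * ((-1 / y2) ^ 2 + (-1 / y1) * (-1 / y2) + (-1 / y1) ^ 2)) =
             (-x2 / y2) ^ 2 + (-x1 / y1) * (-x2 / y2) + (-x1 / y1) ^ 2 + W.a₁ * (-1 / y2) +
              W.a₂ * (-x1 / y1 + -x2 / y2) * (-1 / y2) + W.a₄ * (-1 / y2) ^ 2 := by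
          by_cases hx : x1 = x2
          · subst hx
            have hy : y1 ≠ W.negY x1 y2 := fun h => hxy ⟨rfl, h⟩
            have hyy : y1 = y2 := Y_eq_of_Y_ne h1.left h2.left rfl hy
            subst hyy
            rw [slope_of_Y_ne rfl hy] at hL
            simp only [negY] at hy hL
            have hs : y1 - (-y1 - W.a₁ * x1 - W.a₃) = 2 * y1 + W.a₁ * x1 + W.a₃ := by ring
            rw [hs] at hL
            have hs0 : 2 * y1 + W.a₁ * x1 + W.a₃ ≠ 0 := by
              intro h0
              apply hy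
              linear_combination h0
            have hL' : L * (2 * y1 + W.a₁ * x1 + W.a₃) =
                3 * x1 ^ 2 + 2 * W.a₂ * x1 + W.a₄ - W.a₁ * y1 := by
              rw [← hL, div_mul_cancel₀ _ hs0]
            have hM0 : y1 - L * x1 ≠ 0 := tangent_M_ne_zero v g1 g2 g3 g4 g6 hP q1 hL'
            exact ⟨hM0, hl1, tangent_slope q1 hy1 hM0 hL' rfl rfl⟩
          · rw [slope_of_X_ne hx] at hL
            obtain ⟨t1, t2, t3⟩ := chord_slope q1 q2 hy1 hy2 hx rfl rfl rfl rfl hB0
            rw [hL] at t1 t2 t3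
            exact ⟨t1, t2, t3⟩
        obtain ⟨hM0, hl2, hlam⟩ := hslope
        obtain ⟨r1, r2, r3⟩ := core v g1 g2 g3 g4 g6 hc hM0 hl1 hl2 e1 e2 e3 rfl rfl rfl hy1 hy2
          vz1 vz2 vw1 vw2 hlam
        obtain ⟨n1, -⟩ := core_neg v g1 g3 hc r1 vz1 vz2 r2 r3
        exact (fun h => ⟨h.1.symm, h.2.symm⟩)
          (law_generic hM0 hl1 hl2 e1 e2 e3 hy1 hy2 r1 hB0 hlam n1)

end Points

end Fermat.Agent.S40x.Ell.ChartLaw
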