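import Fermat.Agent.S40x.Ell.CycloLine

set_option autoImplicit false
set_option linter.unusedSectionVars false

/-!
# The multiplicative coordinate of a `p`-torsion point of the kernel of reduction is close to a root of unity

(helper67; block B of P-S44, item (B3-a) of helper45's message 22340.)

On a multiplicative model (`S05.MultData`, `v(a₄) ≤ v(p)^p`) let `S ≠ 0` be a `p`-torsion point of
the kernel of reduction and `u = UMult.uc γ S`.  Then there is a `p`-th root of unity `ζ ≠ 1` with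
`v(u - ζ) · v(p) ≤ v(a₄)` (`exists_root_of_torsion`), i.e. `u = ζ (1 + ε)` with
`v(ε) ≤ v(a₄) / v(p)`.

The valuation input is `val_pow_sub_one_of_near`: if `ζ^p = 1`, `τ^(p-1) = v(p)` and
`v(u - ζ) < τ` then `v(u^p - 1) = v(u - ζ) · v(p)` exactly
(`(1 + ε)^p - 1 = ε (ε^(p-1) + p (1 + ε s))`, `UMult.exists_one_add_pow_prime_eq'`).

Also `inertia_smul_T1`: the name asked for in the block B interface for
`CycloLine.smul_eq_nsmul_of_mem_T1`.
-/

namespace Fermat.Agent.S40x.Ell.CycloLine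

open WeierstrassCurve WeierstrassCurve.Affine Fermat.Agent.S05 Fermat.Agent.S40x.Ell.UMult

section valuation

variable {K : Type*} [Field K] (A : ValuationSubring K)

/-- If `u` is closer to the `p`-th root of unity `ζ` than `τ = v(p)^(1/(p-1))`, then
`v(u^p - 1) = v(u - ζ) v(p)`. -/
theorem val_pow_sub_one_of_near {p : ℕ} (hp : p.Prime) (hp0 : (p : K) ≠ 0) {u ζ : K}
    (hζ : ζ ^ p = 1) {τ : A.ValueGroup} (hτ : τ ^ (p - 1) = A.valuation (p : K))
    (h : A.valuation (u - ζ) < τ) :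
    A.valuation (u ^ p - 1) = A.valuation (u - ζ) * A.valuation (p : K) := by
  have hp1 : p - 1 ≠ 0 := by have := hp.two_le; omega
  set π := A.valuation (p : K) with hπdef
  have hπ0 : π ≠ 0 := (A.valuation.ne_zero_iff).2 hp0
  have hπ1 : π ≤ 1 := (A.valuation_le_one_iff _).2 (_root_.natCast_mem A p)
  have hτ1 : τ ≤ 1 := by
    by_contra hcon
    rw [not_le] at hcon
    have : 1 < τ ^ (p - 1) := one_lt_pow₀ hcon hp1
    rw [hτ] at this
    exact absurd hπ1 (not_le.2 this)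
  have hvζ : A.valuation ζ = 1 := by
    have h1 : A.valuation ζ ^ p = 1 := by rw [← map_pow, hζ, map_one]
    exact (pow_eq_one_iff_of_nonneg zero_le hp.ne_zero).1 h1
  have hζ0 : ζ ≠ 0 := by
    intro h0; rw [h0, map_zero] at hvζ; exact zero_ne_one hvζ
  -- `u = ζ (1 + ε)`
  set ε := (u - ζ) / ζ with hε
  have hvε : A.valuation ε = A.valuation (u - ζ) := by rw [hε, map_div₀, hvζ, div_one]
  have hvετ : A.valuation ε < τ := by rw [hvε]; exact h
  have hvε1 : A.valuation ε < 1 := lt_of_lt_of_le hvετ hτ1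
  have hεA : ε ∈ A := (A.valuation_le_one_iff _).1 hvε1.le
  have hu : u = ζ * (1 + ε) := by rw [hε]; field_simp; ring
  obtain ⟨s', hs'⟩ := exists_one_add_pow_prime_eq' hp (⟨ε, hεA⟩ : A)
  set s : K := (s' : K) with hs
  have hsA : A.valuation s ≤ 1 := (A.valuation_le_one_iff _).2 s'.2
  have hbin : (1 + ε) ^ p = 1 + ε ^ p + (p : K) * ε * (1 + ε * s) := by
    have := congrArg (fun x : A => (x : K)) hs'
    simpa using this
  have hfac : u ^ p - 1 = ε * (ε ^ (p - 1) + (p : K) * (1 + ε * s)) := by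
    have hpp : ε ^ p = ε * ε ^ (p - 1) := by
      rw [← pow_succ']
      congr 1
      omega
    rw [hu, mul_pow, hζ, one_mul, hbin, hpp]
    ring
  have h1 : A.valuation (ε ^ (p - 1)) < π := by
    rw [map_pow, ← hτ]
    exact pow_lt_pow_left₀ hvετ zero_le hp1
  have h2 : A.valuation ((p : K) * (1 + ε * s)) = π := by
    rw [map_mul]
    have : A.valuation (1 + ε * s) = 1 := by
      apply (A.valuation).map_one_add_of_lt
      rw [map_mul]
      calc A.valuation ε * A.valuation s ≤ A.valuation ε * 1 := by gcongr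
        _ = A.valuation ε := mul_one _
        _ < 1 := hvε1
    rw [this, mul_one]
  have h3 : A.valuation (ε ^ (p - 1) + (p : K) * (1 + ε * s)) = π := by
    rw [Valuation.map_add_eq_of_lt_right _ (by rw [h2]; exact h1), h2]
  rw [hfac, map_mul, h3, hvε]

end valuation

section model

variable {K : Type*} [Field K] [DecidableEq K] (A : ValuationSubring K) {W : Affine K} {γ : K}

/-- **(B3-a)** the multiplicative coordinate of a nonzero `p`-torsion point of the kernel of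
reduction is close to a nontrivial `p`-th root of unity: `u(S) = ζ (1 + ε)` with
`v(ε) v(p) ≤ v(a₄)`; more precisely `v(u(S) - ζ) < v(z(S))` and
`v(u(S)^p - 1) = v(u(S) - ζ) v(p)`. -/
theorem exists_root_of_torsion' (D : MultData A W γ) {p : ℕ} (hp : p.Prime) (hp2 : p ≠ 2)
    (hp0 : (p : K) ≠ 0) (hπ : A.valuation W.a₄ ≤ A.valuation (p : K) ^ p)
    {ζ₀ : K} (hζ₀ : IsPrimitiveRoot ζ₀ p)
    {S : W.Point} (hS : NearZero A S) (hS0 : S ≠ 0) (hpS : p • S = 0) :
    ∃ ζ : K, ζ ^ p = 1 ∧ ζ ≠ 1 ∧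
      A.valuation (uc γ S - ζ) < A.valuation (KernelOfReduction.zc S) ∧
      A.valuation (uc γ S ^ p - 1) = A.valuation (uc γ S - ζ) * A.valuation (p : K) ∧
      A.valuation (uc γ S - ζ) * A.valuation (p : K) ≤ A.valuation W.a₄ := by
  have haA : W.a₂ ∈ A := by rw [← A.valuation_le_one_iff, D.ha]
  have hbA : W.a₄ ∈ A := by rw [← A.valuation_le_one_iff]; exact D.hb.le
  have hp3 : 3 ≤ p := by have := hp.two_le; omega
  obtain ⟨hτ, -⟩ := torsion_depth A D hp hp2 hp0 hπ hS hS0 hpS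
  set τ := A.valuation (KernelOfReduction.zc S) with hτdef
  have hτ1 : τ < 1 := KernelOfReduction.val_zc_lt_one A D.model haA hbA hS
  have hz0 : KernelOfReduction.zc S ≠ 0 := fun h0 =>
    hS0 ((KernelOfReduction.zc_eq_zero_iff A D.model haA hbA hS).1 h0)
  have hτ0 : τ ≠ 0 := (A.valuation.ne_zero_iff).2 hz0
  have hτpos : 0 < τ := zero_lt_iff.2 hτ0
  have hπτ : A.valuation (p : K) < τ := by
    rw [← hτ]
    calc τ ^ (p - 1) ≤ τ ^ 2 := pow_le_pow_of_le_one zero_le hτ1.le (by omega)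
      _ = τ * τ := pow_two τ
      _ < τ * 1 := mul_lt_mul_of_pos_left hτ1 hτpos
      _ = τ := mul_one τ
  have hβτp : A.valuation W.a₄ < τ ^ p :=
    lt_of_le_of_lt hπ (pow_lt_pow_left₀ hπτ zero_le hp.ne_zero)
  have hup : A.valuation (uc γ S ^ p - 1) ≤ A.valuation W.a₄ :=
    uc_pow_sub_one A D.model haA D.hb D.hγ hS hpS
  obtain ⟨ζ, hζp, hζ⟩ := exists_root_near A hp.pos hζ₀ (lt_of_le_of_lt hup hβτp)
  have hu1 : A.valuation (uc γ S - 1) = τ := val_uc_sub_one A D hS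
  have hζ1 : ζ ≠ 1 := by
    rintro rfl
    rw [hu1] at hζ
    exact lt_irrefl _ hζ
  have hexact := val_pow_sub_one_of_near A hp hp0 hζp hτ hζ
  exact ⟨ζ, hζp, hζ1, hζ, hexact, by rw [← hexact]; exact hup⟩

/-- **(B3-a)**, the literal of the block B interface. -/
theorem exists_root_of_torsion (D : MultData A W γ) {p : ℕ} (hp : p.Prime) (hp2 : p ≠ 2)
    (hp0 : (p : K) ≠ 0) (hπ : A.valuation W.a₄ ≤ A.valuation (p : K) ^ p)
    {ζ₀ : K} (hζ₀ : IsPrimitiveRoot ζ₀ p)
    {S : W.Point} (hS : NearZero A S) (hS0 : S ≠ 0) (hpS : p • S = 0) :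
    ∃ ζ : K, ζ ^ p = 1 ∧ ζ ≠ 1 ∧
      A.valuation (uc γ S - ζ) * A.valuation (p : K) ≤ A.valuation W.a₄ := by
  obtain ⟨ζ, h1, h2, -, -, h3⟩ := exists_root_of_torsion' A D hp hp2 hp0 hπ hζ₀ hS hS0 hpS
  exact ⟨ζ, h1, h2, h3⟩

/-- **(B3-a)** over an algebraically closed field. -/
theorem exists_root_of_torsion_of_isAlgClosed [IsAlgClosed K] (D : MultData A W γ) {p : ℕ}
    (hp : p.Prime) (hp2 : p ≠ 2) (hp0 : (p : K) ≠ 0)
    (hπ : A.valuation W.a₄ ≤ A.valuation (p : K) ^ p)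
    {S : W.Point} (hS : NearZero A S) (hS0 : S ≠ 0) (hpS : p • S = 0) :
    ∃ ζ : K, ζ ^ p = 1 ∧ ζ ≠ 1 ∧
      A.valuation (uc γ S - ζ) * A.valuation (p : K) ≤ A.valuation W.a₄ := by
  have : NeZero ((p : ℕ) : K) := ⟨hp0⟩
  obtain ⟨ζ₀, hζ₀⟩ := HasEnoughRootsOfUnity.exists_primitiveRoot K p
  exact exists_root_of_torsion A D hp hp2 hp0 hπ hζ₀ hS hS0 hpS

end model

section frey

open Fermat.Agent.S13

/-- **(B3-b)**, under the name of the block B interface (`= smul_eq_nsmul_of_mem_T1`). -/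
theorem inertia_smul_T1 {P : FreyPackage} {B : ValuationSubring Qbar}
    (M : Fermat.Agent.S40x.Ell.FreyMult.MultModel P B)
    {σ : GQ} (hσ : σ ∈ B.inertiaSubgroupIn ℚ) {a : ℕ}
    (ha : ∀ ζ : Qbar, ζ ^ P.p = 1 → σ ζ = ζ ^ a) {s : Tors P} (hs : s ∈ M.T1) :
    σ • s = a • s :=
  smul_eq_nsmul_of_mem_T1 M hσ ha hs

end frey

end Fermat.Agent.S40x.Ell.CycloLine
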