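/-
P-S44, block B: the leaf `LeafB'` of the S44 skeleton (helper95's `S40x/A/S44SkeletonV2`), i.e.
`Iface.freyLocalShape` sharpened to `Nat.card T1 = p` (helper45).

`T1 ≠ ⊥` comes from `det ρ̄ = ε` on inertia: if `T1 = ⊥` the inertia group `I` of `B ∣ p` acts
trivially on `E[p]` (claim (b)), so `det ρ̄(s) = 1` for `s ∈ I`; but some `s ∈ I` moves `ζ_p`
(`S33x/Consumer/InertiaUnit.exists_inertia_apply_ne`), and `det ρ̄(s) = n` when `s ζ = ζ ^ n`
(`S40x/A/RhoW.det_rho`, on the integral model `Y² = X(X - a^p)(X + b^p)`).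
-/
import Fermat.Agent.S40x.Ell.Iface
import Fermat.Agent.S40x.A.S44SkeletonV2
import Fermat.Agent.S40x.A.CopyFrey
import Fermat.Agent.S33x.Consumer.InertiaUnit

set_option autoImplicit false
set_option linter.unusedSectionVars false
set_option linter.style.haveILetI false

noncomputable section

namespace Fermat.Agent.S40x.Ell.LeafB

open WeierstrassCurve WeierstrassCurve.Affine Fermat.Agent.S05 Fermat.Agent.S13
  Fermat.Agent.S13.LocalP Fermat.Agent.S40x.Ell.FreyMult Fermat.Agent.S40x.Kummer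
  Fermat.Agent.S40x.A.RhoW

/-- the integral model `Y² = X³ + (b^p - a^p) X² - a^p b^p X` of the Frey curve. -/
def freyTwoInt (P : FreyPackage) : WeierstrassCurve ℤ :=
  ⟨0, P.b ^ P.p - P.a ^ P.p, 0, -(P.a ^ P.p * P.b ^ P.p), 0⟩

theorem freyTwoInt_map (P : FreyPackage) :
    (freyTwoInt P).map (Int.castRingHom ℚ) = freyTwoAB P := by
  ext <;> simp [freyTwoInt, freyTwoAB]

theorem isIntegralModelOf_freyTwoInt (P : FreyPackage) :
    (freyTwoInt P).IsIntegralModelOf P.freyCurve := by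
  refine ⟨changeTwoAB⁻¹, ?_⟩
  rw [freyTwoInt_map, ← changeTwoAB_smul P, inv_smul_smul]

variable {P : FreyPackage} {B : ValuationSubring Qbar}

/-- if inertia acts trivially on `E[p]` we get a contradiction with `det = ε`. -/
theorem exists_inertia_smul_ne (P : FreyPackage) (B : ValuationSubring Qbar)
    (hB : B.LiesOverPrime P.p) : ∃ s ∈ B.inertiaSubgroupIn ℚ, ∃ x : Tors P, s • x ≠ x := by
  by_contra hcon
  push Not at hcon
  haveI : Fact P.p.Prime := ⟨P.pp⟩
  have hp2 : P.p ≠ 2 := p_ne_two P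
  set W := freyTwoInt P with hWdef
  have hW : W.IsIntegralModelOf P.freyCurve := isIntegralModelOf_freyTwoInt P
  haveI : P.freyCurve.IsElliptic := Fermat.Agent.S40x.A.CopyFrey.isElliptic_freyCurve P
  have hΔ : W.Δ ≠ 0 := Fermat.Agent.S41.NonEis.Δ_ne_zero_of_isIntegralModelOf P.freyCurve hW
  obtain ⟨e, he⟩ := Fermat.Agent.S40x.A.CopyFrey.exists_transfer_tors (E := P.freyCurve) P.p hW
  obtain ⟨s, hs, ζ, hζp, hne⟩ :=
    Fermat.Agent.S33x.Consumer.InertiaUnit.exists_inertia_apply_ne B P.pp hp2 hB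
  have hζ1 : ζ ≠ 1 := by
    intro h1
    apply hne
    rw [h1, map_one]
  have hζprim : IsPrimitiveRoot ζ P.p := by
    have hdvd : orderOf ζ ∣ P.p := orderOf_dvd_of_pow_eq_one hζp
    rcases (Nat.dvd_prime P.pp).1 hdvd with h1 | h1
    · exact absurd (orderOf_eq_one_iff.1 h1) hζ1
    · rw [← h1]; exact IsPrimitiveRoot.orderOf ζ
  haveI : NeZero P.p := ⟨P.hp0⟩
  have h1 : (s ζ) ^ P.p = 1 := by rw [← map_pow, hζp, map_one]
  obtain ⟨n, hn, hnζ⟩ := hζprim.eq_pow_of_pow_eq_one h1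
  -- a basis of `V`
  haveI := finite_V W P.p hΔ
  haveI : Module.Finite (ZMod P.p) (V W P.p) := Module.Finite.of_finite
  let b : Module.Basis (Fin 2) (ZMod P.p) (V W P.p) :=
    Module.finBasisOfFinrankEq (ZMod P.p) (V W P.p) (finrank_eq_two W P.p hΔ)
  have hdet := det_rho b hΔ s hζprim hnζ.symm
  -- `s` acts trivially on `V`
  have htriv : ∀ v : V W P.p, s • v = (1 : Qbar ≃ₐ[ℚ] Qbar) • v := by
    intro v
    obtain ⟨x, rfl⟩ := e.surjective v
    rw [← he, ← he, hcon s hs x, one_smul]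
  rw [rho_congr b htriv, map_one, Matrix.det_one] at hdet
  -- so `n = 1`
  have hn1 : n = 1 := by
    have h2 : ((n : ℕ) : ZMod P.p) = ((1 : ℕ) : ZMod P.p) := by rw [← hdet, Nat.cast_one]
    have h3 := (ZMod.natCast_eq_natCast_iff' n 1 P.p).1 h2
    rw [Nat.mod_eq_of_lt hn, Nat.mod_eq_of_lt P.pp.one_lt] at h3
    exact h3
  apply hne
  rw [← hnζ, hn1, pow_one]

/-- `T1 ≠ ⊥`. -/
theorem T1_ne_bot (M : MultModel P B) (hB : B.LiesOverPrime P.p) : M.T1 ≠ ⊥ := by
  intro hbot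
  obtain ⟨s, hs, x, hx⟩ := exists_inertia_smul_ne P B hB
  have h := M.inertia_sub_mem_T1 hs x
  rw [hbot, Submodule.mem_bot, sub_eq_zero] at h
  exact hx h

/-- `#T1 = p`. -/
theorem card_T1 (M : MultModel P B) (hB : B.LiesOverPrime P.p) : Nat.card M.T1 = P.p := by
  haveI : Fact P.p.Prime := ⟨P.pp⟩
  refine le_antisymm M.card_T1_le ?_
  obtain ⟨s, hs, hs0⟩ := (Submodule.ne_bot_iff _).1 (T1_ne_bot M hB)
  have hinj : Function.Injective (fun k : ZMod P.p => (⟨k • s, M.T1.smul_mem k hs⟩ : M.T1)) := by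
    intro k k' h
    have h1 : k • s = k' • s := congrArg Subtype.val h
    have h2 : (k - k') • s = 0 := by rw [sub_smul, h1, sub_self]
    by_contra hne
    have h3 : k - k' ≠ 0 := sub_ne_zero.2 hne
    apply hs0
    have := congrArg (fun t => (k - k')⁻¹ • t) h2
    simpa [smul_smul, inv_mul_cancel₀ h3] using this
  have h := Nat.card_le_card_of_injective _ hinj
  rwa [Nat.card_zmod] at h

/-- **Block B's leaf of the S44 skeleton.** -/
theorem leafB' : Fermat.Agent.S40x.A.S44SkeletonV2.LeafB' := by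
  intro P hmult B hB
  obtain ⟨M⟩ := exists_multModel P hmult B hB
  exact ⟨M.T1, card_T1 M hB, fun σ hσ x => M.inertia_sub_mem_T1 hσ x,
    fun σ hσ a ha s hs => CycloLine.smul_eq_nsmul_of_mem_T1 M hσ ha hs,
    fun τ hτ hfix x => Iface.peu_ramifie M hB hτ hfix x⟩

end Fermat.Agent.S40x.Ell.LeafB
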