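import Fermat.Agent.S40x.Ell.ChartComul
import Fermat.Agent.S33x.L3.NoTrivSub
import Fermat.Agent.S19x.Alg.LocalGensOfChart

/-!
# S40 research (R4, elliptic side), (E2) abstract form: a finite inertia-stable subgroup carrying
exact chart coordinates obeying the chart law has no inertia-trivial subquotient (helper95)

`noTriv_of_chartLaw` : `X1 ≤ X` finite, inertia-stable, `ℓ`-power torsion (`ℓ ≠ 2` the residue
characteristic of `P`), with two inertia-equivariant functions `zf wf : ↥X1 → ℚ̄` with values in the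
maximal ideal of `P`, separating the points of `X1` and obeying the chart law of a Weierstrass
equation with coefficients in `inertiaInt P` (`ChartLawStatement` shape: three unit denominators,
`zf (s + t) = sumZ ..`, `wf (s + t) = sumW ..`).  Then `Consumer.Ord.NoTriv I act X1`.

Proof: `hucomul` of the landed `S33x/L3/NoTrivSub.noTriv_of_coords_sub` is
`ChartComul.sum_mem_of_chartLaw` inside the function form `S19x.Alg.OfChart.prodAlg` of the tensor
square of the order generated by `zf`, `wf`.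
-/

set_option autoImplicit false
set_option linter.unusedSectionVars false
set_option linter.unusedVariables false

noncomputable section

namespace Fermat.Agent.S40x.Ell.NoTrivChart

open Fermat.Agent.S56x.Flat.InertiaField Fermat.Agent.S40x.Ell.ChartLaw
  Fermat.Agent.S40x.Ell.ChartComul Fermat.Agent.S33x.L3.NoTrivSub
  Fermat.Agent.S19x.Alg.OfChart

local notation "Qbar" => AlgebraicClosure ℚ
local notation "Γℚ" => (AlgebraicClosure ℚ ≃ₐ[ℚ] AlgebraicClosure ℚ)

variable (P : ValuationSubring Qbar) {X : Type} [AddCommGroup X] (act : Γℚ → X → X)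
  (X1 : AddSubgroup X)
  (hstab : ∀ τ ∈ P.inertiaSubgroupIn ℚ, ∀ x ∈ X1, act τ x ∈ X1)
  {ℓ : ℕ} (hℓ : ℓ.Prime) (hP : P.LiesOverPrime ℓ)
  (h1 : ∀ x, act 1 x = x)
  (hmul : ∀ σ ∈ P.inertiaSubgroupIn ℚ, ∀ τ ∈ P.inertiaSubgroupIn ℚ, ∀ x,
    act (σ * τ) x = act σ (act τ x))
  (hadd : ∀ σ ∈ P.inertiaSubgroupIn ℚ, ∀ x y, act σ (x + y) = act σ x + act σ y)

include h1 hmul in
theorem restrictAct_bijective (τ : Γℚ) (hτ : τ ∈ P.inertiaSubgroupIn ℚ) :
    Function.Bijective (restrictAct P act X1 hstab τ) := by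
  have hτi : τ⁻¹ ∈ P.inertiaSubgroupIn ℚ := inv_mem hτ
  refine Function.bijective_iff_has_inverse.mpr ⟨restrictAct P act X1 hstab τ⁻¹, ?_, ?_⟩
  · intro x
    rw [← restrictAct_mul P act X1 hstab hmul τ⁻¹ hτi τ hτ, inv_mul_cancel,
      restrictAct_one P act X1 hstab h1]
  · intro x
    rw [← restrictAct_mul P act X1 hstab hmul τ hτ τ⁻¹ hτi, mul_inv_cancel,
      restrictAct_one P act X1 hstab h1]

include hℓ hP h1 hmul hadd in
/-- **(E2), abstract form.** -/
theorem noTriv_of_chartLaw [Finite X1] (hℓ2 : ℓ ≠ 2)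
    (htors : ∀ x ∈ X1, ∃ m : ℕ, ℓ ^ m • x = 0)
    (c1 c2 c3 c4 c6 : inertiaInt P) (zf wf : ↥X1 → Qbar)
    (hzeq : ∀ τ ∈ P.inertiaSubgroupIn ℚ, ∀ x : ↥X1,
      zf (restrictAct P act X1 hstab τ x) = τ (zf x))
    (hweq : ∀ τ ∈ P.inertiaSubgroupIn ℚ, ∀ x : ↥X1,
      wf (restrictAct P act X1 hstab τ x) = τ (wf x))
    (hzmem : ∀ x, zf x ∈ P.nonunits) (hwmem : ∀ x, wf x ∈ P.nonunits)
    (hsep : ∀ x y : ↥X1, x ≠ y → zf x ≠ zf y ∨ wf x ≠ wf y)
    (hlaw : ∀ s t : ↥X1,
      P.valuation (chB (c1 : Qbar) c2 c3 c4 c6 (zf s) (wf s) (wf t)) = 1 ∧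
      P.valuation (chC3 (c2 : Qbar) c4 c6
        (chLam (c1 : Qbar) c2 c3 c4 c6 (zf s) (wf s) (zf t) (wf t))) = 1 ∧
      P.valuation (chU (c1 : Qbar) c3
        (chZS (c1 : Qbar) c2 c3 c4 c6 (zf s) (wf s) (zf t) (wf t))
        (chWS (c1 : Qbar) c2 c3 c4 c6 (zf s) (wf s) (zf t) (wf t))) = 1 ∧
      zf (s + t) = sumZ (c1 : Qbar) c2 c3 c4 c6 (zf s) (wf s) (zf t) (wf t) ∧
      wf (s + t) = sumW (c1 : Qbar) c2 c3 c4 c6 (zf s) (wf s) (zf t) (wf t)) :
    Fermat.Agent.S33x.Consumer.Ord.NoTriv (P.inertiaSubgroupIn ℚ : Set Γℚ) act X1 := by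
  classical
  have : Fintype ↥X1 := Fintype.ofFinite _
  set u : Fin 2 → ↥X1 → Qbar := ![zf, wf] with hu
  set A : Subalgebra (inertiaInt P) (↥X1 → Qbar) :=
    Algebra.adjoin (inertiaInt P) (Set.range u) with hA
  have hzA : zf ∈ A := Algebra.subset_adjoin ⟨0, rfl⟩
  have hwA : wf ∈ A := Algebra.subset_adjoin ⟨1, rfl⟩
  have hgen_eqv : ∀ f ∈ Set.range u, IsEqv P (restrictAct P act X1 hstab) f := by
    rintro f ⟨i, rfl⟩
    fin_cases i
    · exact hzeq
    · exact hweq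
  have hgen_int : ∀ f ∈ Set.range u, ∀ x, f x ∈ P := by
    rintro f ⟨i, rfl⟩ x
    fin_cases i
    · exact P.nonunits_le (hzmem x)
    · exact P.nonunits_le (hwmem x)
  have hAeqv := adjoin_isEqv (P := P) (act := restrictAct P act X1 hstab) hgen_eqv
  have hAint := adjoin_integral (P := P) hgen_int
  have hMeqv := prodAlg_isEqv (P := P) (act := restrictAct P act X1 hstab) (A := A) hAeqv
  have hMint := prodAlg_integral (P := P) (A := A) hAint
  have hbij2 : ∀ τ ∈ P.inertiaSubgroupIn ℚ,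
      Function.Bijective (act₂ (restrictAct P act X1 hstab) τ) := by
    intro τ hτ
    have hb := restrictAct_bijective P act X1 hstab h1 hmul τ hτ
    exact hb.prodMap hb
  obtain ⟨kZ, kW⟩ := sum_mem_of_chartLaw P (act₂ (restrictAct P act X1 hstab)) hbij2
    (prodAlg A) hMeqv hMint c1 c2 c3 c4 c6
    (pull_fst_mem hzA) (pull_fst_mem hwA) (pull_snd_mem hzA) (pull_snd_mem hwA)
    (fun q => (hlaw q.1 q.2).1) (fun q => (hlaw q.1 q.2).2.1) (fun q => (hlaw q.1 q.2).2.2.1)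
  refine noTriv_of_coords_sub P act X1 hstab hℓ hP h1 hmul hadd u ?_ ?_ ?_ ?_ hℓ2 htors
  · intro i
    fin_cases i
    · exact hzeq
    · exact hweq
  · intro i x
    fin_cases i
    · exact hzmem x
    · exact hwmem x
  · intro x y hxy
    rcases hsep x y hxy with h | h
    · exact ⟨0, h⟩
    · exact ⟨1, h⟩
  · intro i
    fin_cases i
    · obtain ⟨m, g, h, hg, hh, hF⟩ := exists_fin_of_mem_prodAlg kZ
      refine ⟨m, g, h, hg, hh, fun s t => ?_⟩
      rw [← hF s t]
      exact (hlaw s t).2.2.2.1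
    · obtain ⟨m, g, h, hg, hh, hF⟩ := exists_fin_of_mem_prodAlg kW
      refine ⟨m, g, h, hg, hh, fun s t => ?_⟩
      rw [← hF s t]
      exact (hlaw s t).2.2.2.2

end Fermat.Agent.S40x.Ell.NoTrivChart
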