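import Mathlib

set_option autoImplicit false

/-!
# Changing the primitive root of unity in a Kummer datum

(helper67; block B of P-S44, leaf asked by helper45, message 22907.)

`b` with `b ^ p ∈ U` and `f b = ζS ^ j * b` (`ζS` a primitive `p`-th root of unity).  For any other
primitive `p`-th root of unity `ζ = ζS ^ m` the power `b ^ m` satisfies `(b ^ m) ^ p ∈ U` and
`f (b ^ m) = ζ ^ j * b ^ m`, for every multiplicative `f` and every `j` (`rescale`).
-/

namespace Fermat.Agent.S40x.Ell.Rescale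

variable {K : Type*} [Field K]

/-- a primitive root is a power of any other primitive root of the same order. -/
theorem exists_pow_eq {p : ℕ} (hp : p ≠ 0) {ζS ζ : K} (hζS : IsPrimitiveRoot ζS p)
    (hζ : IsPrimitiveRoot ζ p) : ∃ m : ℕ, m < p ∧ ζS ^ m = ζ :=
  have : NeZero p := ⟨hp⟩
  hζS.eq_pow_of_pow_eq_one hζ.pow_eq_one

/-- the multiplier of `b ^ m` is the `m`-th power of the multiplier of `b`. -/
theorem map_pow_of_map_eq {F : Type*} [FunLike F K K] [MonoidHomClass F K K] (f : F)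
    {ζS ζ b : K} {m j : ℕ} (hm : ζS ^ m = ζ) (hf : f b = ζS ^ j * b) :
    f (b ^ m) = ζ ^ j * b ^ m := by
  rw [map_pow, hf, mul_pow, ← hm, ← pow_mul, ← pow_mul, mul_comm j m]

/-- **Rescaling**, for monoid homomorphisms. -/
theorem rescale_monoidHom {p : ℕ} (hp : p.Prime) {ζS ζ : K} (hζS : IsPrimitiveRoot ζS p)
    (hζ : IsPrimitiveRoot ζ p) (U : Submonoid K) {b : K} (hb : b ^ p ∈ U) :
    ∃ m : ℕ, (b ^ m) ^ p ∈ U ∧
      ∀ (f : K →* K) (j : ℕ), f b = ζS ^ j * b → f (b ^ m) = ζ ^ j * b ^ m := by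
  obtain ⟨m, -, hm⟩ := exists_pow_eq hp.ne_zero hζS hζ
  refine ⟨m, ?_, fun f j hf => map_pow_of_map_eq f hm hf⟩
  rw [← pow_mul, mul_comm, pow_mul]
  exact pow_mem hb m

/-- **Rescaling** (the literal of the block B interface). -/
theorem rescale {p : ℕ} (hp : p.Prime) {ζS ζ : K} (hζS : IsPrimitiveRoot ζS p)
    (hζ : IsPrimitiveRoot ζ p) (U : Submonoid K) {b : K} (hb : b ^ p ∈ U) :
    ∃ m : ℕ, (b ^ m) ^ p ∈ U ∧
      ∀ (f : K →+* K) (j : ℕ), f b = ζS ^ j * b → f (b ^ m) = ζ ^ j * b ^ m := by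
  obtain ⟨m, -, hm⟩ := exists_pow_eq hp.ne_zero hζS hζ
  refine ⟨m, ?_, fun f j hf => map_pow_of_map_eq f hm hf⟩
  rw [← pow_mul, mul_comm, pow_mul]
  exact pow_mem hb m

/-- **Rescaling**, with the exponent exposed: `ζ = ζS ^ m`, `0 < m < p`, and the conclusion for
every type of multiplicative maps (e.g. `K ≃ₐ[k] K`). -/
theorem rescale_class {p : ℕ} (hp : p.Prime) {ζS ζ : K} (hζS : IsPrimitiveRoot ζS p)
    (hζ : IsPrimitiveRoot ζ p) (U : Submonoid K) {b : K} (hb : b ^ p ∈ U) :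
    ∃ m : ℕ, 0 < m ∧ m < p ∧ ζS ^ m = ζ ∧ (b ^ m) ^ p ∈ U ∧
      ∀ {F : Type} [FunLike F K K] [MonoidHomClass F K K] (f : F) (j : ℕ),
        f b = ζS ^ j * b → f (b ^ m) = ζ ^ j * b ^ m := by
  obtain ⟨m, hmp, hm⟩ := exists_pow_eq hp.ne_zero hζS hζ
  have hm0 : 0 < m := by
    rcases Nat.eq_zero_or_pos m with h0 | h0
    · exfalso
      subst h0
      rw [pow_zero] at hm
      have h1 := hζ.eq_orderOf
      rw [← hm, orderOf_one] at h1
      exact hp.one_lt.ne' h1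
    · exact h0
  refine ⟨m, hm0, hmp, hm, ?_, fun f j hf => map_pow_of_map_eq f hm hf⟩
  rw [← pow_mul, mul_comm, pow_mul]
  exact pow_mem hb m

end Fermat.Agent.S40x.Ell.Rescale
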